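import Fermat.Agent.PlaceRed.Deuring
import Fermat.Prelude.Def_ModularCurve_ReductionModL

/-!
# Deuring's reduction gives `IsPlaceReductionAlong`

`IsGauss R` says that the constant reduction `R` of the modular function field restricts on
`A`-integral `q`-expansions to coefficientwise reduction, and that all units are ratios of those.
-/

set_option autoImplicit false

noncomputable section

open AlgebraicCurve ModularCurve

namespace FLTA.PlaceRed

variable {L : Type*} [Field L] [Algebra ℚ L] {A : ValuationSubring L}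
  {k : Type*} [Field k] {π : A →+* k} {N : ℕ}

/-- A constant reduction of the level `N` function field compatible with `q`-expansions. -/
structure IsGauss
    (R : ConstRed A π (laurentBaseChange L (modularFunctionFieldFull N))
      (modularFunctionFieldFullC k N)) : Prop where
  mem : ∀ (y : LaurentSeries A)
    (hy : coeffMap A.subtype y ∈ laurentBaseChange L (modularFunctionFieldFull N)),
    (⟨coeffMap A.subtype y, hy⟩ : laurentBaseChange L (modularFunctionFieldFull N)) ∈ R.O
  red_eq : ∀ (y : LaurentSeries A)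
    (hy : coeffMap A.subtype y ∈ laurentBaseChange L (modularFunctionFieldFull N)),
    (R.red ⟨⟨coeffMap A.subtype y, hy⟩, mem y hy⟩ : LaurentSeries k) = coeffMap π y
  exists_frac : ∀ u : R.O, R.red u ≠ 0 → ∃ (a b : LaurentSeries A)
    (ha : coeffMap A.subtype a ∈ laurentBaseChange L (modularFunctionFieldFull N))
    (hb : coeffMap A.subtype b ∈ laurentBaseChange L (modularFunctionFieldFull N)),
    coeffMap π a ≠ 0 ∧ coeffMap π b ≠ 0 ∧
      (u : laurentBaseChange L (modularFunctionFieldFull N)) * ⟨coeffMap A.subtype b, hb⟩ =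
        ⟨coeffMap A.subtype a, ha⟩

variable {R : ConstRed A π (laurentBaseChange L (modularFunctionFieldFull N))
      (modularFunctionFieldFullC k N)} {g : ℕ}
  {r : Place L (laurentBaseChange L (modularFunctionFieldFull N)) →
      Place k (modularFunctionFieldFullC k N)}

theorem IsGauss.coeffMap_mem (h : IsGauss R) (y : LaurentSeries A)
    (hy : coeffMap A.subtype y ∈ laurentBaseChange L (modularFunctionFieldFull N)) :
    coeffMap π y ∈ modularFunctionFieldFullC k N := by
  rw [← h.red_eq y hy]
  exact SetLike.coe_mem _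

theorem IsGauss.red_ne_zero (h : IsGauss R) {y : LaurentSeries A}
    (hy : coeffMap A.subtype y ∈ laurentBaseChange L (modularFunctionFieldFull N))
    (hne : coeffMap π y ≠ 0) : R.red ⟨⟨coeffMap A.subtype y, hy⟩, h.mem y hy⟩ ≠ 0 := by
  intro h0
  apply hne
  rw [← h.red_eq y hy, h0]
  rfl

/-- A map of places compatible with units is a place reduction in the sense of the prelude. -/
theorem IsGauss.isPlaceReductionAlong (h : IsGauss R)
    (hF : RRCurve L (laurentBaseChange L (modularFunctionFieldFull N)) g)
    (hF' : RRCurve k (modularFunctionFieldFullC k N) g) (hr : R.IsPlaceMap r) :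
    IsPlaceReductionAlong A π N r := by
  refine ⟨fun P => by rw [hF.deg_eq_one, hF'.deg_eq_one], fun y hy hyk hne D hD Q => ?_⟩
  rw [hr _ (h.red_ne_zero hy hne) D hD Q]
  congr 1
  exact Subtype.ext (h.red_eq y hy)

/-- Any place reduction in the sense of the prelude is compatible with all units. -/
theorem IsGauss.isPlaceMap_of_isPlaceReductionAlong (h : IsGauss R)
    (hF : RRCurve L (laurentBaseChange L (modularFunctionFieldFull N)) g)
    (hr : IsPlaceReductionAlong A π N r) : R.IsPlaceMap r := by
  intro u hu D hD Q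
  obtain ⟨a, b, ha, hb, ha0, hb0, heq⟩ := h.exists_frac u hu
  set fa : laurentBaseChange L (modularFunctionFieldFull N) := ⟨coeffMap A.subtype a, ha⟩ with hfa
  set fb : laurentBaseChange L (modularFunctionFieldFull N) := ⟨coeffMap A.subtype b, hb⟩ with hfb
  have hub0 := R.coe_ne_zero hu
  have hfb0 : fb ≠ 0 := R.coe_ne_zero (h.red_ne_zero hb hb0)
  have hDeq : hF.divisorOf fa = D + hF.divisorOf fb := Finsupp.ext fun P => by
    rw [Finsupp.add_apply, hD, RRCurve.divisorOf_apply, RRCurve.divisorOf_apply, ← heq,
      P.ord_mul hub0 hfb0]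
  have ea := hr.2 a ha (h.coeffMap_mem a ha) ha0 (hF.divisorOf fa)
    (fun P => hF.divisorOf_apply fa P) Q
  have eb := hr.2 b hb (h.coeffMap_mem b hb) hb0 (hF.divisorOf fb)
    (fun P => hF.divisorOf_apply fb P) Q
  rw [hDeq, Finsupp.mapDomain_add, Finsupp.add_apply, eb] at ea
  have hk : R.red u * ⟨coeffMap π b, h.coeffMap_mem b hb⟩ = ⟨coeffMap π a, h.coeffMap_mem a ha⟩ := by
    have e1 : u * ⟨fb, h.mem b hb⟩ = ⟨fa, h.mem a ha⟩ := Subtype.ext heq
    have e2 := congrArg R.red e1
    rw [map_mul] at e2
    have r1 : R.red ⟨fa, h.mem a ha⟩ = ⟨coeffMap π a, h.coeffMap_mem a ha⟩ :=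
      Subtype.ext (h.red_eq a ha)
    have r2 : R.red ⟨fb, h.mem b hb⟩ = ⟨coeffMap π b, h.coeffMap_mem b hb⟩ :=
      Subtype.ext (h.red_eq b hb)
    rwa [r1, r2] at e2
  have hb0' : (⟨coeffMap π b, h.coeffMap_mem b hb⟩ : modularFunctionFieldFullC k N) ≠ 0 :=
    fun h0 => hb0 (congrArg Subtype.val h0)
  rw [← hk, Q.ord_mul hu hb0'] at ea
  omega

/-- Principal divisors are generated by the divisors of integral functions. -/
theorem IsGauss.principalGeneratedByIntegral (h : IsGauss R)
    (hF : RRCurve L (laurentBaseChange L (modularFunctionFieldFull N)) g) :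
    PrincipalGeneratedByIntegral A π N := by
  rintro D ⟨f, hf, hD⟩
  obtain ⟨c, u, hc, hu, hred⟩ := R.exists_normalise hf
  obtain ⟨a, b, ha, hb, ha0, hb0, heq⟩ := h.exists_frac u hred
  set fa : laurentBaseChange L (modularFunctionFieldFull N) := ⟨coeffMap A.subtype a, ha⟩ with hfa
  set fb : laurentBaseChange L (modularFunctionFieldFull N) := ⟨coeffMap A.subtype b, hb⟩ with hfb
  have hfb0 : fb ≠ 0 := R.coe_ne_zero (h.red_ne_zero hb hb0)
  have hDeq : D = hF.divisorOf fa - hF.divisorOf fb := Finsupp.ext fun P => by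
    have h1 : algebraMap L (laurentBaseChange L (modularFunctionFieldFull N)) c ≠ 0 := by
      simpa using hc
    rw [Finsupp.sub_apply, hD, RRCurve.divisorOf_apply, RRCurve.divisorOf_apply, ← heq,
      P.ord_mul (R.coe_ne_zero hred) hfb0, hu, Algebra.smul_def, P.ord_mul h1 hf,
      FLTA.Curves.ord_algebraMap]
    ring
  rw [hDeq]
  exact sub_mem
    (AddSubgroup.subset_closure
      ⟨a, ha, h.coeffMap_mem a ha, ha0, fun P => hF.divisorOf_apply fa P⟩)
    (AddSubgroup.subset_closure
      ⟨b, hb, h.coeffMap_mem b hb, hb0, fun P => hF.divisorOf_apply fb P⟩)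

variable [IsAlgClosed L] [IsAlgClosed k]

theorem IsGauss.reductionInputsAlong (h : IsGauss R)
    (hF : RRCurve L (laurentBaseChange L (modularFunctionFieldFull N)) g)
    (hF' : RRCurve k (modularFunctionFieldFullC k N) g) : ReductionInputsAlong A π N :=
  ⟨R.placeMap hF hF', h.isPlaceReductionAlong hF hF' (R.isPlaceMap_placeMap hF hF'),
    h.principalGeneratedByIntegral hF⟩

/-- Every place reduction is Deuring's. -/
theorem IsGauss.eq_placeMap (h : IsGauss R)
    (hF : RRCurve L (laurentBaseChange L (modularFunctionFieldFull N)) g)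
    (hF' : RRCurve k (modularFunctionFieldFullC k N) g) (hr : IsPlaceReductionAlong A π N r) :
    r = R.placeMap hF hF' :=
  R.eq_placeMap hF hF' (h.isPlaceMap_of_isPlaceReductionAlong hF hr)

/-- Any place reduction carries lattices of sections onto sections. -/
theorem IsGauss.reduces (h : IsGauss R)
    (hF : RRCurve L (laurentBaseChange L (modularFunctionFieldFull N)) g)
    (hF' : RRCurve k (modularFunctionFieldFullC k N) g) (hr : IsPlaceReductionAlong A π N r)
    (D : Divisor L (laurentBaseChange L (modularFunctionFieldFull N)))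
    (hD : 2 * (g : ℤ) ≤ Divisor.degree D) : R.Reduces D (Finsupp.mapDomain r D) := by
  rw [h.eq_placeMap hF hF' hr]
  exact R.reduces_mapDomain_placeMap hF hF' D hD

end FLTA.PlaceRed

end
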