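import Fermat.Agent.PlaceRed.GaussModular
import Fermat.Agent.PlaceRed.Along
import Fermat.Agent.Galois.Places

/-!
# The Gauss reduction is compatible with `q`-expansions
-/

set_option autoImplicit false
set_option synthInstance.maxHeartbeats 400000

noncomputable section

open ModularCurve AlgebraicCurve

namespace FLTA.PlaceRed

variable {A : ValuationSubring (AlgebraicClosure ℚ)} {k : Type} [Field k] {π : A →+* k}
  (N : ℕ) [NeZero N] (hπ : Function.Surjective π) (hN : (N : k) ≠ 0)

theorem isGauss_gaussRed : IsGauss (gaussRed N hπ hN) where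
  mem := gaussRed_coeffMap_mem N hπ hN
  red_eq := gaussRed_coeffMap N hπ hN
  exists_frac u hu := by
    obtain ⟨a, b, h⟩ := u.2
    refine ⟨a, b, h.num_mem, h.den_mem, fun h0 => hu (Subtype.ext ?_), h.den_ne,
      Subtype.ext h.mul_eq⟩
    rw [coe_gaussRed_red_eq N hπ hN u h, h0, zero_div]
    rfl

omit hπ hN in
/-- The Gauss reduction at a place of `AlgebraicClosure ℚ` over `ℓ ∤ N`. -/
theorem exists_isGauss_residue {ℓ : ℕ} [Fact ℓ.Prime] (hℓN : ¬ ℓ ∣ N)
    (A : ValuationSubring (AlgebraicClosure ℚ)) (hA : A.LiesOverPrime ℓ) :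
    ∃ R : ConstRed A (IsLocalRing.residue A) (modularFunctionFieldBar N)
      (modularFunctionFieldFullC (IsLocalRing.ResidueField A) N), IsGauss R := by
  have hN' : (N : IsLocalRing.ResidueField A) ≠ 0 := by
    rw [← map_natCast (IsLocalRing.residue A), Ne, IsLocalRing.residue_eq_zero_iff,
      ← A.coe_mem_nonunits_iff]
    push_cast
    exact fun h => hℓN ((FLTA.Galois.natCast_mem_nonunits_iff Fact.out hA N).mp h)
  exact ⟨gaussRed N IsLocalRing.residue_surjective hN', isGauss_gaussRed N _ hN'⟩

end FLTA.PlaceRed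

end
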