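import Fermat.Agent.PlaceRed.GenusCoeff
import Fermat.Agent.Igusa.Chart
import Fermat.Agent.Smooth.Defs

/-!
# Lifting `L(m D)` from characteristic `ℓ` to the charts
-/

set_option autoImplicit false

noncomputable section

open ModularCurve ModularCurve.IgusaScheme

namespace FLTA.PlaceRed

variable (N : ℕ) [NeZero N] (ℓ : ℕ) [Fact ℓ.Prime]

theorem exists_int_sub_eq_mul (ℓ : ℕ) [Fact ℓ.Prime] (c : ↥(GaloisRep.ratLocalizedAt ℓ)) :
    ∃ (n : ℤ) (d : ↥(GaloisRep.ratLocalizedAt ℓ)), c = n + ℓ * d := by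
  have hb : Nat.Coprime (c : ℚ).den ℓ := c.2
  have hg := Int.gcd_eq_gcd_ab ((c : ℚ).den : ℤ) (ℓ : ℤ)
  rw [Int.gcd_natCast_natCast, hb.gcd_eq_one, Nat.cast_one] at hg
  set u := Int.gcdA ((c : ℚ).den : ℤ) (ℓ : ℤ)
  set t := Int.gcdB ((c : ℚ).den : ℤ) (ℓ : ℤ)
  refine ⟨(c : ℚ).num * u, (t : ↥(GaloisRep.ratLocalizedAt ℓ)) * c, Subtype.ext ?_⟩
  have h1 : (1 : ℚ) = ((c : ℚ).den : ℚ) * u + (ℓ : ℚ) * t := by exact_mod_cast hg
  push_cast
  rw [← Rat.mul_den_eq_num]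
  calc (c : ℚ) = (c : ℚ) * (((c : ℚ).den : ℚ) * u + (ℓ : ℚ) * t) := by rw [← h1, mul_one]
    _ = _ := by ring

/-- A ring hom on `ℤ_(ℓ)` to characteristic `ℓ` only sees the class mod `ℓ`. -/
theorem exists_modEll (ℓ : ℕ) [Fact ℓ.Prime] :
    ∃ θ : ↥(GaloisRep.ratLocalizedAt ℓ) →+* ZMod ℓ,
      ∀ c, θ c = 0 → (ℓ : ↥(GaloisRep.ratLocalizedAt ℓ)) ∣ c := by
  let f : ↥(GaloisRep.ratLocalizedAt ℓ) → ZMod ℓ :=
    fun c => ((c : ℚ).num : ZMod ℓ) * (((c : ℚ).den : ℕ) : ZMod ℓ)⁻¹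
  have hden : ∀ c : ↥(GaloisRep.ratLocalizedAt ℓ), (((c : ℚ).den : ℕ) : ZMod ℓ) ≠ 0 := by
    intro c h
    rw [ZMod.natCast_eq_zero_iff] at h
    have hc : Nat.Coprime (c : ℚ).den ℓ := c.2
    exact (Fact.out : ℓ.Prime).one_lt.ne' (Nat.Coprime.eq_one_of_dvd hc.symm h)
  have key : ∀ (c : ↥(GaloisRep.ratLocalizedAt ℓ)) (a : ℤ) (b : ℕ), (b : ZMod ℓ) ≠ 0 →
      (c : ℚ) * b = a → f c = (a : ZMod ℓ) * (b : ZMod ℓ)⁻¹ := by
    intro c a b hb h
    have h' : (c : ℚ).num * (b : ℤ) = a * ((c : ℚ).den : ℤ) := by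
      have : ((c : ℚ).num : ℚ) * b = (a : ℚ) * ((c : ℚ).den : ℚ) := by
        rw [← Rat.mul_den_eq_num, ← h]; ring
      exact_mod_cast this
    have h'' := congrArg (fun z : ℤ => (z : ZMod ℓ)) h'
    push_cast at h''
    show ((c : ℚ).num : ZMod ℓ) * _ = _
    field_simp [hden c]
    linear_combination h''
  refine ⟨{ toFun := f, map_one' := ?_, map_zero' := ?_, map_add' := ?_, map_mul' := ?_ }, ?_⟩
  · simpa using key 1 1 1 (by simp) (by simp)
  · intro c d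
    have := key (c * d) ((c : ℚ).num * (d : ℚ).num) ((c : ℚ).den * (d : ℚ).den)
      (by push_cast; exact mul_ne_zero (hden c) (hden d))
      (by push_cast; rw [← Rat.mul_den_eq_num, ← Rat.mul_den_eq_num]; ring)
    rw [this]
    push_cast
    simp only [f, mul_inv]
    ring
  · simpa using key 0 0 1 (by simp) (by simp)
  · intro c d
    have := key (c + d) ((c : ℚ).num * (d : ℚ).den + (d : ℚ).num * (c : ℚ).den)
      ((c : ℚ).den * (d : ℚ).den)
      (by push_cast; exact mul_ne_zero (hden c) (hden d))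
      (by push_cast; rw [← Rat.mul_den_eq_num, ← Rat.mul_den_eq_num]; ring)
    rw [this]
    have h1 := hden c
    have h2 := hden d
    push_cast
    simp only [f]
    field_simp
  · intro c hc
    obtain ⟨n, d, hnd⟩ := exists_int_sub_eq_mul ℓ c
    have hn : (n : ZMod ℓ) = 0 := by
      have h1 : f c = (n : ZMod ℓ) := by
        have h2 := key c (n * ((d : ℚ).den : ℤ) + (ℓ : ℤ) * (d : ℚ).num) (d : ℚ).den (hden d) (by
          conv_lhs => rw [hnd]
          push_cast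
          rw [add_mul, mul_assoc, Rat.mul_den_eq_num])
        rw [h2]
        push_cast
        rw [ZMod.natCast_self, zero_mul, add_zero]
        exact mul_inv_cancel_right₀ (hden d) _
      exact h1 ▸ hc
    obtain ⟨e, he⟩ := (ZMod.intCast_zmod_eq_zero_iff_dvd n ℓ).mp hn
    exact ⟨(e : ↥(GaloisRep.ratLocalizedAt ℓ)) + d, by rw [hnd, he]; push_cast; ring⟩

theorem map_eq_cast_modEll {ℓ : ℕ} [Fact ℓ.Prime] {k : Type} [Field k] [CharP k ℓ]
    [Algebra (ZMod ℓ) k] (π : ↥(GaloisRep.ratLocalizedAt ℓ) →+* k)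
    (θ : ↥(GaloisRep.ratLocalizedAt ℓ) →+* ZMod ℓ) :
    π = (algebraMap (ZMod ℓ) k).comp θ := by
  ext c
  obtain ⟨n, d, rfl⟩ := exists_int_sub_eq_mul ℓ c
  simp [map_natCast, CharP.cast_eq_zero]

variable {N} in
/-- The reduction of a chart into `𝔽_ℓ((q))`. -/
def chartRed₀ (θ : ↥(GaloisRep.ratLocalizedAt ℓ) →+* ZMod ℓ)
    {S : Set ↥(modularFunctionFieldFull N)} (hS : FLTA.Igusa.IsChartSet N S) :
    chartAlg N ℓ S →+* LaurentSeries (ZMod ℓ) :=
  (coeffMap θ).comp (FLTA.Igusa.chartExp ℓ hS)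

theorem coeffMap_subtype_chartExp {S : Set ↥(modularFunctionFieldFull N)}
    (hS : FLTA.Igusa.IsChartSet N S) (f : chartAlg N ℓ S) :
    coeffMap (GaloisRep.ratLocalizedAt ℓ).subtype (FLTA.Igusa.chartExp ℓ hS f) =
      ((f : ↥(modularFunctionFieldFull N)) : LaurentSeries ℚ) :=
  HahnSeries.ext (funext fun _ => rfl)

theorem coeffMap_subtype_inj {z w : LaurentSeries ↥(GaloisRep.ratLocalizedAt ℓ)}
    (h : coeffMap (GaloisRep.ratLocalizedAt ℓ).subtype z =
      coeffMap (GaloisRep.ratLocalizedAt ℓ).subtype w) : z = w :=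
  HahnSeries.ext (funext fun n => Subtype.ext (congrArg (fun s => HahnSeries.coeff s n) h))

/-- The range of a ring hom into `𝔽_ℓ`-series, as a subspace. -/
def rangeSubmodule {R : Type*} [CommRing R] (r : R →+* LaurentSeries (ZMod ℓ)) :
    Submodule (ZMod ℓ) (LaurentSeries (ZMod ℓ)) where
  carrier := Set.range r
  zero_mem' := ⟨0, map_zero r⟩
  add_mem' := by
    rintro _ _ ⟨a, rfl⟩ ⟨b, rfl⟩
    exact ⟨a + b, map_add r a b⟩
  smul_mem' := by
    rintro c _ ⟨a, rfl⟩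
    refine ⟨(c.val : R) * a, ?_⟩
    rw [map_mul, map_natCast, ← nsmul_eq_mul, ← Nat.cast_smul_eq_nsmul (ZMod ℓ),
      ZMod.natCast_zmod_val]

/-- A series in both chart reductions (the second after division by `j ^ m`) comes from chart
elements that are integral at both charts. -/
theorem mem_span_inter_reductions (hℓN : ¬ ℓ ∣ N) {k : Type} [Field k] [CharP k ℓ]
    (π : ↥(GaloisRep.ratLocalizedAt ℓ) →+* k) {m : ℕ}
    (hsplit : ∀ h ∈ chartAlgMid N ℓ, ∃ a ∈ chartAlgFin N ℓ, ∃ b ∈ chartAlgInf N ℓ,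
      h = a + jFull N ^ m * b)
    {x : LaurentSeries k}
    (h1 : x ∈ Submodule.span k (FLTA.Smooth.reductions N ℓ π {jFull N}))
    (h2 : x * (jqModC k)⁻¹ ^ m ∈
      Submodule.span k (FLTA.Smooth.reductions N ℓ π {(jFull N)⁻¹})) :
    x ∈ Submodule.span k {v | ∃ y ∈ chartAlgFin N ℓ, y * (jFull N)⁻¹ ^ m ∈ chartAlgInf N ℓ ∧
      ∃ z : LaurentSeries ↥(GaloisRep.ratLocalizedAt ℓ),
        coeffMap (GaloisRep.ratLocalizedAt ℓ).subtype z = (y : LaurentSeries ℚ) ∧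
          coeffMap π z = v} := by
  letI : Algebra (ZMod ℓ) k := ZMod.algebra k ℓ
  obtain ⟨θ, hθ⟩ := exists_modEll ℓ
  have hπ := map_eq_cast_modEll π θ
  set ι := coeffMap (algebraMap (ZMod ℓ) k) with hι
  have hf := FLTA.Igusa.isChartSet_fin N
  have hi := FLTA.Igusa.isChartSet_inf N
  have hm := FLTA.Igusa.isChartSet_mid N
  let rf := chartRed₀ ℓ θ hf
  let ri := chartRed₀ ℓ θ hi
  let rm := chartRed₀ ℓ θ hm
  let U := rangeSubmodule ℓ rf
  let V := (rangeSubmodule ℓ ri).map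
    (LinearMap.mulLeft (ZMod ℓ) (jqModC (ZMod ℓ) ^ m))
  -- the two spans as spans of `𝔽_ℓ`-series
  have hred : ∀ {S : Set ↥(modularFunctionFieldFull N)} (hS : FLTA.Igusa.IsChartSet N S)
      (v : LaurentSeries k), v ∈ FLTA.Smooth.reductions N ℓ π S →
      ∃ y, ι (chartRed₀ ℓ θ hS y) = v := by
    rintro S hS v ⟨y, hy, z, hz, rfl⟩
    refine ⟨⟨y, hy⟩, ?_⟩
    have hz' : z = FLTA.Igusa.chartExp ℓ hS ⟨y, hy⟩ :=
      coeffMap_subtype_inj ℓ (hz.trans (coeffMap_subtype_chartExp N ℓ hS ⟨y, hy⟩).symm)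
    rw [chartRed₀, RingHom.comp_apply, hι, coeffMap_coeffMap, ← hπ, hz']
  have hx1 : x ∈ Submodule.span k (ι '' (U : Set _)) := by
    refine Submodule.span_mono ?_ h1
    intro v hv
    obtain ⟨y, hy⟩ := hred hf v hv
    exact ⟨_, ⟨y, rfl⟩, hy⟩
  have hj0 : jqModC k ≠ 0 := jqModC_ne_zero_of_nontrivial k
  have hx2 : x ∈ Submodule.span k (ι '' (V : Set _)) := by
    let μ : LaurentSeries k →ₗ[k] LaurentSeries k :=
      { toFun := fun v => jqModC k ^ m * v
        map_add' := mul_add _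
        map_smul' := fun c v => by
          simp only [RingHom.id_apply, ← HahnSeries.C_mul_eq_smul]
          ring }
    have h3 := Submodule.mem_map_of_mem (f := μ) h2
    rw [show μ (x * (jqModC k)⁻¹ ^ m) = jqModC k ^ m * (x * (jqModC k)⁻¹ ^ m) from rfl,
      mul_left_comm, ← mul_pow, mul_inv_cancel₀ hj0, one_pow,
      mul_one, Submodule.map_span] at h3
    refine Submodule.span_mono ?_ h3
    rintro _ ⟨v, hv, rfl⟩
    obtain ⟨y, hy⟩ := hred hi v hv
    refine ⟨jqModC (ZMod ℓ) ^ m * ri y, ⟨ri y, ⟨y, rfl⟩, rfl⟩, ?_⟩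
    rw [map_mul, map_pow, hι, coeffMap_jqModC]
    exact congrArg (fun u => jqModC k ^ m * u) hy
  refine Submodule.span_le.mpr ?_ (mem_span_image_inf U V hx1 hx2)
  rintro _ ⟨v, ⟨⟨a, ha⟩, w, ⟨b, hb⟩, hbw⟩, rfl⟩
  refine Submodule.subset_span ?_
  let inclA := chartIncl N ℓ (sFin_subset N)
  let inclB := chartIncl N ℓ (sInf_subset N)
  let jm : chartAlgMid N ℓ := inclA (jChartFin N ℓ)
  have hexpA : ∀ c, rm (inclA c) = rf c := fun c =>
    congrArg (coeffMap θ) (coeffMap_subtype_inj ℓ (by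
      rw [coeffMap_subtype_chartExp, coeffMap_subtype_chartExp, coe_chartIncl]))
  have hexpB : ∀ c, rm (inclB c) = ri c := fun c =>
    congrArg (coeffMap θ) (coeffMap_subtype_inj ℓ (by
      rw [coeffMap_subtype_chartExp, coeffMap_subtype_chartExp, coe_chartIncl]))
  have hexpJ : rm jm = jqModC (ZMod ℓ) := by
    have e : FLTA.Igusa.chartExp ℓ hm jm = jqModC ↥(GaloisRep.ratLocalizedAt ℓ) :=
      coeffMap_subtype_inj ℓ (by
        rw [coeffMap_subtype_chartExp, coeffMap_jqModC, jqModC_rat, coe_chartIncl,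
          coe_jChartFin, coe_jFull])
    show coeffMap θ (FLTA.Igusa.chartExp ℓ hm jm) = _
    rw [e, coeffMap_jqModC]
  let y : chartAlgMid N ℓ := inclA a - jm ^ m * inclB b
  have hy : rm y = 0 := by
    rw [map_sub, map_mul, map_pow, hexpA, hexpB, hexpJ, ha, hb]
    rw [LinearMap.mulLeft_apply] at hbw
    rw [hbw, sub_self]
  obtain ⟨g, hg⟩ := FLTA.Igusa.exists_eq_mul_of_forall_dvd ℓ hm hℓN y fun n =>
    hθ _ (congrArg (fun s : LaurentSeries (ZMod ℓ) => s.coeff n) hy)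
  obtain ⟨ga, hga, gb, hgb, hgab⟩ := hsplit g g.2
  let a' : chartAlgFin N ℓ := a - (ℓ : chartAlgFin N ℓ) * ⟨ga, hga⟩
  let b' : chartAlgInf N ℓ := b + (ℓ : chartAlgInf N ℓ) * ⟨gb, hgb⟩
  refine ⟨a', a'.2, ?_, FLTA.Igusa.chartExp ℓ hf a', coeffMap_subtype_chartExp N ℓ hf a', ?_⟩
  · have key : (a' : ↥(modularFunctionFieldFull N)) * (jFull N)⁻¹ ^ m = b' := by
      have h4 := congrArg (Subtype.val (p := fun z => z ∈ chartAlgMid N ℓ)) hg
      simp only [y, jm, inclA, inclB, Subalgebra.coe_sub, Subalgebra.coe_mul, Subalgebra.coe_pow,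
        coe_chartIncl, coe_jChartFin ] at h4
      push_cast at h4
      rw [hgab] at h4
      have hne : jFull N ^ m ≠ 0 := pow_ne_zero _ (jFull_ne_zero N)
      simp only [a', b', Subalgebra.coe_sub, Subalgebra.coe_mul, Subalgebra.coe_add,
        inv_pow]
      push_cast
      field_simp
      linear_combination h4
    rw [key]
    exact b'.2
  · have e : rf a' = rf a := by
      have h0 : (ℓ : LaurentSeries (ZMod ℓ)) = 0 := by
        rw [← map_natCast (algebraMap (ZMod ℓ) (LaurentSeries (ZMod ℓ))), ZMod.natCast_self,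
          map_zero]
      rw [map_sub, map_mul, map_natCast, h0, zero_mul, sub_zero]
    rw [← ha, ← e]
    show _ = coeffMap _ (coeffMap θ _)
    rw [coeffMap_coeffMap, ← hπ]

end FLTA.PlaceRed

end
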