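import Fermat.Agent.Smooth.Downstairs

/-!
# The two charts split the middle chart in high twist

For `m` large, every element of the middle chart is `a + j ^ m * b` with `a` in the finite chart
and `b` in the chart at infinity: the Čech obstruction vanishes already over `ℤ_(ℓ)`.
-/

set_option autoImplicit false

noncomputable section

open ModularCurve ModularCurve.IgusaScheme Polynomial

namespace FLTA.PlaceRed

variable (N : ℕ) [NeZero N] (ℓ : ℕ) [Fact ℓ.Prime]

set_option quotPrecheck false in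
local notation "Zl" => ↥(GaloisRep.ratLocalizedAt ℓ)

theorem chartAlgMid_eq_insert_inv :
    chartAlg N ℓ (insert (jFull N)⁻¹ {jFull N}) = chartAlgMid N ℓ := by
  rw [show insert (jFull N)⁻¹ ({jFull N} : Set ↥(modularFunctionFieldFull N)) =
    {jFull N, (jFull N)⁻¹} from Set.pair_comm _ _]

theorem chartAlgMid_eq_insert_inv_inv :
    chartAlg N ℓ (insert (jFull N)⁻¹⁻¹ {(jFull N)⁻¹}) = chartAlgMid N ℓ := by
  rw [inv_inv]

/-- The finite chart is spanned over `ℤ_(ℓ)[j]` by finitely many elements. -/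
theorem exists_generators_fin :
    ∃ (n : ℕ) (e : Fin n → ↥(modularFunctionFieldFull N)), (∀ i, e i ∈ chartAlgFin N ℓ) ∧
      ∀ f ∈ chartAlgFin N ℓ, ∃ p : Fin n → Zl[X], f = ∑ i, aeval (jFull N) (p i) * e i := by
  letI := (FLTA.Smooth.polyHom N ℓ (jFull N)).toRingHom.toAlgebra
  have hfin := FLTA.Smooth.polyHom_finite (ℓ := ℓ) (FLTA.Smooth.isChartParam_jFull N)
  haveI : Module.Finite Zl[X] ↥(chartAlgFin N ℓ) := hfin
  obtain ⟨n, e, he⟩ := Module.Finite.exists_fin (R := Zl[X]) (M := ↥(chartAlgFin N ℓ))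
  refine ⟨n, fun i => (e i : ↥(modularFunctionFieldFull N)), fun i => (e i).2, fun f hf => ?_⟩
  have hmem : (⟨f, hf⟩ : ↥(chartAlgFin N ℓ)) ∈ Submodule.span Zl[X] (Set.range e) :=
    he ▸ Submodule.mem_top
  obtain ⟨p, hp⟩ := Submodule.mem_span_range_iff_exists_fun Zl[X] |>.mp hmem
  refine ⟨p, ?_⟩
  have hp' := congrArg (chartAlgFin N ℓ).val hp
  simp only [map_sum, Subalgebra.coe_val] at hp'
  rw [← hp']
  refine Finset.sum_congr rfl fun i _ => ?_
  rw [Algebra.smul_def, RingHom.algebraMap_toAlgebra, Subalgebra.coe_mul]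
  congr 1
  exact (aeval_algHom_apply (chartAlgFin N ℓ).val (FLTA.Smooth.paramElem N ℓ (jFull N)) (p i)).symm

/-- For large `m`, the middle chart is the finite chart plus `j ^ m` times the chart at infinity. -/
theorem exists_split :
    ∃ n₀ : ℕ, ∀ m, n₀ ≤ m → ∀ h ∈ chartAlgMid N ℓ,
      ∃ a ∈ chartAlgFin N ℓ, ∃ b ∈ chartAlgInf N ℓ, h = a + jFull N ^ m * b := by
  classical
  obtain ⟨n, e, he, hgen⟩ := exists_generators_fin N ℓ
  have hj := jFull_ne_zero N
  have hinv : (jFull N)⁻¹ ∈ chartAlgInf N ℓ := subset_chartAlg N ℓ _ rfl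
  have hjfin : jFull N ∈ chartAlgFin N ℓ := subset_chartAlg N ℓ _ rfl
  have hex : ∀ i, ∃ s : ℕ, ((jFull N)⁻¹) ^ s * e i ∈ chartAlgInf N ℓ := by
    intro i
    refine exists_pow_mul_mem_chartAlg (Set.mem_singleton _) (inv_ne_zero hj) ?_
    rw [chartAlgMid_eq_insert_inv_inv]
    exact chartAlg_mono N ℓ (sFin_subset N) (he i)
  choose s hs using hex
  refine ⟨∑ i, s i, fun m hm => ?_⟩
  have hhigh : ∀ (i : Fin n) (t : ℕ), m ≤ t → ((jFull N)⁻¹) ^ t * e i ∈ chartAlgInf N ℓ := by
    intro i t ht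
    have h1 : s i ≤ t :=
      ((Finset.single_le_sum (f := s) (fun _ _ => Nat.zero_le _) (Finset.mem_univ i)).trans hm).trans
        ht
    obtain ⟨d, rfl⟩ := Nat.exists_eq_add_of_le h1
    rw [pow_add, mul_comm _ (((jFull N)⁻¹) ^ d), mul_assoc]
    exact mul_mem (pow_mem hinv d) (hs i)
  have key : ∀ t : ℕ, ∀ f ∈ chartAlgFin N ℓ,
      ∃ a ∈ chartAlgFin N ℓ, ∃ b ∈ chartAlgInf N ℓ,
        ((jFull N)⁻¹) ^ t * f = a + jFull N ^ m * b := by
    intro t
    induction t with
    | zero => exact fun f hf => ⟨f, hf, 0, zero_mem _, by simp⟩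
    | succ t ih =>
      intro f hf
      obtain ⟨p, rfl⟩ := hgen f hf
      obtain ⟨a, ha, b, hb, hab⟩ := ih (∑ i, aeval (jFull N) (divX (p i)) * e i)
        (sum_mem fun i _ => mul_mem
          (Algebra.adjoin_le (Set.singleton_subset_iff.mpr hjfin)
            (aeval_mem_adjoin_singleton Zl (jFull N))) (he i))
      refine ⟨a, ha, b + ∑ i, algebraMap Zl ↥(modularFunctionFieldFull N) ((p i).coeff 0) *
        (((jFull N)⁻¹) ^ (t + 1 + m) * e i), add_mem hb (sum_mem fun i _ => mul_mem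
          (Subalgebra.algebraMap_mem _ _) (hhigh i _ (by omega))), ?_⟩
      have hstep : ∀ i, ((jFull N)⁻¹) ^ (t + 1) * (aeval (jFull N) (p i) * e i) =
          ((jFull N)⁻¹) ^ t * (aeval (jFull N) (divX (p i)) * e i) +
            jFull N ^ m * (algebraMap Zl ↥(modularFunctionFieldFull N) ((p i).coeff 0) *
              (((jFull N)⁻¹) ^ (t + 1 + m) * e i)) := by
        intro i
        conv_lhs => rw [← divX_mul_X_add (p i)]
        rw [map_add, map_mul, aeval_X, aeval_C]
        have e1 : jFull N ^ m * ((jFull N)⁻¹) ^ m = 1 := by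
          rw [← mul_pow, mul_inv_cancel₀ hj, one_pow]
        have e2 : (jFull N)⁻¹ * jFull N = 1 := inv_mul_cancel₀ hj
        calc _ = ((jFull N)⁻¹) ^ t * (aeval (jFull N) (divX (p i)) * e i) * ((jFull N)⁻¹ * jFull N)
              + algebraMap Zl ↥(modularFunctionFieldFull N) ((p i).coeff 0) *
                ((jFull N)⁻¹) ^ (t + 1) * e i * (jFull N ^ m * ((jFull N)⁻¹) ^ m) := by
              rw [e1, mul_one, pow_succ]; ring
          _ = _ := by rw [e2, mul_one, pow_add]; ring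
      rw [Finset.mul_sum, Finset.sum_congr rfl fun i _ => hstep i, Finset.sum_add_distrib,
        ← Finset.mul_sum, hab, mul_add, Finset.mul_sum, add_assoc]
  intro h hh
  obtain ⟨t, ht⟩ := exists_pow_mul_mem_chartAlg (N := N) (ℓ := ℓ) (Set.mem_singleton (jFull N)) hj
    (x := h) (by rw [chartAlgMid_eq_insert_inv]; exact hh)
  obtain ⟨a, ha, b, hb, hab⟩ := key t _ ht
  refine ⟨a, ha, b, hb, ?_⟩
  rw [← hab, ← mul_assoc, ← mul_pow, inv_mul_cancel₀ hj, one_pow, one_mul]

end FLTA.PlaceRed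

end
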