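import Fermat.Agent.PlaceRed.Defs
import Fermat.Agent.Curves.RRDuality

/-!
# Function fields of one variable satisfy `RRCurve`
-/

set_option autoImplicit false

noncomputable section

open AlgebraicCurve

namespace FLTA.PlaceRed

variable {K F : Type*} [Field K] [Field F] [Algebra K F]
variable [IsAlgClosed K] [IsCurveOver K F] [FLTA.Curves.IsFunctionField K F]

theorem rrCurve_genusFF : RRCurve K F (genusFF K F) where
  nonempty := FLTA.Curves.IsFunctionField.exists_place
  deg_eq_one := IsCurveOver.deg_eq_one_of_isAlgClosed
  principal := IsCurveOver.hasPrincipalDivisors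
  finiteDimensional D := inferInstance
  finrank_eq D hD := FLTA.Curves.ell_eq_of_two_mul_genusFF_sub_two_lt (by omega)

theorem rrCurve_of_genusFF_eq {g : ℕ} (h : genusFF K F = g) : RRCurve K F g :=
  h ▸ rrCurve_genusFF

end FLTA.PlaceRed

end
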