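import Fermat.Agent.PlaceRed.GenusEqAux
import Fermat.Agent.PlaceRed.GenusEqSplit
import Fermat.Agent.PlaceRed.GenusEqDescent
import Fermat.Agent.PlaceRed.Along
import Fermat.Agent.PlaceRed.GaussIsGauss
import Fermat.Agent.PlaceRed.RRCurveOf
import Fermat.Agent.Curves.RRInstances
import Fermat.Agent.Smooth.Interface

/-!
# The genus of `X₀(N)` does not drop modulo `ℓ ∤ N`

Every section of `L(m D̄∞)` of the reduced field lifts to a section of `L(m D∞)` for `m` large.
-/

set_option autoImplicit false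

noncomputable section

open AlgebraicCurve ModularCurve ModularCurve.IgusaScheme

namespace FLTA.PlaceRed

local notation "Qb" => AlgebraicClosure ℚ

set_option synthInstance.maxHeartbeats 400000
set_option maxHeartbeats 2000000

variable {N : ℕ} [NeZero N] {ℓ : ℕ} [Fact ℓ.Prime]
variable {A : ValuationSubring (AlgebraicClosure ℚ)}

local notation "k" => IsLocalRing.ResidueField A

/-- A function field element with poles only over `j = ∞` of order at most `m` is integral on both
charts. -/
theorem isIntegral_both {K F : Type*} [Field K] [Field F] [Algebra K F] {g : ℕ}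
    (hR : RRCurve K F g) {x : F} (hx : x ≠ 0) {D : Divisor K F} (hD : IsPolar x D) {m : ℕ}
    {f : F} (hf : f ∈ riemannRochSpace (m • D)) :
    IsIntegral (Algebra.adjoin K ({x} : Set F)) f ∧
      IsIntegral (Algebra.adjoin K ({x⁻¹} : Set F)) (f * x⁻¹ ^ m) := by
  rcases eq_or_ne f 0 with rfl | hf0
  · rw [zero_mul]; exact ⟨isIntegral_zero, isIntegral_zero⟩
  refine ⟨isIntegral_adjoin_of_ord_nonneg hR hx fun v hv => Or.inr ?_,
    isIntegral_adjoin_of_ord_nonneg hR (inv_ne_zero hx) fun v hv => Or.inr ?_⟩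
  · have h := (RRCurve.mem_iff hf0).mp hf v
    rw [Finsupp.smul_apply, hD v, max_eq_right (by omega), nsmul_zero, neg_zero] at h
    exact h
  · have h := (RRCurve.mem_iff hf0).mp hf v
    rw [v.ord_inv] at hv
    rw [Finsupp.smul_apply, hD v, max_eq_left (by omega), nsmul_eq_mul, mul_neg, neg_neg] at h
    rw [v.ord_mul hf0 (pow_ne_zero _ (inv_ne_zero hx)), inv_pow, ← zpow_natCast, v.ord_inv,
      v.ord_zpow]
    omega

/-- `j` in the function field over `AlgebraicClosure ℚ`. -/
def jBar (N : ℕ) [NeZero N] : modularFunctionFieldBar N :=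
  ⟨coeffEmb Qb jq, coeffEmb_mem_laurentBaseChange Qb (modularFunctionField_le_full N (jq_mem N))⟩

theorem coe_jBar (N : ℕ) [NeZero N] :
    (jBar N : LaurentSeries Qb) = jqModC Qb := by
  show coeffEmb Qb jq = jqModC Qb
  rw [coeffEmb, ← jqModC_rat, coeffMap_jqModC]

/-- The embedding of the rational function field. -/
def toBarHom (N : ℕ) : ↥(modularFunctionFieldFull N) →+* modularFunctionFieldBar N :=
  ((coeffEmb Qb).comp (modularFunctionFieldFull N).toSubfield.subtype).codRestrict
    (modularFunctionFieldBar N).toSubfield.toSubring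
    fun x => coeffEmb_mem_laurentBaseChange Qb x.2

theorem toBarHom_jFull (N : ℕ) [NeZero N] : toBarHom N (jFull N) = jBar N :=
  Subtype.ext rfl

theorem toBarHom_algebraMap_mem (S : Set (modularFunctionFieldBar N))
    (a : ↥(GaloisRep.ratLocalizedAt ℓ)) :
    toBarHom N (algebraMap ↥(GaloisRep.ratLocalizedAt ℓ) ↥(modularFunctionFieldFull N) a) ∈
      Algebra.adjoin Qb S := by
  have h : toBarHom N (algebraMap ↥(GaloisRep.ratLocalizedAt ℓ) ↥(modularFunctionFieldFull N) a) =
      algebraMap Qb (modularFunctionFieldBar N) (algebraMap ℚ Qb (a : ℚ)) := by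
    rw [IsScalarTower.algebraMap_apply ↥(GaloisRep.ratLocalizedAt ℓ) ℚ
      ↥(modularFunctionFieldFull N), eq_ratCast, eq_ratCast]
    simp
    rfl
  rw [h]
  exact Subalgebra.algebraMap_mem _ _

/-- Reductions of functions integral on both twisted charts lie in the reduction of `L(m D∞)`. -/
theorem mem_map_redSpace (hA : A.LiesOverPrime ℓ)
    {R : ConstRed A (IsLocalRing.residue A) (modularFunctionFieldBar N)
      (modularFunctionFieldFullC k N)} (hG : IsGauss R)
    {D : Divisor Qb (modularFunctionFieldBar N)} (hD : IsPolar (jBar N) D) (m : ℕ)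
    {y : ↥(modularFunctionFieldFull N)} (hfin : y ∈ chartAlgFin N ℓ)
    (hinf : y * (jFull N)⁻¹ ^ m ∈ chartAlgInf N ℓ)
    {z : LaurentSeries ↥(GaloisRep.ratLocalizedAt ℓ)}
    (hz : coeffMap (GaloisRep.ratLocalizedAt ℓ).subtype z = (y : LaurentSeries ℚ)) :
    ∃ f ∈ R.redSpace (riemannRochSpace (m • D)),
      (f : LaurentSeries k) = coeffMap ((IsLocalRing.residue A).comp (zlToA hA)) z := by
  set zA := coeffMap (zlToA hA) z with hzA
  have hcoe : coeffMap A.subtype zA = coeffEmb Qb (y : LaurentSeries ℚ) := by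
    rw [hzA, coeffMap_coeffMap, subtype_comp_zlToA, ← coeffMap_coeffMap, hz, coeffEmb]
  have hy : coeffMap A.subtype zA ∈ modularFunctionFieldBar N :=
    hcoe ▸ coeffEmb_mem_laurentBaseChange Qb y.2
  have hyeq : (⟨coeffMap A.subtype zA, hy⟩ : modularFunctionFieldBar N) = toBarHom N y :=
    Subtype.ext hcoe
  refine ⟨R.red ⟨_, hG.mem zA hy⟩, ⟨⟨_, hG.mem zA hy⟩, ?_, rfl⟩, ?_⟩
  · show (⟨coeffMap A.subtype zA, hy⟩ : modularFunctionFieldBar N) ∈ riemannRochSpace (m • D)
    rw [hyeq]
    refine mem_rr_of_isIntegral hD ?_ m ?_ ?_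
    · intro h
      have := congrArg Subtype.val h
      rw [coe_jBar] at this
      exact jqModC_ne_zero_of_nontrivial Qb this
    · exact isIntegral_adjoin_map (toBarHom N) (toBarHom_jFull N)
        (toBarHom_algebraMap_mem _) hfin
    · have h := isIntegral_adjoin_map (toBarHom N) (y := (jBar N)⁻¹)
        (by rw [map_inv₀, toBarHom_jFull]) (toBarHom_algebraMap_mem _) hinf
      rwa [map_mul, map_pow, map_inv₀, toBarHom_jFull] at h
  · show ((R.red ⟨_, hG.mem zA hy⟩ : modularFunctionFieldFullC k N) : LaurentSeries k) = _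
    rw [hG.red_eq zA hy, hzA, coeffMap_coeffMap]

/-- Good reduction: the genus does not change modulo `ℓ`. -/
theorem genusFF_residue_eq (hℓN : ¬ ℓ ∣ N) (hA : A.LiesOverPrime ℓ) :
    genusFF k (modularFunctionFieldFullC k N) = genusFF Qb (modularFunctionFieldBar N) := by
  classical
  haveI hchar : CharP k ℓ := FLTA.Galois.charP_residueField (Fact.out : ℓ.Prime) hA
  haveI : IsAlgClosed k := FLTA.Galois.isAlgClosed_residueField A
  haveI : Infinite k := IsAlgClosed.instInfinite
  have hNk : (N : k) ≠ 0 := by rw [Ne, CharP.cast_eq_zero_iff k ℓ]; exact hℓN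
  set R := gaussRed N (A := A) IsLocalRing.residue_surjective hNk with hRdef
  have hG : IsGauss R := isGauss_gaussRed N IsLocalRing.residue_surjective hNk
  set g := genusFF Qb (modularFunctionFieldBar N)
  set g' := genusFF k (modularFunctionFieldFullC k N)
  have hF : RRCurve Qb (modularFunctionFieldBar N) g := rrCurve_genusFF
  have hF' : RRCurve k (modularFunctionFieldFullC k N) g' := rrCurve_genusFF
  refine le_antisymm (R.genus_le hF hF') ?_
  obtain ⟨D, hD⟩ := exists_isPolar hF (jBar N)
  obtain ⟨D', hD'⟩ := exists_isPolar hF' (FLTA.Curves.jFullC k N)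
  have hdeg : Divisor.degree D = dedekindPsi N :=
    degree_polar_j (Nat.cast_ne_zero.mpr (NeZero.ne N))
      (FLTA.Curves.laurentBaseChange_full_eq N Qb) hF (coe_jBar N) hD
  have hdeg' : Divisor.degree D' = dedekindPsi N :=
    degree_polar_j hNk rfl hF' rfl hD'
  obtain ⟨n₀, hn₀⟩ := exists_split N ℓ
  set m := n₀ + 2 * g + 2 * g' with hm
  have hψ : (m : ℤ) ≤ m * (dedekindPsi N : ℤ) :=
    le_mul_of_one_le_right (Int.natCast_nonneg _) (by exact_mod_cast dedekindPsi_pos N)
  set π₀ : ↥(GaloisRep.ratLocalizedAt ℓ) →+* k := (IsLocalRing.residue A).comp (zlToA hA)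
  have hsub : riemannRochSpace (m • D') ≤ R.redSpace (riemannRochSpace (m • D)) := by
    intro f hf
    have hj0 : FLTA.Curves.jFullC k N ≠ 0 := fun h =>
      jqModC_ne_zero_of_nontrivial k (congrArg Subtype.val h)
    obtain ⟨h1, h2⟩ := isIntegral_both hF' hj0 hD' hf
    have hmap : ∀ (S : Set (LaurentSeries k)) (a : k),
        (modularFunctionFieldFullC k N).val.toRingHom (algebraMap k _ a) ∈ Algebra.adjoin k S :=
      fun S a => Subalgebra.algebraMap_mem _ a
    have h1' := isIntegral_adjoin_map (modularFunctionFieldFullC k N).val.toRingHom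
      (y := jqModC k) rfl (hmap _) h1
    have h2' := isIntegral_adjoin_map (modularFunctionFieldFullC k N).val.toRingHom
      (y := (jqModC k)⁻¹) rfl (hmap _) h2
    have s1 := FLTA.Smooth.mem_span_reductions_fin N ℓ π₀ hℓN f.2 h1'
    have s2 := FLTA.Smooth.mem_span_reductions_inf N ℓ π₀ hℓN
      ((f * (FLTA.Curves.jFullC k N)⁻¹ ^ m)).2 h2'
    have s3 := mem_span_inter_reductions N ℓ hℓN π₀ (m := m) (hn₀ m (by omega))
      (x := (f : LaurentSeries k)) s1 s2
    obtain ⟨f', hf', hff'⟩ : ∃ f' ∈ R.redSpace (riemannRochSpace (m • D)),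
        (f' : LaurentSeries k) = (f : LaurentSeries k) := by
      refine Submodule.span_induction
        (p := fun v _ => ∃ f' ∈ R.redSpace (riemannRochSpace (m • D)),
          (f' : LaurentSeries k) = v) ?_ ⟨0, zero_mem _, rfl⟩ ?_ ?_ s3
      · rintro v ⟨y, hy1, hy2, z, hz, rfl⟩
        exact mem_map_redSpace hA hG hD m hy1 hy2 hz
      · rintro v w - - ⟨v', hv', rfl⟩ ⟨w', hw', rfl⟩
        exact ⟨v' + w', add_mem hv' hw', rfl⟩
      · rintro c v - ⟨v', hv', rfl⟩
        refine ⟨c • v', Submodule.smul_mem _ c hv', ?_⟩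
        show ((c • v' : modularFunctionFieldFullC k N) : LaurentSeries k) = _
        rw [Algebra.smul_def]
        ext n
        push_cast
        simp [algebraMap_laurentSeries_eq_single]
    rwa [show f = f' from Subtype.ext hff'.symm]
  haveI := hF.finiteDimensional (m • D)
  haveI := R.finiteDimensional_redSpace (riemannRochSpace (m • D))
  have h3 := Submodule.finrank_mono hsub
  rw [R.finrank_redSpace] at h3
  have e := hF.finrank_eq (m • D) (by rw [map_nsmul, nsmul_eq_mul, hdeg]; omega)
  have e' := hF'.finrank_eq (m • D') (by rw [map_nsmul, nsmul_eq_mul, hdeg']; omega)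
  rw [map_nsmul, nsmul_eq_mul, hdeg] at e
  rw [map_nsmul, nsmul_eq_mul, hdeg'] at e'
  omega

end FLTA.PlaceRed

end
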