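import Fermat.Agent.PlaceRed.Along
import Fermat.Agent.PlaceRed.GaussIsGauss
import Fermat.Agent.PlaceRed.RRCurveOf
import Fermat.Agent.PlaceRed.GenusEq
import Fermat.Agent.Curves.BasicModular
import Fermat.Agent.Curves.RRInstances
import Fermat.Agent.Galois.Places
import Fermat.Prelude.Def_EllipticCurve_FrobeniusTrace

/-!
# Reduction of the places of `X₀(N)` modulo `ℓ ∤ N`: public interface

* `gaussRedModL` : the constant reduction given by `q`-expansions;
* `placeRed` : Deuring's map of places;
* `reductionInputsModL` : the prelude's inputs hold;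
* `eq_placeRed`, `reduces_mapDomain` : any place reduction is `placeRed`, and carries the lattices
  `L(D) ∩ O` onto `L(r D)` for `deg D ≥ 2g`.
-/

set_option autoImplicit false

noncomputable section

open AlgebraicCurve ModularCurve

namespace FLTA.PlaceRed

local notation "Qb" => AlgebraicClosure ℚ

set_option synthInstance.maxHeartbeats 400000
set_option maxHeartbeats 1000000

variable (N : ℕ) [NeZero N] {ℓ : ℕ} [Fact ℓ.Prime] (hℓN : ¬ ℓ ∣ N)
variable (A : ValuationSubring (AlgebraicClosure ℚ)) (hA : A.LiesOverPrime ℓ)

local notation "k" => IsLocalRing.ResidueField A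

include hℓN hA in
theorem natCast_residue_ne_zero : ((N : ℕ) : k) ≠ 0 := by
  haveI := FLTA.Galois.charP_residueField (Fact.out : ℓ.Prime) hA
  rw [Ne, CharP.cast_eq_zero_iff k ℓ]
  exact hℓN

/-- The constant reduction given by `q`-expansions, at a place over `ℓ`. -/
def gaussRedModL : ConstRed A (IsLocalRing.residue A) (modularFunctionFieldBar N)
    (modularFunctionFieldFullC k N) :=
  gaussRed N IsLocalRing.residue_surjective (natCast_residue_ne_zero N hℓN A hA)

theorem isGauss_gaussRedModL : IsGauss (gaussRedModL N hℓN A hA) :=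
  isGauss_gaussRed N IsLocalRing.residue_surjective (natCast_residue_ne_zero N hℓN A hA)

include hℓN hA in
/-- Good reduction: the genus does not drop modulo `ℓ`. -/
theorem genusFF_fullC_eq :
    genusFF k (modularFunctionFieldFullC k N) = genusFF Qb (modularFunctionFieldBar N) :=
  genusFF_residue_eq hℓN hA

/-- The genus of `X₀(N)`. -/
abbrev genusX0 : ℕ := genusFF Qb (modularFunctionFieldBar N)

theorem rrCurve_bar : RRCurve Qb (modularFunctionFieldBar N) (genusX0 N) :=
  rrCurve_genusFF

include hℓN hA in
theorem rrCurve_fullC : RRCurve k (modularFunctionFieldFullC k N) (genusX0 N) := by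
  haveI : IsAlgClosed k := FLTA.Galois.isAlgClosed_residueField A
  exact rrCurve_of_genusFF_eq (genusFF_fullC_eq N hℓN A hA)

/-- Reduction of places. -/
def placeRed : Place Qb (modularFunctionFieldBar N) → Place k (modularFunctionFieldFullC k N) :=
  haveI : IsAlgClosed k := FLTA.Galois.isAlgClosed_residueField A
  (gaussRedModL N hℓN A hA).placeMap (rrCurve_bar N) (rrCurve_fullC N hℓN A hA)

theorem isPlaceMap_placeRed :
    (gaussRedModL N hℓN A hA).IsPlaceMap (placeRed N hℓN A hA) := by
  haveI : IsAlgClosed k := FLTA.Galois.isAlgClosed_residueField A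
  exact (gaussRedModL N hℓN A hA).isPlaceMap_placeMap _ _

theorem isPlaceReductionModL_placeRed : IsPlaceReductionModL A N (placeRed N hℓN A hA) :=
  (isGauss_gaussRedModL N hℓN A hA).isPlaceReductionAlong (rrCurve_bar N) (rrCurve_fullC N hℓN A hA)
    (isPlaceMap_placeRed N hℓN A hA)

include hℓN hA in
theorem principalGeneratedByIntegral_modL :
    PrincipalGeneratedByIntegral A (IsLocalRing.residue A) N :=
  (isGauss_gaussRedModL N hℓN A hA).principalGeneratedByIntegral (rrCurve_bar N)

include hℓN hA in
theorem reductionInputsModL : ReductionInputsModL A N :=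
  ⟨placeRed N hℓN A hA, isPlaceReductionModL_placeRed N hℓN A hA,
    principalGeneratedByIntegral_modL N hℓN A hA⟩

variable {N A}

/-- Uniqueness: every place reduction is `placeRed`. -/
theorem eq_placeRed
    {r : Place Qb (modularFunctionFieldBar N) → Place k (modularFunctionFieldFullC k N)}
    (hr : IsPlaceReductionModL A N r) : r = placeRed N hℓN A hA := by
  haveI : IsAlgClosed k := FLTA.Galois.isAlgClosed_residueField A
  exact (isGauss_gaussRedModL N hℓN A hA).eq_placeMap (rrCurve_bar N) (rrCurve_fullC N hℓN A hA) hr

/-- Lattices of sections reduce onto sections in degree `≥ 2g`. -/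
theorem reduces_mapDomain
    {r : Place Qb (modularFunctionFieldBar N) → Place k (modularFunctionFieldFullC k N)}
    (hr : IsPlaceReductionModL A N r) (D : Divisor Qb (modularFunctionFieldBar N))
    (hD : 2 * (genusX0 N : ℤ) ≤ Divisor.degree D) :
    (gaussRedModL N hℓN A hA).Reduces D (Finsupp.mapDomain r D) := by
  haveI : IsAlgClosed k := FLTA.Galois.isAlgClosed_residueField A
  exact (isGauss_gaussRedModL N hℓN A hA).reduces (rrCurve_bar N) (rrCurve_fullC N hℓN A hA) hr D hD

/-- The chosen reduction of the prelude is `placeRed`. -/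
theorem placeReductionModL_eq (h : ReductionInputsModL A N) :
    placeReductionModL h = placeRed N hℓN A hA :=
  eq_placeRed hℓN hA (isPlaceReductionModL_placeReductionModL h)

include hℓN hA in
/-- `reductionModL` is computed by `placeRed`. -/
theorem reductionModL_mk_placeRed
    (D : Divisor.degZero (K := Qb) (F := modularFunctionFieldBar N)) :
    reductionModL A N (Pic0.mk D) = Pic0.mk (reductionDegZeroAlong (placeRed N hℓN A hA)
      (isPlaceReductionModL_placeRed N hℓN A hA).1 D) := by
  rw [reductionModL_mk (reductionInputsModL N hℓN A hA)]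
  refine congrArg Pic0.mk (Subtype.ext ?_)
  simp only [coe_reductionDegZeroAlong, placeReductionModL_eq hℓN hA]

/-- A class reduces to zero iff the reduced divisor is principal. -/
theorem reductionModL_mk_eq_zero_iff
    (D : Divisor.degZero (K := Qb) (F := modularFunctionFieldBar N)) :
    reductionModL A N (Pic0.mk D) = 0 ↔
      Divisor.IsPrincipal (Finsupp.mapDomain (placeRed N hℓN A hA)
        (D : Divisor Qb (modularFunctionFieldBar N))) := by
  rw [reductionModL_mk_placeRed hℓN hA D]
  exact (QuotientAddGroup.eq_zero_iff _).trans Iff.rfl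

end FLTA.PlaceRed

end
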