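import Fermat.Agent.PlaceRed.DeuringDiv

/-!
# Deuring's reduction of places

For a constant reduction with both function fields satisfying Riemann-Roch with the same genus there
is exactly one map of places compatible with the divisors of units, and it carries Riemann-Roch
spaces of large degree onto Riemann-Roch spaces.
-/

set_option autoImplicit false

noncomputable section

open AlgebraicCurve

namespace FLTA.PlaceRed

variable {K : Type*} [Field K] [IsAlgClosed K] {A : ValuationSubring K}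
  {k : Type*} [Field k] [IsAlgClosed k] {π : A →+* k}
  {F : Type*} [Field F] [Algebra K F] {F' : Type*} [Field F'] [Algebra k F']

namespace ConstRed

variable (R : ConstRed A π F F') {g : ℕ}

omit [IsAlgClosed K] [IsAlgClosed k] in
/-- The residue of an element of `L(D)` lies in `L(r D)`. -/
theorem redSpace_le_of_isPlaceMap (hF : RRCurve K F g) {r : Place K F → Place k F'}
    (hr : R.IsPlaceMap r) (D : Divisor K F) :
    R.redSpace (riemannRochSpace D) ≤ riemannRochSpace (Finsupp.mapDomain r D) := by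
  rintro x ⟨f, hf, rfl⟩
  rcases eq_or_ne (R.red f) 0 with h0 | h0
  · rw [h0]; exact Submodule.zero_mem _
  refine (RRCurve.mem_iff h0).mpr fun Q => ?_
  have hnn : 0 ≤ hF.divisorOf (f : F) + D := Finsupp.le_def.mpr fun P => by
    have := (RRCurve.mem_iff (R.coe_ne_zero h0)).mp hf P
    rw [Finsupp.add_apply, RRCurve.divisorOf_apply, Finsupp.zero_apply]
    omega
  have := Finsupp.le_def.mp (mapDomain_nonneg r hnn) Q
  rw [Finsupp.mapDomain_add, Finsupp.add_apply,
    hr f h0 _ (fun P => hF.divisorOf_apply (f : F) P) Q, Finsupp.zero_apply] at this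
  omega

omit [IsAlgClosed K] [IsAlgClosed k] in
theorem redSpace_eq_of_isPlaceMap (hF : RRCurve K F g) (hF' : RRCurve k F' g)
    {r : Place K F → Place k F'} (hr : R.IsPlaceMap r) {D : Divisor K F}
    (hD : 2 * (g : ℤ) - 1 ≤ Divisor.degree D) :
    R.redSpace (riemannRochSpace D) = riemannRochSpace (Finsupp.mapDomain r D) := by
  haveI := hF'.finiteDimensional (Finsupp.mapDomain r D)
  refine Submodule.eq_of_le_of_finrank_eq (R.redSpace_le_of_isPlaceMap hF hr D) ?_
  have h1 := R.finrank_redSpace_eq hF hD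
  have h2 := hF'.finrank_eq (Finsupp.mapDomain r D) (by rwa [degree_mapDomain_eq hF hF'])
  rw [degree_mapDomain_eq hF hF'] at h2
  omega

omit [IsAlgClosed K] in
theorem exists_isPlaceMap (hF : RRCurve K F g) (hF' : RRCurve k F' g) :
    ∃ r : Place K F → Place k F', R.IsPlaceMap r := by
  classical
  haveI : Infinite k := IsAlgClosed.instInfinite
  choose! δ hδ0 hδdeg hδ using
    fun (D : Divisor K F) (h : 0 ≤ D ∧ 2 * (g : ℤ) ≤ Divisor.degree D) =>
      R.exists_redSpace_eq hF hF' h.1 h.2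
  obtain ⟨B, hB0, hBdeg⟩ := hF.exists_effective_degree (d := 2 * (g : ℤ)) (by omega)
  have hgood : ∀ D : Divisor K F, 0 ≤ D → 0 ≤ B + D ∧ 2 * (g : ℤ) ≤ Divisor.degree (B + D) :=
    fun D hD => ⟨add_nonneg hB0 hD, by rw [map_add, hBdeg]; have := hF.degree_nonneg hD; omega⟩
  have hBgood : 0 ≤ B ∧ 2 * (g : ℤ) ≤ Divisor.degree B := ⟨hB0, hBdeg.ge⟩
  have hmono : ∀ D E, 0 ≤ D ∧ 2 * (g : ℤ) ≤ Divisor.degree D →
      0 ≤ E ∧ 2 * (g : ℤ) ≤ Divisor.degree E → D ≤ E → δ D ≤ δ E := by
    intro D E hD hE hDE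
    refine hF'.le_of_space_le (by rw [hδdeg D hD]; exact hD.2) ?_
    rw [← hδ D hD, ← hδ E hE]
    rintro x ⟨f, hf, rfl⟩
    exact ⟨f, RRCurve.space_mono hDE hf, rfl⟩
  have hadd : ∀ D E, 0 ≤ D ∧ 2 * (g : ℤ) ≤ Divisor.degree D →
      0 ≤ E ∧ 2 * (g : ℤ) ≤ Divisor.degree E → δ (D + E) = δ D + δ E := by
    intro D E hD hE
    have hDE : 0 ≤ D + E ∧ 2 * (g : ℤ) ≤ Divisor.degree (D + E) :=
      ⟨add_nonneg hD.1 hE.1, by rw [map_add]; omega⟩
    refine (hF'.eq_of_le_of_degree_le ?_ ?_).symm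
    · refine Finsupp.le_def.mpr fun Q => ?_
      obtain ⟨y, hy0, hyD, hyQ⟩ :=
        hF'.exists_ord_eq_neg (D := δ D) (by rw [hδdeg D hD]; exact hD.2) Q
      obtain ⟨z, hz0, hzE, hzQ⟩ :=
        hF'.exists_ord_eq_neg (D := δ E) (by rw [hδdeg E hE]; exact hE.2) Q
      rw [← hδ D hD] at hyD
      rw [← hδ E hE] at hzE
      obtain ⟨y', hy', rfl⟩ := hyD
      obtain ⟨z', hz', rfl⟩ := hzE
      have hmem : R.red (y' * z') ∈ riemannRochSpace (δ (D + E)) := by
        rw [← hδ _ hDE]
        exact ⟨y' * z', by push_cast; exact RRCurve.mul_mem_space hy' hz', rfl⟩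
      rw [map_mul] at hmem
      have := (RRCurve.mem_iff (mul_ne_zero hy0 hz0)).mp hmem Q
      rw [Q.ord_mul hy0 hz0, hyQ, hzQ] at this
      rw [Finsupp.add_apply]
      omega
    · rw [map_add, hδdeg _ hDE, hδdeg D hD, hδdeg E hE, map_add]
  have hone : ∀ P : Place K F, ∃ Q : Place k F',
      δ (B + Finsupp.single P 1) = δ B + Finsupp.single Q 1 := by
    intro P
    have hP : (0 : Divisor K F) ≤ Finsupp.single P 1 := Finsupp.single_nonneg.mpr zero_le_one
    obtain ⟨Q, hQ⟩ := hF'.exists_eq_single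
      (sub_nonneg.mpr (hmono B _ hBgood (hgood _ hP) (le_add_of_nonneg_right hP)))
      (by rw [map_sub, hδdeg _ hBgood, hδdeg _ (hgood _ hP), map_add, hF.degree_single_eq]; omega)
    exact ⟨Q, by rw [← hQ, add_sub_cancel]⟩
  choose r hr using hone
  have hBD : ∀ D : Divisor K F, 0 ≤ D → δ (B + D) = δ B + Finsupp.mapDomain r D := by
    suffices ∀ (n : ℕ) (D : Divisor K F), 0 ≤ D → Divisor.degree D = (n : ℤ) →
        δ (B + D) = δ B + Finsupp.mapDomain r D by
      intro D hD
      exact this (Divisor.degree D).toNat D hD (Int.toNat_of_nonneg (hF.degree_nonneg hD)).symm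
    intro n
    induction n with
    | zero =>
      intro D hD hd
      rw [(hF.eq_of_le_of_degree_le hD (by rw [map_zero]; omega)).symm]
      simp
    | succ n ih =>
      intro D hD hd
      obtain ⟨P, hP⟩ : ∃ P, D P ≠ 0 := by
        by_contra hc
        push Not at hc
        rw [show D = 0 from Finsupp.ext hc, map_zero] at hd
        omega
      have hP' : (0 : Divisor K F) ≤ Finsupp.single P 1 := Finsupp.single_nonneg.mpr zero_le_one
      set D₁ := D - Finsupp.single P 1 with hD₁
      have hD₁0 : 0 ≤ D₁ := Finsupp.le_def.mpr fun Q => by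
        have := Finsupp.le_def.mp hD Q
        rcases eq_or_ne Q P with rfl | hne
        · simp only [hD₁, Finsupp.sub_apply, Finsupp.single_eq_same, Finsupp.zero_apply] at *
          omega
        · simpa [hD₁, Finsupp.single_eq_of_ne hne] using this
      have h1 := ih D₁ hD₁0 (by rw [hD₁, map_sub, hF.degree_single_eq]; omega)
      have h2 := hadd (B + D) B (hgood D hD) hBgood
      have h3 := hadd (B + D₁) (B + Finsupp.single P 1) (hgood _ hD₁0) (hgood _ hP')
      have e : B + D + B = (B + D₁) + (B + Finsupp.single P 1) := by rw [hD₁]; abel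
      rw [e, h3, h1, hr] at h2
      have hDe : D = D₁ + Finsupp.single P 1 := by rw [hD₁]; abel
      have hmap : Finsupp.mapDomain r D =
          Finsupp.mapDomain r D₁ + Finsupp.single (r P) 1 := by
        conv_lhs => rw [hDe, Finsupp.mapDomain_add, Finsupp.mapDomain_single]
      rw [hmap]
      have h4 := h2.symm
      rw [← sub_eq_zero] at h4 ⊢
      rw [← h4]
      abel
  refine ⟨r, fun u hu D hD Q => ?_⟩
  have hu0 : (u : F) ≠ 0 := R.coe_ne_zero hu
  set Z : Divisor K F := D.mapRange (fun n => max n 0) (by simp) with hZ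
  set N : Divisor K F := D.mapRange (fun n => max (-n) 0) (by simp) with hN
  have hZ0 : 0 ≤ Z := Finsupp.le_def.mpr fun P => by simp [hZ]
  have hN0 : 0 ≤ N := Finsupp.le_def.mpr fun P => by simp [hN]
  have hDZN : D = Z - N := Finsupp.ext fun P => by
    simp only [hZ, hN, Finsupp.sub_apply, Finsupp.mapRange_apply]; omega
  have hle : Finsupp.mapDomain r D ≤ hF'.divisorOf (R.red u) := by
    refine Finsupp.le_def.mpr fun Q => ?_
    obtain ⟨y, hy0, hyZ, hyQ⟩ := hF'.exists_ord_eq_neg (D := δ (B + Z))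
      (by rw [hδdeg _ (hgood Z hZ0)]; exact (hgood Z hZ0).2) Q
    rw [← hδ _ (hgood Z hZ0)] at hyZ
    obtain ⟨y', hy', rfl⟩ := hyZ
    have hmem : R.red (u * y') ∈ riemannRochSpace (δ (B + N)) := by
      rw [← hδ _ (hgood N hN0)]
      refine ⟨u * y', ?_, rfl⟩
      push_cast
      refine (RRCurve.mem_iff (mul_ne_zero hu0 (R.coe_ne_zero hy0))).mpr fun P => ?_
      have := (RRCurve.mem_iff (R.coe_ne_zero hy0)).mp hy' P
      rw [P.ord_mul hu0 (R.coe_ne_zero hy0), ← hD P]
      rw [hDZN]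
      simp only [Finsupp.add_apply, Finsupp.sub_apply] at this ⊢
      omega
    rw [map_mul] at hmem
    have := (RRCurve.mem_iff (mul_ne_zero hu hy0)).mp hmem Q
    rw [Q.ord_mul hu hy0, hyQ, hBD Z hZ0, hBD N hN0] at this
    rw [RRCurve.divisorOf_apply, hDZN, Finsupp.mapDomain_sub]
    simp only [Finsupp.add_apply, Finsupp.sub_apply] at this ⊢
    omega
  have hd : Divisor.degree D = 0 := by
    rw [show D = hF.divisorOf (u : F) from Finsupp.ext fun P => by
      rw [hD, RRCurve.divisorOf_apply]]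
    exact hF.degree_divisorOf _
  rw [hF'.eq_of_le_of_degree_le hle (by
    rw [degree_mapDomain_eq hF hF', hd, hF'.degree_divisorOf]), RRCurve.divisorOf_apply]

omit [IsAlgClosed K] in
theorem exists_placeMap (hF : RRCurve K F g) (hF' : RRCurve k F' g) :
    ∃ r : Place K F → Place k F', R.IsPlaceMap r ∧
      ∀ D : Divisor K F, 2 * (g : ℤ) ≤ Divisor.degree D → R.Reduces D (Finsupp.mapDomain r D) := by
  obtain ⟨r, hr⟩ := R.exists_isPlaceMap hF hF'
  refine ⟨r, hr, fun D hD => ⟨degree_mapDomain_eq hF hF' r D, fun f hf => ?_, fun f' hf' => ?_⟩⟩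
  · exact R.redSpace_le_of_isPlaceMap hF hr D ⟨f, hf, rfl⟩
  · rw [← R.redSpace_eq_of_isPlaceMap hF hF' hr (by omega)] at hf'
    exact hf'

omit [IsAlgClosed K] [IsAlgClosed k] in
theorem isPlaceMap_unique (hF : RRCurve K F g) (hF' : RRCurve k F' g)
    {r₁ r₂ : Place K F → Place k F'} (h₁ : R.IsPlaceMap r₁) (h₂ : R.IsPlaceMap r₂) : r₁ = r₂ := by
  have key : ∀ D : Divisor K F, 2 * (g : ℤ) ≤ Divisor.degree D →
      Finsupp.mapDomain r₁ D = Finsupp.mapDomain r₂ D := fun D hD =>
    hF'.eq_of_space_eq (by rwa [degree_mapDomain_eq hF hF'])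
      (by rwa [degree_mapDomain_eq hF hF'])
      (by rw [← R.redSpace_eq_of_isPlaceMap hF hF' h₁ (by omega),
        ← R.redSpace_eq_of_isPlaceMap hF hF' h₂ (by omega)])
  funext P
  obtain ⟨B, hB0, hBdeg⟩ := hF.exists_effective_degree (d := 2 * (g : ℤ)) (by omega)
  have e1 := key (B + Finsupp.single P 1) (by rw [map_add, hF.degree_single_eq, hBdeg]; omega)
  rw [Finsupp.mapDomain_add, Finsupp.mapDomain_add, key B hBdeg.ge, add_left_cancel_iff,
    Finsupp.mapDomain_single, Finsupp.mapDomain_single] at e1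
  exact Finsupp.single_left_injective one_ne_zero e1

/-- Reduction of places. -/
def placeMap (hF : RRCurve K F g) (hF' : RRCurve k F' g) : Place K F → Place k F' :=
  (R.exists_placeMap hF hF').choose

omit [IsAlgClosed K] in
theorem isPlaceMap_placeMap (hF : RRCurve K F g) (hF' : RRCurve k F' g) :
    R.IsPlaceMap (R.placeMap hF hF') :=
  (R.exists_placeMap hF hF').choose_spec.1

omit [IsAlgClosed K] in
theorem reduces_mapDomain_placeMap (hF : RRCurve K F g) (hF' : RRCurve k F' g)
    (D : Divisor K F) (hD : 2 * (g : ℤ) ≤ Divisor.degree D) :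
    R.Reduces D (Finsupp.mapDomain (R.placeMap hF hF') D) :=
  (R.exists_placeMap hF hF').choose_spec.2 D hD

omit [IsAlgClosed K] in
theorem eq_placeMap (hF : RRCurve K F g) (hF' : RRCurve k F' g)
    {r : Place K F → Place k F'} (h : R.IsPlaceMap r) : r = R.placeMap hF hF' :=
  R.isPlaceMap_unique hF hF' h (R.isPlaceMap_placeMap hF hF')

end ConstRed

end FLTA.PlaceRed

end
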