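import Fermat.Agent.PlaceRed.Gauss
import Fermat.Agent.Igusa.Degree
import Fermat.Agent.Curves.BasicModular
import Fermat.Prelude.Def_ModularCurve_ReductionModL

/-!
# The Gauss constant reduction of the level-`N` modular function field

`gaussRed` reduces `modularFunctionFieldBar N` onto `modularFunctionFieldFullC k N` along any
valuation subring `A` of `AlgebraicClosure ℚ` with residue map onto a field where `N ≠ 0`.
-/

set_option autoImplicit false
set_option synthInstance.maxHeartbeats 400000

noncomputable section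

open ModularCurve AlgebraicCurve Polynomial IntermediateField

namespace FLTA.PlaceRed

section Field

variable (K : Type) [Field K] (N : ℕ)

theorem hasZFiniteFractions_adjoin (S : Set (LaurentSeries K)) (hS : ∀ x ∈ S, IsZFinite x) :
    HasZFiniteFractions (IntermediateField.adjoin K S) := by
  intro f hf
  have hle : Algebra.adjoin K S ≤ zFiniteSubalgebra K := Algebra.adjoin_le hS
  have hmem : ∀ r ∈ Algebra.adjoin K S, r ∈ IntermediateField.adjoin K S :=
    fun r hr => IntermediateField.algebra_adjoin_le_adjoin K S hr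
  obtain ⟨r, hr, s, hs, rfl⟩ := IntermediateField.mem_adjoin_iff_div.mp hf
  by_cases hs0 : s = 0
  · exact ⟨0, 1, zero_mem _, one_mem _, by simpa using isZFinite_algebraMap (0 : K),
      by simpa using isZFinite_algebraMap (1 : K), one_ne_zero, by simp [hs0]⟩
  · exact ⟨r, s, hmem r hr, hmem s hs, hle hr, hle hs, hs0, div_mul_cancel₀ r hs0⟩

/-- The level-`N` field is generated by integer series. -/
theorem hasZFiniteFractions_fullC : HasZFiniteFractions (modularFunctionFieldFullC K N) := by
  refine hasZFiniteFractions_adjoin K _ ?_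
  rintro x ⟨d, hd0, -, rfl⟩
  rw [← coeffMap_jqModC (Int.castRingHom K), ← coeffMap_qExpand]
  exact isZFinite_coeffMap_intCast _

/-- An element of `K(j)` as a fraction of polynomials in `j`. -/
theorem exists_eq_div_of_mem_jField {x : LaurentSeries K} (hx : x ∈ FLTA.Igusa.jField K) :
    ∃ r s : K[X], s ≠ 0 ∧ x * aeval (jqModC K) s = aeval (jqModC K) r := by
  obtain ⟨r, hr, s, hs, rfl⟩ := IntermediateField.mem_adjoin_iff_div.mp hx
  rw [Algebra.adjoin_singleton_eq_range_aeval] at hr hs
  obtain ⟨r, rfl⟩ := hr
  obtain ⟨s, rfl⟩ := hs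
  by_cases hs0 : s = 0
  · exact ⟨0, 1, one_ne_zero, by simp [hs0]⟩
  · refine ⟨r, s, hs0, div_mul_cancel₀ _ fun h => hs0 ?_⟩
    exact transcendental_iff.mp (FLTA.Curves.transcendental_jqModC K) _ h

/-- Any `ψ(N) + 1` elements of the level-`N` field are dependent over `K[j]`. -/
theorem exists_dependent [NeZero N] (hN : (N : K) ≠ 0)
    (f : Fin (dedekindPsi N + 1) → LaurentSeries K)
    (hf : ∀ i, f i ∈ modularFunctionFieldFullC K N) :
    ∃ c : Fin (dedekindPsi N + 1) → K[X], c ≠ 0 ∧ ∑ i, aeval (jqModC K) (c i) * f i = 0 := by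
  classical
  have := FLTA.Igusa.finiteDimensional_fullOver K N hN
  let g : Fin (dedekindPsi N + 1) → FLTA.Igusa.fullOver K N :=
    fun i => ⟨f i, (FLTA.Igusa.mem_fullOver_iff K N).mpr (hf i)⟩
  have hdep : ¬ LinearIndependent (FLTA.Igusa.jField K) g := fun h => by
    have := h.fintype_card_le_finrank
    rw [FLTA.Igusa.finrank_fullOver K N hN, Fintype.card_fin] at this
    omega
  rw [Fintype.not_linearIndependent_iff] at hdep
  obtain ⟨e, he, i₀, hi₀⟩ := hdep
  choose r s hs hrs using fun i => exists_eq_div_of_mem_jField K (e i).2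
  refine ⟨fun i => r i * ∏ l ∈ Finset.univ.erase i, s l, fun h0 => ?_, ?_⟩
  · have h : r i₀ * ∏ l ∈ Finset.univ.erase i₀, s l = 0 := congrFun h0 i₀
    rcases mul_eq_zero.mp h with h | h
    · have h1 := hrs i₀
      rw [h, map_zero] at h1
      rcases mul_eq_zero.mp h1 with h2 | h2
      · exact hi₀ (Subtype.ext h2)
      · exact hs i₀ ((transcendental_iff.mp (FLTA.Curves.transcendental_jqModC K)) _ h2)
    · exact Finset.prod_ne_zero_iff.mpr (fun l _ => hs l) h
  · have hsum : ∑ i, (e i : LaurentSeries K) * f i = 0 := by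
      have := congrArg (Subtype.val : FLTA.Igusa.fullOver K N → LaurentSeries K) he
      rwa [AddSubmonoidClass.coe_finsetSum] at this
    calc ∑ i, aeval (jqModC K) (r i * ∏ l ∈ Finset.univ.erase i, s l) * f i
        = ∑ i, aeval (jqModC K) (∏ l, s l) * ((e i : LaurentSeries K) * f i) := by
          refine Finset.sum_congr rfl fun i _ => ?_
          rw [← Finset.mul_prod_erase _ _ (Finset.mem_univ i), map_mul, map_mul, ← hrs i]
          ring
      _ = 0 := by rw [← Finset.mul_sum, hsum, mul_zero]

/-- There are `ψ(N)` elements of the level-`N` field independent over `K[j]`. -/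
theorem exists_independent [NeZero N] (hN : (N : K) ≠ 0) :
    ∃ e : Fin (dedekindPsi N) → LaurentSeries K, (∀ i, e i ∈ modularFunctionFieldFullC K N) ∧
      ∀ c : Fin (dedekindPsi N) → K[X], ∑ i, aeval (jqModC K) (c i) * e i = 0 → c = 0 := by
  classical
  have := FLTA.Igusa.finiteDimensional_fullOver K N hN
  let b := Module.finBasisOfFinrankEq (FLTA.Igusa.jField K) (FLTA.Igusa.fullOver K N)
    (FLTA.Igusa.finrank_fullOver K N hN)
  refine ⟨fun i => (b i : LaurentSeries K), fun i => (FLTA.Igusa.mem_fullOver_iff K N).mp (b i).2,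
    fun c hc => ?_⟩
  let cj : Fin (dedekindPsi N) → FLTA.Igusa.jField K := fun i =>
    aeval (⟨jqModC K, IntermediateField.mem_adjoin_simple_self K _⟩ : FLTA.Igusa.jField K) (c i)
  have hcoe : ∀ i, (cj i : LaurentSeries K) = aeval (jqModC K) (c i) := fun i =>
    (Polynomial.aeval_algHom_apply (FLTA.Igusa.jField K).val _ (c i)).symm
  have h0 : ∑ i, cj i • b i = 0 := by
    apply Subtype.ext
    rw [AddSubmonoidClass.coe_finsetSum]
    refine (Finset.sum_congr rfl fun i _ => ?_).trans hc
    rw [← hcoe]
    rfl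
  have := Fintype.linearIndependent_iff.mp b.linearIndependent cj h0
  funext i
  refine (transcendental_iff.mp (FLTA.Curves.transcendental_jqModC K)) _ ?_
  rw [← hcoe, this i]
  rfl

end Field

section Modular

variable (A : ValuationSubring (AlgebraicClosure ℚ)) {k : Type} [Field k] (π : A →+* k) (N : ℕ)

theorem hasZFiniteFractions_bar : HasZFiniteFractions (modularFunctionFieldBar N) := by
  show HasZFiniteFractions (laurentBaseChange (AlgebraicClosure ℚ) (modularFunctionFieldFull N))
  rw [FLTA.Curves.laurentBaseChange_full_eq]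
  exact hasZFiniteFractions_fullC _ N

variable {A π} (hπ : Function.Surjective π)
include hπ

theorem divisorExpansion_mem_gaussResidue {d : ℕ} [NeZero d] (hd : d ∣ N) :
    qExpand k d (jqModC k) ∈
      gaussResidue A π (modularFunctionFieldBar N) (hasZFiniteFractions_bar N) hπ := by
  have hy : coeffMap A.subtype (qExpand A d (jqModC A)) ∈ modularFunctionFieldBar N := by
    rw [coeffMap_qExpand, coeffMap_jqModC]
    show _ ∈ laurentBaseChange (AlgebraicClosure ℚ) (modularFunctionFieldFull N)
    rw [FLTA.Curves.laurentBaseChange_full_eq]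
    exact jqModCd_mem_full _ N hd
  have h := coeffMap_mem_gaussResidue (hasZFiniteFractions_bar N) hπ _ hy
  rwa [coeffMap_qExpand, coeffMap_jqModC] at h

theorem fullC_le_gaussResidue :
    modularFunctionFieldFullC k N ≤
      gaussResidue A π (modularFunctionFieldBar N) (hasZFiniteFractions_bar N) hπ := by
  rw [modularFunctionFieldFullC, IntermediateField.adjoin_le_iff]
  rintro x ⟨d, hd0, hd, rfl⟩
  exact divisorExpansion_mem_gaussResidue N hπ hd

variable [NeZero N]

set_option maxHeartbeats 1000000 in
theorem gaussResidue_le_fullC (hN : (N : k) ≠ 0) :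
    gaussResidue A π (modularFunctionFieldBar N) (hasZFiniteFractions_bar N) hπ ≤
      modularFunctionFieldFullC k N := by
  classical
  set L := AlgebraicClosure ℚ
  intro x hx
  obtain ⟨e, heF, hind⟩ := exists_independent k N hN
  have hmem : ∀ i, e i ∈
      gaussResidue A π (modularFunctionFieldBar N) (hasZFiniteFractions_bar N) hπ :=
    fun i => fullC_le_gaussResidue N hπ (heF i)
  obtain ⟨fx, hfx⟩ := hx
  choose f hf using fun i => (mem_gaussResidue_iff (hasZFiniteFractions_bar N) hπ).mp (hmem i)
  let φ : Fin (dedekindPsi N + 1) →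
      gaussRing A π (modularFunctionFieldBar N) (hasZFiniteFractions_bar N) hπ := Fin.cons fx f
  let red := gaussRedHom A π (modularFunctionFieldBar N) (hasZFiniteFractions_bar N) hπ
  have hmemBar : ∀ y : modularFunctionFieldBar N, (y : LaurentSeries L) ∈
      modularFunctionFieldFullC L N := fun y => by
    rw [← FLTA.Curves.laurentBaseChange_full_eq]; exact y.2
  obtain ⟨c, hc0, hc⟩ := exists_dependent L N (by exact_mod_cast NeZero.ne N)
    (fun i => ((φ i : modularFunctionFieldBar N) : LaurentSeries L))
    (fun i => hmemBar _)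
  -- normalise the coefficients
  let T : Finset (Fin (dedekindPsi N + 1) × ℕ) :=
    (Finset.univ.sigma fun i => (c i).support).map
      ⟨fun p => (p.1, p.2), fun p q h => by aesop⟩
  have hT : T.Nonempty := by
    obtain ⟨i, hi⟩ := Function.ne_iff.mp hc0
    obtain ⟨m, hm⟩ := Finset.nonempty_iff_ne_empty.mpr (fun h => hi (Polynomial.support_eq_empty.mp h))
    exact ⟨(i, m), Finset.mem_map.mpr ⟨⟨i, m⟩, by simp [hm], rfl⟩⟩
  obtain ⟨p, hp, hmax⟩ := Finset.exists_max_image T (fun p => A.valuation ((c p.1).coeff p.2)) hT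
  set γ := (c p.1).coeff p.2
  have hγ : γ ≠ 0 := by
    obtain ⟨q, hq, hqp⟩ := Finset.mem_map.mp hp
    have h := Polynomial.mem_support_iff.mp (Finset.mem_sigma.mp hq).2
    simp only [γ, ← hqp]
    exact h
  have hlift : ∀ i, ∃ q : A[X], q.map A.subtype = C γ⁻¹ * c i := by
    intro i
    refine (Polynomial.mem_lifts _).mp ((Polynomial.lifts_iff_coeff_lifts _).mpr fun m => ?_)
    rw [Polynomial.coeff_C_mul]
    suffices hA : γ⁻¹ * (c i).coeff m ∈ A from ⟨⟨_, hA⟩, rfl⟩
    by_cases hm : (c i).coeff m = 0
    · rw [hm, mul_zero]; exact A.zero_mem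
    · rw [← A.valuation_le_one_iff, map_mul, map_inv₀, ← div_eq_inv_mul]
      exact div_le_one_of_le₀
        (hmax (i, m) (Finset.mem_map.mpr ⟨⟨i, m⟩, by simp [hm], rfl⟩)) zero_le
  choose q hq using hlift
  have hjy : coeffMap A.subtype (jqModC A) ∈ modularFunctionFieldBar N := by
    rw [coeffMap_jqModC]
    show _ ∈ laurentBaseChange L (modularFunctionFieldFull N)
    rw [FLTA.Curves.laurentBaseChange_full_eq]
    exact jqModC_mem_full _ N
  let algA : A →+* gaussRing A π (modularFunctionFieldBar N) (hasZFiniteFractions_bar N) hπ :=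
    ((algebraMap L (modularFunctionFieldBar N)).comp A.subtype).codRestrict _
      (algebraMap_mem_gaussRing (hasZFiniteFractions_bar N) hπ)
  let jO : gaussRing A π (modularFunctionFieldBar N) (hasZFiniteFractions_bar N) hπ :=
    ⟨⟨_, hjy⟩, coeffMap_mem_gaussRing (hasZFiniteFractions_bar N) hπ (jqModC A) hjy⟩
  let ev := Polynomial.eval₂RingHom algA jO
  let toLS : gaussRing A π (modularFunctionFieldBar N) (hasZFiniteFractions_bar N) hπ →+*
      LaurentSeries L :=
    ((modularFunctionFieldBar N).val.toRingHom).comp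
      (gaussRing A π (modularFunctionFieldBar N) (hasZFiniteFractions_bar N) hπ).subtype
  have hevL : ∀ P : A[X], toLS (ev P) = aeval (jqModC L) (P.map A.subtype) := by
    intro P
    rw [Polynomial.aeval_def, Polynomial.eval₂_map]
    refine (Polynomial.hom_eval₂ P algA toLS jO).trans ?_
    congr 1
    exact coeffMap_jqModC A.subtype
  have hevk : ∀ P : A[X], red (ev P) = aeval (jqModC k) (P.map π) := by
    intro P
    rw [Polynomial.aeval_def, Polynomial.eval₂_map]
    refine (Polynomial.hom_eval₂ P algA red jO).trans ?_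
    congr 1
    · ext a
      exact congrArg (fun s => HahnSeries.coeff s _)
        (gaussRedHom_algebraMap (hasZFiniteFractions_bar N) hπ a)
    · exact (gaussRedHom_coeffMap (hasZFiniteFractions_bar N) hπ (jqModC A) hjy).trans
        (coeffMap_jqModC π)
  have hzero : ∑ i, ev (q i) * φ i = 0 := by
    have hinj : Function.Injective toLS := fun a b h => Subtype.ext (Subtype.ext h)
    refine hinj ?_
    rw [map_sum, map_zero]
    calc ∑ i, toLS (ev (q i) * φ i)
        = ∑ i, aeval (jqModC L) (C γ⁻¹ * c i) *
            ((φ i : modularFunctionFieldBar N) : LaurentSeries L) := by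
          refine Finset.sum_congr rfl fun i _ => ?_
          rw [map_mul, hevL, hq]
          rfl
      _ = aeval (jqModC L) (C γ⁻¹) * ∑ i, aeval (jqModC L) (c i) *
            ((φ i : modularFunctionFieldBar N) : LaurentSeries L) := by
          rw [Finset.mul_sum]; simp only [map_mul, mul_assoc]
      _ = 0 := by rw [hc, mul_zero]
  have hred : aeval (jqModC k) ((q 0).map π) * x +
      ∑ i : Fin (dedekindPsi N), aeval (jqModC k) ((q i.succ).map π) * e i = 0 := by
    have h := congrArg red hzero
    rw [map_zero, map_sum, Fin.sum_univ_succ] at h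
    simp only [map_mul, hevk, φ, Fin.cons_zero, Fin.cons_succ] at h
    simpa only [red, hfx, hf] using h
  by_cases h0 : (q 0).map π = 0
  · rw [h0, map_zero, zero_mul, zero_add] at hred
    have hall := hind _ hred
    exfalso
    have hz : ∀ i, (q i).map π = 0 := Fin.cases h0 (congrFun hall)
    have h1 : ((q p.1).map A.subtype).coeff p.2 = 1 := by
      rw [hq, Polynomial.coeff_C_mul, inv_mul_cancel₀ hγ]
    rw [Polynomial.coeff_map] at h1
    have h2 : (q p.1).coeff p.2 = 1 := Subtype.ext h1
    have h3 := congrArg (fun P => Polynomial.coeff P p.2) (hz p.1)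
    simp [Polynomial.coeff_map, h2] at h3
  · have hne : aeval (jqModC k) ((q 0).map π) ≠ 0 := fun h =>
      h0 ((transcendental_iff.mp (FLTA.Curves.transcendental_jqModC k)) _ h)
    have hj : ∀ P : k[X], aeval (jqModC k) P ∈ modularFunctionFieldFullC k N := fun P => by
      have := Polynomial.aeval_algHom_apply (modularFunctionFieldFullC k N).val
        ⟨jqModC k, jqModC_mem_full k N⟩ P
      rw [IntermediateField.coe_val] at this
      rw [this]
      exact (aeval (⟨jqModC k, jqModC_mem_full k N⟩ : modularFunctionFieldFullC k N) P).2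
    have hx : x = (aeval (jqModC k) ((q 0).map π))⁻¹ *
        -(∑ i : Fin (dedekindPsi N), aeval (jqModC k) ((q i.succ).map π) * e i) := by
      rw [eq_inv_mul_iff_mul_eq₀ hne]
      exact eq_neg_of_add_eq_zero_left hred
    rw [hx]
    exact mul_mem (inv_mem (hj _)) (neg_mem (sum_mem fun i _ => mul_mem (hj _) (heF i)))

theorem gaussResidue_eq_fullC (hN : (N : k) ≠ 0) :
    gaussResidue A π (modularFunctionFieldBar N) (hasZFiniteFractions_bar N) hπ =
      modularFunctionFieldFullC k N :=
  le_antisymm (gaussResidue_le_fullC N hπ hN) (fullC_le_gaussResidue N hπ)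

/-- The Gauss constant reduction. -/
def gaussRed (hN : (N : k) ≠ 0) :
    ConstRed A π (modularFunctionFieldBar N) (modularFunctionFieldFullC k N) where
  O := gaussRing A π (modularFunctionFieldBar N) (hasZFiniteFractions_bar N) hπ
  red := (gaussRedHom A π (modularFunctionFieldBar N) (hasZFiniteFractions_bar N) hπ).codRestrict
    (modularFunctionFieldFullC k N)
    fun f => gaussResidue_le_fullC N hπ hN ⟨f, rfl⟩
  π_surjective := hπ
  algebraMap_mem := algebraMap_mem_gaussRing (hasZFiniteFractions_bar N) hπ
  red_algebraMap a := Subtype.ext (gaussRedHom_algebraMap (hasZFiniteFractions_bar N) hπ a)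
  red_surjective x := by
    obtain ⟨f, hf⟩ := fullC_le_gaussResidue N hπ x.2
    exact ⟨f, Subtype.ext hf⟩
  lattice W hW := by
    obtain ⟨n, b, hspan, hli⟩ := gauss_lattice (hasZFiniteFractions_bar N) hπ W
    refine ⟨n, b, hspan, Fintype.linearIndependent_iff.mpr fun g hg i => ?_⟩
    refine Fintype.linearIndependent_iff.mp hli g ?_ i
    have h := congrArg (Subtype.val : modularFunctionFieldFullC k N → LaurentSeries k) hg
    rw [AddSubmonoidClass.coe_finsetSum] at h
    refine (Finset.sum_congr rfl fun j _ => ?_).trans h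
    rw [← algebraMap_mul_eq_smul, Algebra.smul_def]
    rfl

variable (hN : (N : k) ≠ 0)

theorem gaussRed_coeffMap_mem (y : LaurentSeries A)
    (hy : coeffMap A.subtype y ∈ modularFunctionFieldBar N) :
    (⟨_, hy⟩ : modularFunctionFieldBar N) ∈ (gaussRed N hπ hN).O :=
  coeffMap_mem_gaussRing (hasZFiniteFractions_bar N) hπ y hy

theorem gaussRed_coeffMap (y : LaurentSeries A)
    (hy : coeffMap A.subtype y ∈ modularFunctionFieldBar N) :
    ((gaussRed N hπ hN).red ⟨_, gaussRed_coeffMap_mem N hπ hN y hy⟩ : LaurentSeries k) =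
      coeffMap π y :=
  gaussRedHom_coeffMap (hasZFiniteFractions_bar N) hπ y hy

/-- The residue through any representation by integral series. -/
theorem coe_gaussRed_red_eq (u : (gaussRed N hπ hN).O) {y z : LaurentSeries A}
    (h : GaussRep A π (modularFunctionFieldBar N) (u : modularFunctionFieldBar N) y z) :
    ((gaussRed N hπ hN).red u : LaurentSeries k) = coeffMap π y / coeffMap π z :=
  gaussRedHom_eq (hasZFiniteFractions_bar N) hπ u h

include hN in
theorem coeffMap_mem_fullC_of_mem_bar (y : LaurentSeries A)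
    (hy : coeffMap A.subtype y ∈ modularFunctionFieldBar N) :
    coeffMap π y ∈ modularFunctionFieldFullC k N :=
  gaussRed_coeffMap N hπ hN y hy ▸ SetLike.coe_mem _

/-- An element of the Gauss ring is a quotient of integral series, the denominator a unit. -/
theorem exists_integral_frac (u : (gaussRed N hπ hN).O) :
    ∃ (a b : LaurentSeries A) (_ : coeffMap A.subtype a ∈ modularFunctionFieldBar N)
      (_ : coeffMap A.subtype b ∈ modularFunctionFieldBar N),
      coeffMap π b ≠ 0 ∧
        ((u : modularFunctionFieldBar N) : LaurentSeries _) * coeffMap A.subtype b =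
          coeffMap A.subtype a := by
  obtain ⟨a, b, h⟩ := u.2
  exact ⟨a, b, h.num_mem, h.den_mem, h.den_ne, h.mul_eq⟩

include hN in
/-- Principal divisors are generated by divisors of integral elements with nonzero reduction. -/
theorem principalGeneratedByIntegralOf : PrincipalGeneratedByIntegral A π N := by
  intro D hD
  obtain ⟨f, hf, hDf⟩ := hD
  obtain ⟨c, g, y, z, hc, hg, hy, hfg⟩ :=
    exists_scalar_mul_gaussRep (hasZFiniteFractions_bar N) hπ hf
  have : HasPrincipalDivisors (AlgebraicClosure ℚ) (modularFunctionFieldBar N) := inferInstance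
  have hY : (⟨_, hg.num_mem⟩ : modularFunctionFieldBar N) ≠ 0 := fun h =>
    hy (coeffMap_π_eq_zero (congrArg Subtype.val h))
  have hZ : (⟨_, hg.den_mem⟩ : modularFunctionFieldBar N) ≠ 0 := fun h =>
    hg.den_ne' (congrArg Subtype.val h)
  obtain ⟨DY, hDY, -⟩ := HasPrincipalDivisors.exists_divisor (K := AlgebraicClosure ℚ) _ hY
  obtain ⟨DZ, hDZ, -⟩ := HasPrincipalDivisors.exists_divisor (K := AlgebraicClosure ℚ) _ hZ
  have hmemY : DY ∈ integralPrincipalDivisors A π N :=
    ⟨y, hg.num_mem, coeffMap_mem_fullC_of_mem_bar N hπ hN y hg.num_mem, hy, hDY⟩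
  have hmemZ : DZ ∈ integralPrincipalDivisors A π N :=
    ⟨z, hg.den_mem, coeffMap_mem_fullC_of_mem_bar N hπ hN z hg.den_mem, hg.den_ne, hDZ⟩
  have hD' : D = DY - DZ := by
    ext P
    rw [Finsupp.sub_apply, hDf, hDY, hDZ]
    have h1 : (⟨_, hg.num_mem⟩ : modularFunctionFieldBar N) = g * ⟨_, hg.den_mem⟩ :=
      Subtype.ext hg.mul_eq.symm
    have hg0 : g ≠ 0 := fun h => hf (by rw [hfg, h, mul_zero])
    rw [h1, P.ord_mul hg0 hZ, hfg, P.ord_mul (by simpa using hc) hg0,
      FLTA.Curves.ord_algebraMap]
    ring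
  rw [hD']
  exact AddSubgroup.sub_mem _ (AddSubgroup.subset_closure hmemY) (AddSubgroup.subset_closure hmemZ)

end Modular

end FLTA.PlaceRed

end
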