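import Fermat.Agent.PlaceRed.GenusDegree
import Fermat.Agent.Igusa.Degree
import Fermat.Agent.Curves.BasicModular
import Fermat.Agent.Galois.Places
import Fermat.Prelude.Def_GaloisRep_Flat
import Fermat.Prelude.Def_EllipticCurve_FrobeniusTrace

/-!
# Auxiliary facts for the genus equality: degree of the poles of `j`, `ℤ_(ℓ) ⊆ A`
-/

set_option autoImplicit false

noncomputable section

open AlgebraicCurve ModularCurve

namespace FLTA.PlaceRed

/-- Integrality over `R[x]` is carried to integrality over `K[ψ x]`. -/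
theorem isIntegral_adjoin_map {R : Type*} [CommRing R] {F : Type*} [Field F] [Algebra R F]
    {K : Type*} [Field K] {E : Type*} [Field E] [Algebra K E] (ψ : F →+* E) {x : F} {y : E}
    (hxy : ψ x = y)
    (hR : ∀ a : R, ψ (algebraMap R F a) ∈ Algebra.adjoin K ({y} : Set E)) {f : F}
    (hf : IsIntegral (Algebra.adjoin R ({x} : Set F)) f) :
    IsIntegral (Algebra.adjoin K ({y} : Set E)) (ψ f) := by
  have hle : ∀ z ∈ Algebra.adjoin R ({x} : Set F), ψ z ∈ Algebra.adjoin K ({y} : Set E) := by
    intro z hz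
    induction hz using Algebra.adjoin_induction with
    | mem w hw =>
      rw [Set.mem_singleton_iff.mp hw, hxy]
      exact Algebra.subset_adjoin rfl
    | algebraMap a => exact hR a
    | add u v _ _ hu hv => rw [map_add]; exact add_mem hu hv
    | mul u v _ _ hu hv => rw [map_mul]; exact mul_mem hu hv
  exact hf.map_of_comp_eq
    ((ψ.comp (Algebra.adjoin R ({x} : Set F)).val.toRingHom).codRestrict
      (Algebra.adjoin K ({y} : Set E)).toSubring fun z => hle z z.2)
    ψ (by ext z; rfl)

section Degree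

set_option synthInstance.maxHeartbeats 400000
set_option maxHeartbeats 1000000

variable (K : Type) [Field K] (N : ℕ) [NeZero N]

/-- `[K(j_d : d ∣ N) : K(j)] = ψ(N)` inside the function field. -/
theorem finrank_adjoin_jFullC (hN : (N : K) ≠ 0) :
    Module.finrank (IntermediateField.adjoin K ({FLTA.Curves.jFullC K N} :
      Set (modularFunctionFieldFullC K N))) (modularFunctionFieldFullC K N) = dedekindPsi N := by
  rw [← FLTA.Igusa.finrank_fullOver K N hN]
  set S := IntermediateField.adjoin K ({FLTA.Curves.jFullC K N} :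
      Set (modularFunctionFieldFullC K N))
  have hS : IntermediateField.lift S = FLTA.Igusa.jField K := by
    rw [IntermediateField.lift_adjoin_simple]
    rfl
  let e₁ : S ≃+* FLTA.Igusa.jField K :=
    ((IntermediateField.liftAlgEquiv S).trans (IntermediateField.equivOfEq hS)).toRingEquiv
  let e₂ : modularFunctionFieldFullC K N ≃+* FLTA.Igusa.fullOver K N :=
    { toFun := fun x => ⟨(x : LaurentSeries K), (FLTA.Igusa.mem_fullOver_iff K N).mpr x.2⟩
      invFun := fun x => ⟨(x : LaurentSeries K), (FLTA.Igusa.mem_fullOver_iff K N).mp x.2⟩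
      left_inv := fun x => rfl
      right_inv := fun x => rfl
      map_mul' := fun x y => rfl
      map_add' := fun x y => rfl }
  exact Algebra.finrank_eq_of_equiv_equiv e₁ e₂ (RingHom.ext fun z => rfl)

variable {K N}

/-- The polar divisor of `j` has degree `ψ(N)`. -/
theorem degree_polar_j (hN : (N : K) ≠ 0) {E : IntermediateField K (LaurentSeries K)}
    (hE : E = modularFunctionFieldFullC K N) {g : ℕ} (hR : RRCurve K E g) {x : E}
    (hx : (x : LaurentSeries K) = jqModC K) {D : Divisor K E} (hD : IsPolar x D) :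
    Divisor.degree D = dedekindPsi N := by
  subst hE
  obtain rfl : x = FLTA.Curves.jFullC K N := Subtype.ext hx
  haveI := FLTA.Curves.finite_adjoin_jFullC K N
  rw [degree_eq_finrank hR (FLTA.Curves.transcendental_jFullC K N) hD,
    finrank_adjoin_jFullC K N hN]

theorem dedekindPsi_pos (N : ℕ) [NeZero N] : 0 < dedekindPsi N := by
  unfold dedekindPsi
  refine Finset.sum_pos' (fun _ _ => Nat.zero_le _) ⟨1, ?_, ?_⟩
  · exact Finset.mem_filter.mpr
      ⟨Nat.mem_divisors.mpr ⟨one_dvd N, NeZero.ne N⟩, squarefree_one⟩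
  · simpa using Nat.pos_of_ne_zero (NeZero.ne N)

end Degree

section Localized

variable {A : ValuationSubring (AlgebraicClosure ℚ)} {ℓ : ℕ} [Fact ℓ.Prime]

theorem algebraMap_mem_of_mem_ratLocalizedAt (hA : A.LiesOverPrime ℓ) {q : ℚ}
    (hq : q ∈ GaloisRep.ratLocalizedAt ℓ) : algebraMap ℚ (AlgebraicClosure ℚ) q ∈ A := by
  have hnd : ¬ ℓ ∣ q.den := fun h =>
    (Fact.out : ℓ.Prime).one_lt.ne'
      (Nat.dvd_one.mp (hq.gcd_eq_one ▸ Nat.dvd_gcd h dvd_rfl))
  have hden : ((q.den : AlgebraicClosure ℚ))⁻¹ ∈ A := by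
    by_contra hc
    apply hnd
    rw [← FLTA.Galois.natCast_mem_nonunits_iff (Fact.out : ℓ.Prime) hA,
      ValuationSubring.mem_nonunits_iff]
    have h1 : 1 < A.valuation ((q.den : AlgebraicClosure ℚ))⁻¹ := by
      rwa [← not_le, A.valuation_le_one_iff]
    rw [map_inv₀] at h1
    simpa using inv_lt_one_of_one_lt₀ h1
  rw [eq_ratCast, Rat.cast_def, div_eq_mul_inv]
  exact mul_mem (intCast_mem A _) hden

/-- The inclusion `ℤ_(ℓ) → A`. -/
def zlToA (hA : A.LiesOverPrime ℓ) : ↥(GaloisRep.ratLocalizedAt ℓ) →+* A :=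
  ((algebraMap ℚ (AlgebraicClosure ℚ)).comp (GaloisRep.ratLocalizedAt ℓ).subtype).codRestrict
    A.toSubring fun q => algebraMap_mem_of_mem_ratLocalizedAt hA q.2

theorem subtype_comp_zlToA (hA : A.LiesOverPrime ℓ) :
    A.subtype.comp (zlToA hA) =
      (algebraMap ℚ (AlgebraicClosure ℚ)).comp (GaloisRep.ratLocalizedAt ℓ).subtype :=
  rfl

end Localized

end FLTA.PlaceRed

end
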