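import Fermat.Agent.PlaceRed.Defs

/-!
# Poles of one function: `L(m · D∞)` and integrality

`x` is a function, `D` its polar divisor, `D₀` its divisor of zeros.  A function whose poles lie
above `x = ∞` is integral over `K[x]`, by a dimension count in Riemann-Roch.
-/

set_option autoImplicit false

noncomputable section

open AlgebraicCurve

namespace FLTA.PlaceRed

variable {K F : Type*} [Field K] [Field F] [Algebra K F]

/-- `D` is the polar divisor of `x`. -/
def IsPolar (x : F) (D : Divisor K F) : Prop :=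
  ∀ v : Place K F, D v = max (-v.ord x) 0

theorem IsPolar.nonneg {x : F} {D : Divisor K F} (hD : IsPolar x D) : 0 ≤ D := fun v => by
  rw [hD v]; exact le_max_right _ _

theorem exists_isPolar {g : ℕ} (hR : RRCurve K F g) (x : F) :
    ∃ D : Divisor K F, IsPolar x D := by
  classical
  rcases eq_or_ne x 0 with rfl | hx
  · exact ⟨0, fun v => by simp⟩
  obtain ⟨E, hE, -⟩ := hR.principal.exists_divisor x hx
  refine ⟨E.mapRange (fun n => max (-n) 0) (by simp), fun v => ?_⟩
  rw [Finsupp.mapRange_apply, hE v]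

/-- Membership in `L(D)` in terms of `ord`. -/
theorem mem_rr_iff {D : Divisor K F} {f : F} :
    f ∈ riemannRochSpace D ↔ ∀ v : Place K F, f = 0 ∨ -D v ≤ v.ord f :=
  mem_riemannRochSpace_iff

theorem mem_toValuationSubring_of_ord_nonneg (v : Place K F) {f : F}
    (h : f = 0 ∨ 0 ≤ v.ord f) : f ∈ v.toValuationSubring := by
  have h1 := v.adicValuation_le_one_iff.mpr h
  rcases v.toValuationSubring.mem_or_inv_mem f with hm | hm
  · exact hm
  rcases eq_or_ne f 0 with rfl | hf0
  · exact zero_mem _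
  by_contra hn
  have hne : v.adicValuation f⁻¹ ≠ 1 := fun e => by
    obtain ⟨u, hu⟩ := (v.adicValuation_coe_eq_one_iff ⟨f⁻¹, hm⟩).mp e
    have h2 : f⁻¹ * ((↑u⁻¹ : v.toValuationSubring) : F) = 1 := by
      have := congrArg Subtype.val u.mul_inv
      rwa [hu] at this
    apply hn
    have h3 : ((↑u⁻¹ : v.toValuationSubring) : F) = f := by
      field_simp at h2
      exact h2
    exact h3 ▸ Subtype.coe_prop _
  have h4 := v.adicValuation_le_one_of_mem hm
  have h5 : v.adicValuation f⁻¹ < 1 := lt_of_le_of_ne h4 hne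
  rw [map_inv₀, inv_lt_one₀ (zero_lt_iff.mpr (v.adicValuation_ne_zero hf0))] at h5
  exact absurd h1 (not_le.mpr h5)

theorem eq_zero_or_ord_nonneg_of_mem (v : Place K F) {f : F} (h : f ∈ v.toValuationSubring) :
    f = 0 ∨ 0 ≤ v.ord f :=
  v.adicValuation_le_one_iff.mp (v.adicValuation_le_one_of_mem h)

/-- An element integral over `K[x]` has no poles where `x` is finite. -/
theorem ord_nonneg_of_isIntegral_adjoin {x f : F} (v : Place K F) (hv : 0 ≤ v.ord x)
    (hf : IsIntegral (Algebra.adjoin K {x}) f) : f = 0 ∨ 0 ≤ v.ord f := by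
  have hx : x ∈ v.toValuationSubring := mem_toValuationSubring_of_ord_nonneg v (Or.inr hv)
  have hle : ∀ y ∈ Algebra.adjoin K ({x} : Set F), y ∈ v.toValuationSubring := by
    intro y hy
    induction hy using Algebra.adjoin_induction with
    | mem z hz => rwa [Set.mem_singleton_iff.mp hz]
    | algebraMap a => exact v.algebraMap_mem' a
    | add y z _ _ hy hz => exact add_mem hy hz
    | mul y z _ _ hy hz => exact mul_mem hy hz
  have hf' : IsIntegral v.toValuationSubring f :=
    hf.map_of_comp_eq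
      ((Algebra.adjoin K ({x} : Set F)).val.toRingHom.codRestrict
        v.toValuationSubring.toSubring fun y => hle y y.2)
      (RingHom.id F) (by ext; rfl)
  obtain ⟨y, hy⟩ := IsIntegrallyClosed.algebraMap_eq_of_integral hf'
  exact eq_zero_or_ord_nonneg_of_mem v (hy ▸ y.2)

/-- Elements integral over `K[x]` which after division by `x ^ M` are integral over `K[1/x]`
lie in `L(M D)`. -/
theorem mem_rr_of_isIntegral {x : F} {D : Divisor K F} (hD : IsPolar x D) (hx : x ≠ 0) (M : ℕ)
    {f : F} (h1 : IsIntegral (Algebra.adjoin K {x}) f)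
    (h2 : IsIntegral (Algebra.adjoin K {x⁻¹}) (f * x⁻¹ ^ M)) :
    f ∈ riemannRochSpace (M • D) := by
  rw [mem_rr_iff]
  intro v
  rcases eq_or_ne f 0 with rfl | hf
  · exact Or.inl rfl
  refine Or.inr ?_
  rw [Finsupp.smul_apply, hD v, nsmul_eq_mul]
  rcases le_or_gt 0 (v.ord x) with hv | hv
  · rw [max_eq_right (by omega), mul_zero, neg_zero]
    exact (ord_nonneg_of_isIntegral_adjoin v hv h1).resolve_left hf
  · have h := (ord_nonneg_of_isIntegral_adjoin v (by rw [v.ord_inv]; omega) h2).resolve_left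
      (mul_ne_zero hf (pow_ne_zero _ (inv_ne_zero hx)))
    rw [v.ord_mul hf (pow_ne_zero _ (inv_ne_zero hx)), inv_pow, ← zpow_natCast, v.ord_inv,
      v.ord_zpow] at h
    rw [max_eq_left (by omega), mul_neg, neg_neg]
    omega

theorem riemannRochSpace_mono' {D E : Divisor K F} (h : D ≤ E) :
    riemannRochSpace D ≤ riemannRochSpace E :=
  fun _ hf v => (hf v).trans (WithZero.exp_le_exp.mpr (Finsupp.le_def.mp h v))

theorem mul_mem_rr {D E : Divisor K F} {f h : F} (hf : f ∈ riemannRochSpace D)
    (hh : h ∈ riemannRochSpace E) : f * h ∈ riemannRochSpace (D + E) := by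
  intro v
  rw [map_mul, Finsupp.add_apply, WithZero.exp_add]
  exact mul_le_mul' (hf v) (hh v)

theorem one_le_degree {g : ℕ} (hR : RRCurve K F g) {D : Divisor K F} (hD : 0 ≤ D)
    (hD0 : D ≠ 0) : 1 ≤ Divisor.degree D := by
  have hsum : ∀ E : Divisor K F, Divisor.degree E = ∑ v ∈ E.support, E v := by
    intro E
    conv_lhs => rw [← Finsupp.sum_single E, Finsupp.sum, map_sum]
    exact Finset.sum_congr rfl fun v _ => by rw [Divisor.degree_single, hR.deg_eq_one]; simp
  obtain ⟨v, hv⟩ : D.support.Nonempty := Finsupp.support_nonempty_iff.mpr hD0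
  rw [hsum]
  refine le_trans ?_ (Finset.single_le_sum (fun w _ => hD w) hv)
  have := Finsupp.mem_support_iff.mp hv
  have := hD v
  simp only [Finsupp.coe_zero, Pi.zero_apply] at this
  omega

/-- `2g - 1 ≤ M deg D` as soon as `D` is effective, non-zero and `2g ≤ M`. -/
theorem two_mul_sub_one_le_degree {g : ℕ} (hR : RRCurve K F g) {D : Divisor K F} (hD : 0 ≤ D)
    (hD0 : D ≠ 0) {M : ℕ} (hM : 2 * g ≤ M) :
    2 * (g : ℤ) - 1 ≤ Divisor.degree (M • D) := by
  have hdeg := one_le_degree hR hD hD0
  rw [map_nsmul, nsmul_eq_mul]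
  have h1 : (M : ℤ) * 1 ≤ (M : ℤ) * Divisor.degree D := by
    exact mul_le_mul_of_nonneg_left hdeg (Int.natCast_nonneg M)
  omega

theorem rr_succ_le_sup {g : ℕ} (hR : RRCurve K F g) {x : F} {D : Divisor K F}
    (hD : IsPolar x D) (hx : x ≠ 0) {m : ℕ} (hm : 2 * g + 1 ≤ m) :
    riemannRochSpace ((m + 1) • D) ≤
      riemannRochSpace (m • D) ⊔ (riemannRochSpace (m • D)).map (LinearMap.mulLeft K x) := by
  classical
  obtain ⟨m, rfl⟩ : ∃ i, m = i + 1 := ⟨m - 1, by omega⟩
  rcases eq_or_ne D 0 with h0 | h0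
  · subst h0
    simp
  set U := riemannRochSpace ((m + 1) • D)
  set W := riemannRochSpace ((m + 1 + 1) • D)
  have hxD : x ∈ riemannRochSpace D := mem_rr_iff.mpr fun v => Or.inr (by rw [hD v]; omega)
  have hle : U ⊔ U.map (LinearMap.mulLeft K x) ≤ W := by
    refine sup_le (riemannRochSpace_mono' (nsmul_le_nsmul_left hD.nonneg (Nat.le_succ _))) ?_
    rintro _ ⟨f, hf, rfl⟩
    show x * f ∈ W
    have := mul_mem_rr hxD hf
    rwa [← succ_nsmul'] at this
  have hinf : U ⊓ U.map (LinearMap.mulLeft K x) ≤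
      (riemannRochSpace (m • D)).map (LinearMap.mulLeft K x) := by
    rintro _ ⟨hu, f, hf, rfl⟩
    refine ⟨f, mem_rr_iff.mpr fun v => ?_, rfl⟩
    rcases eq_or_ne f 0 with rfl | hf0
    · exact Or.inl rfl
    have h1 := (mem_rr_iff.mp hu v).resolve_left (mul_ne_zero hx hf0)
    have h2 := (mem_rr_iff.mp hf v).resolve_left hf0
    rw [LinearMap.mulLeft_apply, v.ord_mul hx hf0] at h1
    simp only [Finsupp.smul_apply, nsmul_eq_mul, hD v] at h1 h2 ⊢
    refine Or.inr ?_
    rcases le_or_gt 0 (v.ord x) with hv | hv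
    · rw [max_eq_right (by omega)] at h1 h2 ⊢
      simp only [mul_zero, neg_zero] at h1 h2 ⊢
      omega
    · rw [max_eq_left (by omega)] at h1 h2 ⊢
      push_cast at h1 h2 ⊢
      linarith
  have := hR.finiteDimensional ((m + 1) • D)
  have := hR.finiteDimensional ((m + 1 + 1) • D)
  have := hR.finiteDimensional (m • D)
  have hinj : Function.Injective (LinearMap.mulLeft K x) := fun a b h => mul_left_cancel₀ hx h
  have e : ∀ V : Submodule K F,
      Module.finrank K (V.map (LinearMap.mulLeft K x)) = Module.finrank K V := fun V =>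
    (V.equivMapOfInjective _ hinj).finrank_eq.symm
  have h1 := Submodule.finrank_sup_add_finrank_inf_eq U (U.map (LinearMap.mulLeft K x))
  have h2 := Submodule.finrank_mono hinf
  rw [e] at h1 h2
  have d : ∀ i : ℕ, 2 * g ≤ i →
      (Module.finrank K (riemannRochSpace (i • D)) : ℤ) = i * Divisor.degree D + 1 - g := by
    intro i hi
    rw [hR.finrank_eq _ (two_mul_sub_one_le_degree hR hD.nonneg h0 hi), map_nsmul, nsmul_eq_mul]
  refine (Submodule.eq_of_le_of_finrank_le hle ?_).ge
  have a1 := d m (by omega)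
  have a2 := d (m + 1) (by omega)
  have a3 := d (m + 1 + 1) (by omega)
  push_cast at a1 a2 a3
  have key : (Module.finrank K W : ℤ) ≤ Module.finrank K ↥(U ⊔ U.map (LinearMap.mulLeft K x)) := by
    have h1' : (Module.finrank K ↥(U ⊔ U.map (LinearMap.mulLeft K x)) : ℤ) +
        Module.finrank K ↥(U ⊓ U.map (LinearMap.mulLeft K x)) =
        Module.finrank K U + Module.finrank K U := by exact_mod_cast h1
    have h2' : (Module.finrank K ↥(U ⊓ U.map (LinearMap.mulLeft K x)) : ℤ) ≤
        Module.finrank K (riemannRochSpace (m • D)) := by exact_mod_cast h2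
    linarith
  exact_mod_cast key

/-- The union of the `L(m D)` is a finitely generated `K[x]`-module. -/
theorem rr_le_span_adjoin {g : ℕ} (hR : RRCurve K F g) {x : F} {D : Divisor K F}
    (hD : IsPolar x D) (hx : x ≠ 0) (m : ℕ) :
    ∀ f ∈ riemannRochSpace (m • D), f ∈ Submodule.span (Algebra.adjoin K ({x} : Set F))
      (riemannRochSpace ((2 * g + 1) • D) : Set F) := by
  induction m with
  | zero =>
    intro f hf
    exact Submodule.subset_span
      (riemannRochSpace_mono' (nsmul_le_nsmul_left hD.nonneg (Nat.zero_le _)) hf)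
  | succ m ih =>
    intro f hf
    rcases le_or_gt (m + 1) (2 * g + 1) with hm | hm
    · exact Submodule.subset_span
        (riemannRochSpace_mono' (nsmul_le_nsmul_left hD.nonneg hm) hf)
    obtain ⟨a, ha, b, ⟨c, hc, rfl⟩, rfl⟩ :=
      Submodule.mem_sup.mp (rr_succ_le_sup hR hD hx (Nat.lt_succ_iff.mp hm) hf)
    refine add_mem (ih a ha) ?_
    exact Submodule.smul_mem _ (⟨x, Algebra.subset_adjoin rfl⟩ : Algebra.adjoin K ({x} : Set F))
      (ih c hc)

theorem exists_mem_rr_nsmul {g : ℕ} (hR : RRCurve K F g) {x : F} {D : Divisor K F}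
    (hD : IsPolar x D) {f : F} (hf : ∀ v : Place K F, 0 ≤ v.ord x → f = 0 ∨ 0 ≤ v.ord f) :
    ∃ m : ℕ, f ∈ riemannRochSpace (m • D) := by
  classical
  rcases eq_or_ne f 0 with rfl | hf0
  · exact ⟨0, zero_mem _⟩
  obtain ⟨E, hE, -⟩ := hR.principal.exists_divisor f hf0
  refine ⟨∑ v ∈ E.support, (E v).natAbs, mem_rr_iff.mpr fun v => Or.inr ?_⟩
  rw [Finsupp.smul_apply, hD v, nsmul_eq_mul]
  rcases le_or_gt 0 (v.ord x) with hv | hv
  · rw [max_eq_right (by omega), mul_zero, neg_zero]
    exact (hf v hv).resolve_left hf0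
  · rw [max_eq_left (by omega), ← hE v, mul_neg, neg_neg]
    rcases le_or_gt 0 (E v) with h | h
    · exact le_trans (mul_nonpos_of_nonneg_of_nonpos (Int.natCast_nonneg _) hv.le) h
    · have h1 : (E v).natAbs ≤ ∑ w ∈ E.support, (E w).natAbs :=
        Finset.single_le_sum (f := fun w => (E w).natAbs) (fun _ _ => Nat.zero_le _)
          (Finsupp.mem_support_iff.mpr h.ne)
      have h2 : ((∑ w ∈ E.support, (E w).natAbs : ℕ) : ℤ) * v.ord x ≤
          ((∑ w ∈ E.support, (E w).natAbs : ℕ) : ℤ) * (-1) :=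
        mul_le_mul_of_nonneg_left (by omega) (Int.natCast_nonneg _)
      omega

/-- A function without poles where `x` is finite is integral over `K[x]`. -/
theorem isIntegral_adjoin_of_ord_nonneg {g : ℕ} (hR : RRCurve K F g) {x : F} (hx : x ≠ 0)
    {f : F} (hf : ∀ v : Place K F, 0 ≤ v.ord x → f = 0 ∨ 0 ≤ v.ord f) :
    IsIntegral (Algebra.adjoin K ({x} : Set F)) f := by
  classical
  obtain ⟨D, hD⟩ := exists_isPolar hR x
  set A' := Algebra.adjoin K ({x} : Set F)
  set N := Submodule.span A' (riemannRochSpace ((2 * g + 1) • D) : Set F)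
  have := hR.finiteDimensional ((2 * g + 1) • D)
  have hone : (1 : F) ∈ N := Submodule.subset_span (mem_rr_iff.mpr fun v => Or.inr (by
    rw [Finsupp.smul_apply, v.ord_one, nsmul_eq_mul, hD v, neg_nonpos]
    exact mul_nonneg (Int.natCast_nonneg _) (le_max_right _ _)))
  have hfg : N.FG := by
    obtain ⟨s, hs⟩ : (riemannRochSpace ((2 * g + 1) • D)).FG :=
      Module.Finite.iff_fg.mp inferInstance
    refine ⟨s, le_antisymm (Submodule.span_mono fun y hy => hs ▸ Submodule.subset_span hy) ?_⟩
    rw [Submodule.span_le]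
    intro y hy
    rw [← hs] at hy
    exact Submodule.span_subset_span K A' (s : Set F) hy
  refine isIntegral_of_smul_mem_submodule N ?_ hfg f fun n hn => ?_
  · intro hbot
    rw [hbot, Submodule.mem_bot] at hone
    exact one_ne_zero hone
  · rw [smul_eq_mul]
    induction hn using Submodule.span_induction with
    | mem y hy =>
      obtain ⟨m, hm⟩ := exists_mem_rr_nsmul hR hD hf
      have h := mul_mem_rr hm hy
      rw [← add_nsmul] at h
      exact rr_le_span_adjoin hR hD hx _ _ h
    | zero => rw [mul_zero]; exact zero_mem _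
    | add y z _ _ hy hz => rw [mul_add]; exact add_mem hy hz
    | smul c y _ hy => rw [Algebra.mul_smul_comm]; exact Submodule.smul_mem _ c hy

/-- Splitting of a function with poles only over `x ∈ {0, ∞}`. -/
theorem rr_add_le_sup {g : ℕ} (hR : RRCurve K F g) {x : F} {D D₀ : Divisor K F}
    (hD : IsPolar x D) (hD₀ : IsPolar x⁻¹ D₀) (hne : D ≠ 0) {M a : ℕ} (hM : 2 * g ≤ M)
    (ha : M ≤ a) (b : ℕ) :
    riemannRochSpace (a • D + b • D₀) ≤
      riemannRochSpace (a • D) ⊔ riemannRochSpace (M • D + b • D₀) := by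
  classical
  set U := riemannRochSpace (a • D)
  set V := riemannRochSpace (M • D + b • D₀)
  set W := riemannRochSpace (a • D + b • D₀)
  have hb : (0 : Divisor K F) ≤ b • D₀ := nsmul_nonneg hD₀.nonneg b
  have hle : U ⊔ V ≤ W :=
    sup_le (riemannRochSpace_mono' (le_add_of_nonneg_right hb))
      (riemannRochSpace_mono' (add_le_add (nsmul_le_nsmul_left hD.nonneg ha) le_rfl))
  have hinf : U ⊓ V ≤ riemannRochSpace (M • D) := by
    intro f hf
    refine mem_rr_iff.mpr fun v => ?_
    rcases eq_or_ne f 0 with rfl | hf0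
    · exact Or.inl rfl
    refine Or.inr ?_
    have h1 := (mem_rr_iff.mp hf.1 v).resolve_left hf0
    have h2 := (mem_rr_iff.mp hf.2 v).resolve_left hf0
    simp only [Finsupp.add_apply, Finsupp.smul_apply, nsmul_eq_mul, hD v, hD₀ v, v.ord_inv,
      neg_neg] at h1 h2 ⊢
    rcases le_or_gt 0 (v.ord x) with hv | hv
    · rw [max_eq_right (show -v.ord x ≤ 0 by omega), mul_zero, neg_zero] at h1 ⊢
      exact h1
    · rw [max_eq_right hv.le, mul_zero, add_zero] at h2
      exact h2
  have := hR.finiteDimensional (a • D)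
  have := hR.finiteDimensional (M • D)
  have := hR.finiteDimensional (M • D + b • D₀)
  have := hR.finiteDimensional (a • D + b • D₀)
  have dM := two_mul_sub_one_le_degree hR hD.nonneg hne hM
  have da := two_mul_sub_one_le_degree hR hD.nonneg hne (le_trans hM ha)
  have hdeg0 : 0 ≤ Divisor.degree (b • D₀) := by
    conv_rhs => rw [← Finsupp.sum_single (b • D₀), Finsupp.sum, map_sum]
    refine Finset.sum_nonneg fun v _ => ?_
    rw [Divisor.degree_single, hR.deg_eq_one]
    simpa using hb v
  have eM := hR.finrank_eq _ dM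
  have ea := hR.finrank_eq _ da
  have eV := hR.finrank_eq (M • D + b • D₀) (by rw [map_add]; omega)
  have eW := hR.finrank_eq (a • D + b • D₀) (by rw [map_add]; omega)
  rw [map_add] at eV eW
  have h1 := Submodule.finrank_sup_add_finrank_inf_eq U V
  have h2 := Submodule.finrank_mono hinf
  refine (Submodule.eq_of_le_of_finrank_le hle ?_).ge
  simp only [U, V, W] at h1 h2 ⊢
  omega

end FLTA.PlaceRed

end
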