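import Mathlib

/-!
# The polynomial system of `u ^ n = f v` in coordinates, and its linearisation

Given structure constants for the products of basis vectors of three spaces in a fourth one, the
equation `u ^ n = f v` becomes a polynomial system; its linearisation is computed with dual
numbers.
-/

set_option autoImplicit false

noncomputable section

open MvPolynomial

namespace FLTA.PlaceRed

variable {A : Type*} [CommRing A] {ι₁ ι₂ ι₃ κ : Type*} [Fintype ι₁] [Fintype ι₂] [Fintype ι₃]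
  [Fintype κ]

/-- An affine form. -/
def affineForm {ι : Type*} (x₀ : ι → A) (W : ι → κ → A) (i : ι) : MvPolynomial κ A :=
  C (x₀ i) + ∑ j, C (W i j) * X j

theorem eval₂_affineForm {T : Type*} [CommRing T] (φ : A →+* T) (t : κ → T) {ι : Type*}
    (x₀ : ι → A) (W : ι → κ → A) (i : ι) :
    eval₂ φ t (affineForm x₀ W i) = φ (x₀ i) + ∑ j, φ (W i j) * t j := by
  simp [affineForm, eval₂_sum]

/-- The coordinates of `u ^ n - f v`. -/
def powSystem (n : ℕ) (α : (Fin n → ι₁) → κ → A) (β : ι₂ → ι₃ → κ → A)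
    (u₀ : ι₁ → A) (U : ι₁ → κ → A) (f₀ : ι₂ → A) (G : ι₂ → κ → A)
    (v₀ : ι₃ → A) (V : ι₃ → κ → A) (l : κ) : MvPolynomial κ A :=
  ∑ σ : Fin n → ι₁, C (α σ l) * ∏ r, affineForm u₀ U (σ r) -
    ∑ i, ∑ i', C (β i i' l) * affineForm f₀ G i * affineForm v₀ V i'

/-- The system evaluated in any algebra realising the structure constants. -/
theorem sum_eval₂_powSystem {T : Type*} [CommRing T] (φ : A →+* T) (t : κ → T) (n : ℕ)
    (α : (Fin n → ι₁) → κ → A) (β : ι₂ → ι₃ → κ → A)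
    (u₀ : ι₁ → A) (U : ι₁ → κ → A) (f₀ : ι₂ → A) (G : ι₂ → κ → A)
    (v₀ : ι₃ → A) (V : ι₃ → κ → A) (b : ι₁ → T) (c : ι₂ → T) (c' : ι₃ → T) (m : κ → T)
    (hα : ∀ σ, ∏ r, b (σ r) = ∑ l, φ (α σ l) * m l)
    (hβ : ∀ i i', c i * c' i' = ∑ l, φ (β i i' l) * m l) :
    ∑ l, eval₂ φ t (powSystem n α β u₀ U f₀ G v₀ V l) * m l =
      (∑ i, eval₂ φ t (affineForm u₀ U i) * b i) ^ n -
        (∑ i, eval₂ φ t (affineForm f₀ G i) * c i) *
          (∑ i, eval₂ φ t (affineForm v₀ V i) * c' i) := by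
  classical
  simp only [powSystem, eval₂_sub, eval₂_sum, eval₂_mul, eval₂_C, eval₂_prod, sub_mul,
    Finset.sum_mul, Finset.sum_sub_distrib]
  congr 1
  · rw [Fintype.sum_pow, Finset.sum_comm]
    refine Finset.sum_congr rfl fun σ _ => ?_
    rw [Finset.prod_mul_distrib, hα, Finset.mul_sum]
    exact Finset.sum_congr rfl fun l _ => by ring
  · rw [Finset.sum_comm]
    refine Finset.sum_congr rfl fun i _ => ?_
    rw [Finset.sum_comm, Finset.mul_sum]
    refine Finset.sum_congr rfl fun i' _ => ?_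
    rw [mul_mul_mul_comm, hβ, Finset.mul_sum]
    exact Finset.sum_congr rfl fun l _ => by ring

omit [Fintype ι₁] [Fintype ι₂] [Fintype ι₃] in
/-- Evaluation at infinitesimal arguments. -/
theorem snd_eval₂_inl {L : Type*} [CommRing L] (φ : A →+* L) (s : κ → L) (p : MvPolynomial κ A) :
    TrivSqZeroExt.fst (eval₂ ((TrivSqZeroExt.inlHom L L).comp φ)
      (fun j => (TrivSqZeroExt.inr (s j) : TrivSqZeroExt L L)) p) = φ (eval 0 p) ∧
    TrivSqZeroExt.snd (eval₂ ((TrivSqZeroExt.inlHom L L).comp φ)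
      (fun j => (TrivSqZeroExt.inr (s j) : TrivSqZeroExt L L)) p) =
      ∑ j, s j * φ (eval 0 (pderiv j p)) := by
  classical
  induction p using MvPolynomial.induction_on with
  | C a => simp
  | add p q hp hq =>
    simp only [eval₂_add, TrivSqZeroExt.fst_add, TrivSqZeroExt.snd_add, map_add, mul_add,
      Finset.sum_add_distrib, hp.1, hp.2, hq.1, hq.2, and_self]
  | mul_X p i hp =>
    simp only [eval₂_mul, eval₂_X, TrivSqZeroExt.fst_mul, TrivSqZeroExt.snd_mul, hp.1,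
      TrivSqZeroExt.fst_inr, TrivSqZeroExt.snd_inr, mul_zero, map_mul, eval_X, Pi.zero_apply,
      map_zero, smul_eq_mul, MulOpposite.op_zero, zero_smul, add_zero, true_and]
    rw [Finset.sum_eq_single i]
    · simp [mul_comm]
    · intro j _ hj
      simp [pderiv_X, hj.symm]
    · simp

/-- The linearisation at the origin. -/
theorem linearisation_powSystem {L : Type*} [CommRing L] (φ : A →+* L) (s : κ → L) (n : ℕ)
    (α : (Fin n → ι₁) → κ → A) (β : ι₂ → ι₃ → κ → A)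
    (u₀ : ι₁ → A) (U : ι₁ → κ → A) (f₀ : ι₂ → A) (G : ι₂ → κ → A)
    (v₀ : ι₃ → A) (V : ι₃ → κ → A) (b : ι₁ → L) (c : ι₂ → L) (c' : ι₃ → L) (m : κ → L)
    (hα : ∀ σ, ∏ r, b (σ r) = ∑ l, φ (α σ l) * m l)
    (hβ : ∀ i i', c i * c' i' = ∑ l, φ (β i i' l) * m l) :
    ∑ l, (∑ j, s j * φ (eval 0 (pderiv j (powSystem n α β u₀ U f₀ G v₀ V l)))) * m l =
      n * (∑ i, φ (u₀ i) * b i) ^ (n - 1) * (∑ i, (∑ j, φ (U i j) * s j) * b i) -
        ((∑ i, φ (f₀ i) * c i) * (∑ i, (∑ j, φ (V i j) * s j) * c' i) +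
          (∑ i, (∑ j, φ (G i j) * s j) * c i) * (∑ i, φ (v₀ i) * c' i)) := by
  classical
  let ι : L →+* TrivSqZeroExt L L := TrivSqZeroExt.inlHom L L
  have h := congrArg TrivSqZeroExt.snd
    (sum_eval₂_powSystem (ι.comp φ) (fun j => (TrivSqZeroExt.inr (s j) : TrivSqZeroExt L L)) n α β
      u₀ U f₀ G v₀ V (fun i => ι (b i)) (fun i => ι (c i)) (fun i => ι (c' i)) (fun l => ι (m l))
      (fun σ => by rw [← map_prod, hα, map_sum]; simp [map_mul, ι])
      (fun i i' => by rw [← map_mul, hβ, map_sum]; simp [map_mul, ι]))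
  simp only [TrivSqZeroExt.snd_sub, TrivSqZeroExt.snd_sum, TrivSqZeroExt.snd_pow,
    TrivSqZeroExt.fst_sum, TrivSqZeroExt.snd_mul, TrivSqZeroExt.fst_mul, eval₂_affineForm,
    TrivSqZeroExt.fst_add, TrivSqZeroExt.snd_add, RingHom.comp_apply, ι,
    TrivSqZeroExt.inlHom_apply, TrivSqZeroExt.fst_inl, TrivSqZeroExt.snd_inl,
    TrivSqZeroExt.fst_inr, TrivSqZeroExt.snd_inr, mul_zero, zero_add, add_zero, smul_eq_mul,
    smul_zero, MulOpposite.smul_eq_mul_unop, MulOpposite.unop_op, Finset.sum_const_zero] at h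
  refine (Finset.sum_congr rfl fun l _ => ?_).trans (h.trans ?_)
  · have hl := (snd_eval₂_inl φ s (powSystem n α β u₀ U f₀ G v₀ V l)).2
    rw [hl]
  · simp only [Nat.pred_eq_sub_one, nsmul_eq_mul]
    ring

end FLTA.PlaceRed

end
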