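import Fermat.Agent.PlaceRed.DeuringRR
import Fermat.Agent.Curves.BasicOrd

/-!
# Smoothness of `u ^ n = f v` and effective representatives

If `div f = n D₀ - n d ∞`, `div v = n D₁ - n d' ∞` and `div u = D₀ + D₁ - e ∞` with disjoint
`D₀`, `D₁` of large degree avoiding `∞`, then the linearisation of `u ^ n = f v` is onto
`L(n e ∞)`.
-/

set_option autoImplicit false
set_option linter.style.haveILetI false

noncomputable section

open AlgebraicCurve

namespace FLTA.PlaceRed.RRCurve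

variable {K F : Type*} [Field K] [Field F] [Algebra K F] {g : ℕ}

/-- Exact orders at finitely many places at once. -/
theorem exists_ord_eq_neg_finset [Infinite K] (h : RRCurve K F g) {D : Divisor K F}
    (hD : 2 * (g : ℤ) ≤ Divisor.degree D) (s : Finset (Place K F)) :
    ∃ f : F, f ≠ 0 ∧ f ∈ riemannRochSpace D ∧ ∀ P ∈ s, P.ord f = -D P := by
  classical
  obtain ⟨P₀⟩ := h.nonempty
  let s' := insert P₀ s
  have key : ∀ P : s', (riemannRochSpace (D - Finsupp.single (P : Place K F) 1)).comap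
      (riemannRochSpace D).subtype ≠ ⊤ := by
    intro P htop
    obtain ⟨f, hf, hfD, hord⟩ := h.exists_ord_eq_neg hD (P : Place K F)
    have hm := (mem_iff hf).mp
      (Submodule.eq_top_iff'.mp htop ⟨f, hfD⟩ : f ∈ riemannRochSpace _) P
    simp only [Finsupp.sub_apply, Finsupp.single_eq_same] at hm
    omega
  obtain ⟨⟨f, hfD⟩, hf⟩ := Submodule.exists_forall_notMem_of_forall_ne_top _ key
  have hf' : ∀ P ∈ s', f ∉ riemannRochSpace (D - Finsupp.single P 1) := fun P hP hm =>
    hf ⟨P, hP⟩ hm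
  have hf0 : f ≠ 0 := fun h0 => hf' P₀ (Finset.mem_insert_self _ _) (h0 ▸ Submodule.zero_mem _)
  refine ⟨f, hf0, hfD, fun P hP => ?_⟩
  by_contra hne
  refine hf' P (Finset.mem_insert_of_mem hP) ((mem_iff hf0).mpr fun Q => ?_)
  have hQ := (mem_iff hf0).mp hfD Q
  rcases eq_or_ne Q P with rfl | hQP
  · simp only [Finsupp.sub_apply, Finsupp.single_eq_same]
    omega
  · simpa [Finsupp.single_eq_of_ne hQP] using hQ

/-- An effective divisor equivalent to `B`, avoiding finitely many places. -/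
theorem exists_effective_avoiding [Infinite K] (h : RRCurve K F g) {B : Divisor K F}
    (hB : 2 * (g : ℤ) ≤ Divisor.degree B) (s : Finset (Place K F)) :
    ∃ (f : F) (D : Divisor K F), f ≠ 0 ∧ 0 ≤ D ∧ D = h.divisorOf f + B ∧
      Divisor.degree D = Divisor.degree B ∧ ∀ P ∈ s, D P = 0 := by
  obtain ⟨f, hf, hfB, hord⟩ := h.exists_ord_eq_neg_finset hB s
  refine ⟨f, _, hf, Finsupp.le_def.mpr fun P => ?_, rfl,
    by rw [map_add, h.degree_divisorOf, zero_add], fun P hP => ?_⟩
  · have := (mem_iff hf).mp hfB P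
    rw [Finsupp.add_apply, divisorOf_apply, Finsupp.zero_apply]
    omega
  · rw [Finsupp.add_apply, divisorOf_apply, hord P hP, neg_add_cancel]

theorem divisorOf_mul (h : RRCurve K F g) {f f' : F} (hf : f ≠ 0) (hf' : f' ≠ 0) :
    h.divisorOf (f * f') = h.divisorOf f + h.divisorOf f' :=
  Finsupp.ext fun P => by simp only [Finsupp.add_apply, divisorOf_apply, P.ord_mul hf hf']

theorem mul_mem_space_of_ord {f f' : F} {B E : Divisor K F} (hf : f ≠ 0)
    (hB : ∀ P : Place K F, -B P ≤ P.ord f) (hf' : f' ∈ riemannRochSpace E) :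
    f * f' ∈ riemannRochSpace (B + E) :=
  mul_mem_space ((mem_iff hf).mpr hB) hf'

variable {n e d : ℕ} {Q : Place K F}

/-- One half of a relation in the kernel of the linearisation. -/
theorem div_mem_space_of_rel (h : RRCurve K F g) (hn : 1 ≤ n) {f v u a b t : F}
    {D₀ D₁ : Divisor K F} (hD₀ : 0 ≤ D₀) (hD₁ : 0 ≤ D₁) (hdisj : ∀ P, D₀ P = 0 ∨ D₁ P = 0)
    (hf : f ≠ 0) (hfd : h.divisorOf f = n • D₀ - Finsupp.single Q ((n : ℤ) * d))
    (hv : v ≠ 0) (hvd : h.divisorOf v = n • D₁ - Finsupp.single Q ((n : ℤ) * ((e : ℤ) - d)))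
    (hu : u ≠ 0) (hud : h.divisorOf u = D₀ + D₁ - Finsupp.single Q (e : ℤ))
    (hQ : D₀ Q = 0)
    (ha : a ∈ riemannRochSpace (Finsupp.single Q ((n : ℤ) * ((e : ℤ) - d))))
    (hb : b ∈ riemannRochSpace (Finsupp.single Q ((n : ℤ) * d)))
    (ht : t ∈ riemannRochSpace (Finsupp.single Q (e : ℤ)))
    (hrel : u ^ (n - 1) * t + f * a + v * b = 0) :
    b / f ∈ riemannRochSpace D₀ := by
  classical
  set B : Divisor K F := Finsupp.single Q ((n : ℤ) * e) - (n - 1) • D₀ with hB
  have hfB : f * a ∈ riemannRochSpace B := by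
    refine space_mono (Finsupp.le_def.mpr fun P => ?_) (mul_mem_space_of_ord (B := -h.divisorOf f)
      hf (fun P => by simp [divisorOf_apply]) ha)
    rw [hfd, hB]
    have h0 : 0 ≤ D₀ P := Finsupp.le_def.mp hD₀ P
    simp only [Finsupp.add_apply, Finsupp.neg_apply, Finsupp.sub_apply, Finsupp.smul_apply,
      nsmul_eq_mul, Nat.cast_sub hn, Nat.cast_one]
    rcases eq_or_ne P Q with rfl | hPQ
    · simp only [Finsupp.single_eq_same]
      nlinarith
    · simp only [Finsupp.single_eq_of_ne hPQ]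
      nlinarith
  have htB : u ^ (n - 1) * t ∈ riemannRochSpace B := by
    refine space_mono (Finsupp.le_def.mpr fun P => ?_) (mul_mem_space_of_ord
      (B := -((n - 1) • h.divisorOf u)) (pow_ne_zero _ hu)
      (fun P => by simp [divisorOf_apply, FLTA.Curves.ord_pow]) ht)
    rw [hud, hB]
    have h1 : 0 ≤ D₁ P := Finsupp.le_def.mp hD₁ P
    have hn' : (1 : ℤ) ≤ n := by exact_mod_cast hn
    simp only [Finsupp.add_apply, Finsupp.neg_apply, Finsupp.sub_apply, Finsupp.smul_apply,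
      nsmul_eq_mul, Nat.cast_sub hn, Nat.cast_one]
    rcases eq_or_ne P Q with rfl | hPQ
    · simp only [Finsupp.single_eq_same]
      nlinarith
    · simp only [Finsupp.single_eq_of_ne hPQ]
      nlinarith
  have hvb : v * b ∈ riemannRochSpace B := by
    have e1 : v * b = -(u ^ (n - 1) * t + f * a) := by linear_combination hrel
    rw [e1]
    exact Submodule.neg_mem _ (Submodule.add_mem _ htB hfB)
  rcases eq_or_ne b 0 with rfl | hb0
  · rw [zero_div]
    exact Submodule.zero_mem _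
  refine (mem_iff (div_ne_zero hb0 hf)).mpr fun P => ?_
  have h1 := (mem_iff hb0).mp hb P
  have h2 := (mem_iff (mul_ne_zero hv hb0)).mp hvb P
  have h0 : 0 ≤ D₀ P := Finsupp.le_def.mp hD₀ P
  rw [P.ord_mul hv hb0, ← h.divisorOf_apply v, hvd, hB] at h2
  rw [div_eq_mul_inv, P.ord_mul hb0 (inv_ne_zero hf), P.ord_inv, ← h.divisorOf_apply f, hfd]
  simp only [Finsupp.sub_apply, Finsupp.smul_apply, nsmul_eq_mul, Nat.cast_sub hn,
    Nat.cast_one] at h2 ⊢
  rcases eq_or_ne P Q with rfl | hPQ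
  · simp only [Finsupp.single_eq_same] at h1 h2 ⊢
    rw [hQ] at h2 ⊢
    linarith
  · simp only [Finsupp.single_eq_of_ne hPQ] at h1 h2 ⊢
    rcases hdisj P with hP | hP
    · rw [hP] at h2 ⊢
      linarith
    · rw [hP] at h2
      linarith

/-- **Smoothness.** -/
theorem exists_linearisation_eq (h : RRCurve K F g) (hn : 1 ≤ n) {f v u : F}
    {D₀ D₁ : Divisor K F} (hD₀ : 0 ≤ D₀) (hD₁ : 0 ≤ D₁) (hdisj : ∀ P, D₀ P = 0 ∨ D₁ P = 0)
    (hQ₀ : D₀ Q = 0) (hQ₁ : D₁ Q = 0)
    (hdeg₀ : Divisor.degree D₀ = d) (hdeg₁ : Divisor.degree D₁ = (e : ℤ) - d)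
    (hd : 2 * g ≤ d) (hde : d + 2 * g ≤ e)
    (hf : f ≠ 0) (hfd : h.divisorOf f = n • D₀ - Finsupp.single Q ((n : ℤ) * d))
    (hv : v ≠ 0) (hvd : h.divisorOf v = n • D₁ - Finsupp.single Q ((n : ℤ) * ((e : ℤ) - d)))
    (hu : u ≠ 0) (hud : h.divisorOf u = D₀ + D₁ - Finsupp.single Q (e : ℤ))
    (heq : u ^ n = f * v)
    {x : F} (hx : x ∈ riemannRochSpace (Finsupp.single Q ((n : ℤ) * e))) :
    ∃ t ∈ riemannRochSpace (Finsupp.single Q (e : ℤ)),
      ∃ a ∈ riemannRochSpace (Finsupp.single Q ((n : ℤ) * ((e : ℤ) - d))),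
        ∃ b ∈ riemannRochSpace (Finsupp.single Q ((n : ℤ) * d)),
          u ^ (n - 1) * t + f * a + v * b = x := by
  classical
  set L := riemannRochSpace (Finsupp.single Q (e : ℤ))
  set La := riemannRochSpace (Finsupp.single Q ((n : ℤ) * ((e : ℤ) - d)))
  set Lb := riemannRochSpace (Finsupp.single Q ((n : ℤ) * d))
  set M := riemannRochSpace (Finsupp.single Q ((n : ℤ) * e))
  let Θ : (L × La × Lb) →ₗ[K] F :=
    ((LinearMap.mulLeft K (u ^ (n - 1))).comp L.subtype).coprod
      (((LinearMap.mulLeft K f).comp La.subtype).coprod ((LinearMap.mulLeft K v).comp Lb.subtype))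
  have hΘ : ∀ z : L × La × Lb,
      Θ z = u ^ (n - 1) * (z.1 : F) + f * (z.2.1 : F) + v * (z.2.2 : F) := fun z => by
    simp [Θ, add_assoc]
  have hn' : (1 : ℤ) ≤ n := by exact_mod_cast hn
  have hg1 : ∀ P, 0 ≤ D₁ P := fun P => Finsupp.le_def.mp hD₁ P
  have hg0 : ∀ P, 0 ≤ D₀ P := fun P => Finsupp.le_def.mp hD₀ P
  -- the image lies in `L(n e ∞)`
  have hrange : LinearMap.range Θ ≤ M := by
    rintro _ ⟨z, rfl⟩
    rw [hΘ]
    refine Submodule.add_mem _ (Submodule.add_mem _ ?_ ?_) ?_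
    · refine space_mono (Finsupp.le_def.mpr fun P => ?_) (mul_mem_space_of_ord
        (B := -((n - 1) • h.divisorOf u)) (pow_ne_zero _ hu)
        (fun P => by simp [divisorOf_apply, FLTA.Curves.ord_pow]) z.1.2)
      rw [hud]
      simp only [Finsupp.add_apply, Finsupp.neg_apply, Finsupp.sub_apply, Finsupp.smul_apply,
        nsmul_eq_mul, Nat.cast_sub hn, Nat.cast_one]
      rcases eq_or_ne P Q with rfl | hPQ
      · simp only [Finsupp.single_eq_same]; nlinarith [hg0 P, hg1 P]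
      · simp only [Finsupp.single_eq_of_ne hPQ]; nlinarith [hg0 P, hg1 P]
    · refine space_mono (Finsupp.le_def.mpr fun P => ?_) (mul_mem_space_of_ord
        (B := -h.divisorOf f) hf (fun P => by simp [divisorOf_apply]) z.2.1.2)
      rw [hfd]
      simp only [Finsupp.add_apply, Finsupp.neg_apply, Finsupp.sub_apply, Finsupp.smul_apply,
        nsmul_eq_mul]
      rcases eq_or_ne P Q with rfl | hPQ
      · simp only [Finsupp.single_eq_same]; nlinarith [hg0 P]
      · simp only [Finsupp.single_eq_of_ne hPQ]; nlinarith [hg0 P]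
    · refine space_mono (Finsupp.le_def.mpr fun P => ?_) (mul_mem_space_of_ord
        (B := -h.divisorOf v) hv (fun P => by simp [divisorOf_apply]) z.2.2.2)
      rw [hvd]
      simp only [Finsupp.add_apply, Finsupp.neg_apply, Finsupp.sub_apply, Finsupp.smul_apply,
        nsmul_eq_mul]
      rcases eq_or_ne P Q with rfl | hPQ
      · simp only [Finsupp.single_eq_same]; nlinarith [hg1 P]
      · simp only [Finsupp.single_eq_of_ne hPQ]; nlinarith [hg1 P]
  -- the kernel is small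
  haveI := h.finiteDimensional (Finsupp.single Q (e : ℤ))
  haveI := h.finiteDimensional (Finsupp.single Q ((n : ℤ) * ((e : ℤ) - d)))
  haveI := h.finiteDimensional (Finsupp.single Q ((n : ℤ) * d))
  haveI := h.finiteDimensional (Finsupp.single Q ((n : ℤ) * e))
  haveI := h.finiteDimensional D₀
  haveI := h.finiteDimensional D₁
  have hker : ∀ z ∈ LinearMap.ker Θ,
      (z.2.2 : F) / f ∈ riemannRochSpace D₀ ∧ (z.2.1 : F) / v ∈ riemannRochSpace D₁ := by
    intro z hz
    rw [LinearMap.mem_ker, hΘ] at hz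
    refine ⟨div_mem_space_of_rel h hn hD₀ hD₁ hdisj hf hfd hv hvd hu hud hQ₀ z.2.1.2 z.2.2.2 z.1.2
      hz, ?_⟩
    obtain ⟨d', hd'⟩ : ∃ d' : ℕ, (d' : ℤ) = (e : ℤ) - d := ⟨e - d, by omega⟩
    have hed : (e : ℤ) - (d' : ℤ) = d := by omega
    exact div_mem_space_of_rel (e := e) (d := d') (a := (z.2.2 : F)) (b := (z.2.1 : F))
      (t := (z.1 : F)) h hn hD₁ hD₀ (fun P => (hdisj P).symm) hv (by rw [hd', hvd])
      hf (by rw [hed, hfd]) hu (by rw [hud, add_comm D₀]) hQ₁
      (by rw [hed]; exact z.2.2.2) (by rw [hd']; exact z.2.1.2) z.1.2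
      (by linear_combination hz)
  let Ψ : LinearMap.ker Θ →ₗ[K] riemannRochSpace D₀ × riemannRochSpace D₁ :=
    { toFun := fun z => (⟨_, (hker z.1 z.2).1⟩, ⟨_, (hker z.1 z.2).2⟩)
      map_add' := fun x y => by
        refine Prod.ext (Subtype.ext ?_) (Subtype.ext ?_) <;> simp [add_div]
      map_smul' := fun c x => by
        refine Prod.ext (Subtype.ext ?_) (Subtype.ext ?_) <;> simp [smul_div_assoc] }
  have hΨ : Function.Injective Ψ := by
    rw [injective_iff_map_eq_zero]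
    intro z hz
    have hz2 : (z.1.2.2 : F) = 0 := (div_eq_zero_iff.mp
      (congrArg (fun w => (w.1 : F)) hz)).resolve_right hf
    have hz1 : (z.1.2.1 : F) = 0 := (div_eq_zero_iff.mp
      (congrArg (fun w => (w.2 : F)) hz)).resolve_right hv
    have hz0 := z.2
    rw [LinearMap.mem_ker, hΘ, hz1, hz2, mul_zero, mul_zero, add_zero, add_zero] at hz0
    exact Subtype.ext (Prod.ext
      (Subtype.ext ((mul_eq_zero.mp hz0).resolve_left (pow_ne_zero _ hu)))
      (Prod.ext (Subtype.ext hz1) (Subtype.ext hz2)))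
  have hk := LinearMap.finrank_le_finrank_of_injective hΨ
  rw [Module.finrank_prod] at hk
  have hdim := Θ.finrank_range_add_finrank_ker
  rw [Module.finrank_prod, Module.finrank_prod] at hdim
  have hg : (0 : ℤ) ≤ g := Int.natCast_nonneg g
  have hdZ : 2 * (g : ℤ) ≤ d := by exact_mod_cast hd
  have hdeZ : (d : ℤ) + 2 * g ≤ e := by exact_mod_cast hde
  have eL := h.finrank_eq (Finsupp.single Q (e : ℤ)) (by rw [h.degree_single_eq]; omega)
  have ea := h.finrank_eq (Finsupp.single Q ((n : ℤ) * ((e : ℤ) - d)))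
    (by rw [h.degree_single_eq]; nlinarith)
  have eb := h.finrank_eq (Finsupp.single Q ((n : ℤ) * d)) (by rw [h.degree_single_eq]; nlinarith)
  have eM := h.finrank_eq (Finsupp.single Q ((n : ℤ) * e)) (by rw [h.degree_single_eq]; nlinarith)
  have e0 := h.finrank_eq D₀ (by omega)
  have e1 := h.finrank_eq D₁ (by omega)
  rw [h.degree_single_eq] at eL ea eb eM
  rw [hdeg₀] at e0
  rw [hdeg₁] at e1
  have eL' : (Module.finrank K L : ℤ) = (e : ℤ) + 1 - g := eL
  have ea' : (Module.finrank K La : ℤ) = (n : ℤ) * e - (n : ℤ) * d + 1 - g := by rw [ea, mul_sub]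
  have eb' : (Module.finrank K Lb : ℤ) = (n : ℤ) * d + 1 - g := eb
  have eM' : (Module.finrank K M : ℤ) = (n : ℤ) * e + 1 - g := eM
  have hle : Module.finrank K M ≤ Module.finrank K (LinearMap.range Θ) := by omega
  have hEq := Submodule.eq_of_le_of_finrank_le hrange hle
  obtain ⟨z, hz⟩ := (hEq ▸ hx : x ∈ LinearMap.range Θ)
  exact ⟨_, z.1.2, _, z.2.1.2, _, z.2.2.2, (hΘ z).symm.trans hz⟩

end FLTA.PlaceRed.RRCurve

end
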