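import Fermat.Agent.PlaceRed.Deuring
import Fermat.Agent.PlaceRed.TorsionLiftPoly
import Fermat.Agent.PlaceRed.TorsionLiftTangent
import Fermat.Agent.LT2.MazurHensel

/-!
# Torsion classes lift along a constant reduction

Over a valuation ring of an algebraically closed field, with both function fields satisfying
Riemann-Roch with the same genus, every class killed by an `n` invertible in the residue field is
the reduction of a class killed by `n`.
-/

set_option autoImplicit false
set_option linter.style.haveILetI false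

noncomputable section

open AlgebraicCurve

namespace FLTA.PlaceRed

theorem prod_mem_space {K F : Type*} [Field K] [Field F] [Algebra K F] {D : Divisor K F} {n : ℕ}
    {f : Fin n → F} (hf : ∀ i, f i ∈ riemannRochSpace D) :
    ∏ i, f i ∈ riemannRochSpace (n • D) := by
  induction n with
  | zero => simpa using RRCurve.pow_mem_space (D := D) (f := (0 : F)) (Submodule.zero_mem _) 0
  | succ n ih =>
    rw [Fin.prod_univ_succ, succ_nsmul']
    exact RRCurve.mul_mem_space (hf 0) (ih fun i => hf _)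

variable {K : Type*} [Field K] [IsAlgClosed K] {A : ValuationSubring K}
  {k : Type*} [Field k] [IsAlgClosed k] {π : A →+* k}
  {F : Type*} [Field F] [Algebra K F] {F' : Type*} [Field F'] [Algebra k F']

namespace ConstRed

variable (R : ConstRed A π F F') {g : ℕ}

omit [IsAlgClosed K] [IsAlgClosed k] in
/-- A lattice basis of `L(m P)` and its reduction. -/
theorem exists_sectionBasis (hF : RRCurve K F g) (hk : RRCurve k F' g)
    {r : Place K F → Place k F'} (hr : R.IsPlaceMap r) (P : Place K F) {m : ℤ}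
    (hm : 2 * (g : ℤ) - 1 ≤ m) :
    ∃ (N : ℕ) (b : Fin N → R.O), LinearIndependent k (fun i => R.red (b i)) ∧
      Submodule.span K (Set.range fun i => (b i : F)) = riemannRochSpace (Finsupp.single P m) ∧
      Submodule.span k (Set.range fun i => R.red (b i)) =
        riemannRochSpace (Finsupp.single (r P) m) := by
  obtain ⟨N, b, hspan, hb⟩ := R.lattice _ (hF.finiteDimensional (Finsupp.single P m))
  refine ⟨N, b, hb, hspan, ?_⟩
  rw [← R.redSpace_eq_span hspan hb,
    R.redSpace_eq_of_isPlaceMap hF hk hr (by rwa [hF.degree_single_eq]), Finsupp.mapDomain_single]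

omit [IsAlgClosed K] [IsAlgClosed k] in
/-- An integral element of the span has integral coordinates. -/
theorem exists_integral_coords {N : ℕ} {b : Fin N → R.O}
    (hb : LinearIndependent k fun i => R.red (b i)) {x : R.O}
    (hx : (x : F) ∈ Submodule.span K (Set.range fun i => (b i : F))) :
    ∃ a : Fin N → A, x = ∑ i, R.const (a i) * b i := by
  rw [Submodule.mem_span_range_iff_exists_fun] at hx
  obtain ⟨a, ha⟩ := hx
  have haA := R.coeff_mem_of_linearIndependent hb a (ha ▸ x.2)
  exact ⟨fun i => ⟨a i, haA i⟩, Subtype.ext (by rw [coe_sum_const_mul]; exact ha.symm)⟩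

/-- The constants as a ring homomorphism. -/
def constHom : A →+* R.O :=
  RingHom.codRestrict ((algebraMap K F).comp A.subtype) R.O.toSubring R.algebraMap_mem

omit [IsAlgClosed K] [IsAlgClosed k] in
theorem constHom_apply (a : A) : R.constHom a = R.const a := rfl

omit [IsAlgClosed k] in
/-- A lift of a solution of `u ^ n = f v` with surjective linearisation. -/
theorem exists_lift_pow_eq_mul (hF : RRCurve K F g) (hk : RRCurve k F' g)
    {r : Place K F → Place k F'} (hr : R.IsPlaceMap r) (P : Place K F) {n : ℕ}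
    (hn : (n : k) ≠ 0) {e e₂ e₃ : ℕ} (he : 2 * g ≤ e) (he₂ : 2 * g ≤ e₂) (he₃ : 2 * g ≤ e₃)
    (hsum : e₂ + e₃ = n * e) {u f v : F'}
    (hu : u ∈ riemannRochSpace (Finsupp.single (r P) (e : ℤ)))
    (hf : f ∈ riemannRochSpace (Finsupp.single (r P) (e₂ : ℤ)))
    (hv : v ∈ riemannRochSpace (Finsupp.single (r P) (e₃ : ℤ)))
    (heq : u ^ n = f * v)
    (hsurj : ∀ x ∈ riemannRochSpace (Finsupp.single (r P) ((n * e : ℕ) : ℤ)),
      ∃ t ∈ riemannRochSpace (Finsupp.single (r P) (e : ℤ)),
        ∃ a ∈ riemannRochSpace (Finsupp.single (r P) (e₃ : ℤ)),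
          ∃ b ∈ riemannRochSpace (Finsupp.single (r P) (e₂ : ℤ)),
            u ^ (n - 1) * t + f * a + v * b = x) :
    ∃ U G V : R.O, (U : F) ∈ riemannRochSpace (Finsupp.single P (e : ℤ)) ∧
      (G : F) ∈ riemannRochSpace (Finsupp.single P (e₂ : ℤ)) ∧
      (V : F) ∈ riemannRochSpace (Finsupp.single P (e₃ : ℤ)) ∧
      R.red U = u ∧ R.red G = f ∧ R.red V = v ∧ (U : F) ^ n = (G : F) * V := by
  classical
  have hne : 2 * g ≤ n * e := by omega
  obtain ⟨N₁, b, -, hbs, hbr⟩ := R.exists_sectionBasis hF hk hr P (m := (e : ℤ)) (by omega)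
  obtain ⟨N₂, c, -, hcs, hcr⟩ := R.exists_sectionBasis hF hk hr P (m := (e₂ : ℤ)) (by omega)
  obtain ⟨N₃, c', -, hcs', hcr'⟩ := R.exists_sectionBasis hF hk hr P (m := (e₃ : ℤ)) (by omega)
  obtain ⟨M, m, hm, hms, hmr⟩ := R.exists_sectionBasis hF hk hr P
    (m := ((n * e : ℕ) : ℤ)) (by omega)
  have hbm : ∀ i, (b i : F) ∈ riemannRochSpace (Finsupp.single P (e : ℤ)) := fun i =>
    hbs ▸ Submodule.subset_span ⟨i, rfl⟩
  -- structure constants
  have hα' : ∀ σ : Fin n → Fin N₁, ∃ a : Fin M → A,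
      ∏ l, b (σ l) = ∑ j, R.const (a j) * m j := fun σ => by
    refine R.exists_integral_coords hm ?_
    rw [hms, SubmonoidClass.coe_finsetProd]
    have h := prod_mem_space (D := Finsupp.single P (e : ℤ)) fun l => hbm (σ l)
    rwa [Finsupp.smul_single, nsmul_eq_mul, ← Nat.cast_mul] at h
  have hβ' : ∀ i i', ∃ a : Fin M → A, c i * c' i' = ∑ j, R.const (a j) * m j := fun i i' => by
    refine R.exists_integral_coords hm ?_
    rw [hms, MulMemClass.coe_mul, ← hsum, Nat.cast_add, Finsupp.single_add]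
    exact RRCurve.mul_mem_space (hcs ▸ Submodule.subset_span ⟨i, rfl⟩)
      (hcs' ▸ Submodule.subset_span ⟨i', rfl⟩)
  choose α hα using hα'
  choose β hβ using hβ'
  -- the point and the directions
  have hlift : ∀ {N : ℕ} (b : Fin N → R.O) {x : F'},
      x ∈ Submodule.span k (Set.range fun i => R.red (b i)) →
      ∃ a : Fin N → A, ∑ i, algebraMap k F' (π (a i)) * R.red (b i) = x := by
    intro N b x hx
    rw [Submodule.mem_span_range_iff_exists_fun] at hx
    obtain ⟨a, ha⟩ := hx
    choose a' ha' using fun i => R.π_surjective (a i)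
    exact ⟨a', by rw [← ha]; exact Finset.sum_congr rfl fun i _ => by rw [ha', Algebra.smul_def]⟩
  obtain ⟨u₀, hu₀⟩ := hlift b (hbr ▸ hu)
  obtain ⟨f₀, hf₀⟩ := hlift c (hcr ▸ hf)
  obtain ⟨v₀, hv₀⟩ := hlift c' (hcr' ▸ hv)
  have hn' : (n : F') ≠ 0 := by
    rw [← map_natCast (algebraMap k F')]
    exact (map_ne_zero _).mpr hn
  have hdir : ∀ j, ∃ (U : Fin N₁ → A) (G : Fin N₂ → A) (V : Fin N₃ → A),
      (n : F') * u ^ (n - 1) * (∑ i, algebraMap k F' (π (U i)) * R.red (b i)) -
        (f * (∑ i, algebraMap k F' (π (V i)) * R.red (c' i)) +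
          (∑ i, algebraMap k F' (π (G i)) * R.red (c i)) * v) = R.red (m j) := fun j => by
    obtain ⟨t, ht, a, ha, b', hb', h⟩ :=
      hsurj (R.red (m j)) (hmr ▸ Submodule.subset_span ⟨j, rfl⟩)
    have htn : (algebraMap k F' (n : k)⁻¹) * t ∈
        riemannRochSpace (Finsupp.single (r P) (e : ℤ)) := by
      rw [← Algebra.smul_def]
      exact Submodule.smul_mem _ _ ht
    obtain ⟨U, hU⟩ := hlift b (hbr ▸ htn)
    obtain ⟨G, hG⟩ := hlift c (hcr ▸ Submodule.neg_mem _ hb')
    obtain ⟨V, hV⟩ := hlift c' (hcr' ▸ Submodule.neg_mem _ ha)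
    refine ⟨U, G, V, ?_⟩
    rw [hU, hG, hV, map_inv₀, map_natCast, ← h]
    field_simp
    ring
  choose U G V hdir using hdir
  set S := powSystem n α β u₀ (fun i j => U j i) f₀ (fun i j => G j i) v₀ (fun i j => V j i)
  let φ' : A →+* F' := (algebraMap k F').comp π
  have hφ' : ∀ a, φ' a = R.red (R.const a) := fun a => (R.red_const a).symm
  have hαk : ∀ σ, ∏ l, R.red (b (σ l)) = ∑ j, φ' (α σ j) * R.red (m j) := fun σ => by
    rw [← map_prod, hα, map_sum]
    simp [hφ']
  have hβk : ∀ i i', R.red (c i) * R.red (c' i') = ∑ j, φ' (β i i' j) * R.red (m j) :=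
    fun i i' => by
      rw [← map_mul, hβ, map_sum]
      simp [hφ']
  -- the residual point is a solution
  have heval : ∀ p : MvPolynomial (Fin M) A,
      MvPolynomial.eval₂ π (0 : Fin M → k) p = π (MvPolynomial.eval 0 p) := fun p => by
    rw [← MvPolynomial.coe_eval₂Hom, ← RingHom.comp_apply π]
    congr 1
    refine MvPolynomial.ringHom_ext (fun a => by simp) fun i => by simp
  have h0 : ∀ l, MvPolynomial.eval₂ π (0 : Fin M → k) (S l) = 0 := by
    have h := sum_eval₂_powSystem φ' (0 : Fin M → F') n α β u₀ (fun i j => U j i) f₀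
      (fun i j => G j i) v₀ (fun i j => V j i) (fun i => R.red (b i)) (fun i => R.red (c i))
      (fun i => R.red (c' i)) (fun l => R.red (m l)) hαk hβk
    simp only [eval₂_affineForm, Pi.zero_apply, mul_zero, Finset.sum_const_zero, add_zero] at h
    rw [show (∑ i, φ' (u₀ i) * R.red (b i)) = u from hu₀,
      show (∑ i, φ' (f₀ i) * R.red (c i)) = f from hf₀,
      show (∑ i, φ' (v₀ i) * R.red (c' i)) = v from hv₀, heq, sub_self] at h
    have e' : ∀ p : MvPolynomial (Fin M) A, MvPolynomial.eval₂ φ' (0 : Fin M → F') p =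
        algebraMap k F' (MvPolynomial.eval₂ π (0 : Fin M → k) p) := fun p => by
      rw [MvPolynomial.eval₂_comp_left (algebraMap k F') π]
      congr 1
      funext i
      simp
    refine Fintype.linearIndependent_iff.mp hm _ ?_
    refine Eq.trans (Finset.sum_congr rfl fun l _ => ?_) h
    rw [Algebra.smul_def]
    exact congrArg (· * R.red (m l)) (e' (S l)).symm
  -- the Jacobian is the identity
  have hJ : ∀ l j, π (MvPolynomial.eval 0 (MvPolynomial.pderiv j (S l))) =
      if l = j then 1 else 0 := by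
    intro l j
    have h := linearisation_powSystem φ' (Pi.single j 1) n α β u₀ (fun i j => U j i) f₀
      (fun i j => G j i) v₀ (fun i j => V j i) (fun i => R.red (b i)) (fun i => R.red (c i))
      (fun i => R.red (c' i)) (fun l => R.red (m l)) hαk hβk
    simp only [Pi.single_apply, ite_mul, mul_ite, one_mul, mul_one, zero_mul, mul_zero,
      Finset.sum_ite_eq', Finset.mem_univ, if_true] at h
    rw [show (∑ i, φ' (u₀ i) * R.red (b i)) = u from hu₀,
      show (∑ i, φ' (f₀ i) * R.red (c i)) = f from hf₀,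
      show (∑ i, φ' (v₀ i) * R.red (c' i)) = v from hv₀] at h
    have key := Fintype.linearIndependent_iff.mp hm
      (fun l => π (MvPolynomial.eval 0 (MvPolynomial.pderiv j (S l))) -
        if l = j then 1 else 0) ?_ l
    · exact sub_eq_zero.mp key
    simp only [sub_smul, Finset.sum_sub_distrib, ite_smul, one_smul, zero_smul,
      Finset.sum_ite_eq', Finset.mem_univ, if_true, sub_eq_zero]
    refine Eq.trans (Finset.sum_congr rfl fun l _ => ?_) (h.trans (hdir j))
    rw [Algebra.smul_def]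
    rfl
  obtain ⟨x, hx, hxπ⟩ := LT2.exists_zero_of_det_ne_zero R.π_surjective S (0 : Fin M → k) h0 (by
    rw [show (Matrix.of fun i j => MvPolynomial.eval₂ π (0 : Fin M → k)
        (MvPolynomial.pderiv j (S i))) = 1 from Matrix.ext fun i j => by
      rw [Matrix.of_apply, heval, hJ, Matrix.one_apply], Matrix.det_one]
    exact one_ne_zero)
  -- the solution
  have h := sum_eval₂_powSystem R.constHom (fun j => R.constHom (x j)) n α β u₀
    (fun i j => U j i) f₀ (fun i j => G j i) v₀ (fun i j => V j i) b c c' m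
    (fun σ => hα σ) (fun i i' => hβ i i')
  have hev : ∀ p : MvPolynomial (Fin M) A,
      MvPolynomial.eval₂ R.constHom (fun j => R.constHom (x j)) p =
        R.constHom (MvPolynomial.eval x p) := fun p => by
    induction p using MvPolynomial.induction_on with
    | C a => simp
    | add p q hp hq => simp [hp, hq]
    | mul_X p i hp => simp [hp]
  have hz : ∀ l, MvPolynomial.eval₂ R.constHom (fun j => R.constHom (x j)) (S l) = 0 := fun l => by
    rw [hev, hx, map_zero]
  rw [Finset.sum_eq_zero fun l _ => by rw [hz, zero_mul], eq_comm, sub_eq_zero] at h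
  have hmem : ∀ {N : ℕ} (b : Fin N → R.O) (w : Fin N → MvPolynomial (Fin M) A),
      ((∑ i, MvPolynomial.eval₂ R.constHom (fun j => R.constHom (x j)) (w i) * b i : R.O) : F) ∈
        Submodule.span K (Set.range fun i => (b i : F)) := fun b w => by
    rw [AddSubmonoidClass.coe_finsetSum]
    refine Submodule.sum_mem _ fun i _ => ?_
    rw [MulMemClass.coe_mul, hev, constHom_apply, coe_const, ← Algebra.smul_def]
    exact Submodule.smul_mem _ _ (Submodule.subset_span ⟨i, rfl⟩)
  have hred : ∀ {N : ℕ} (b : Fin N → R.O) (w₀ : Fin N → A) (W : Fin N → Fin M → A),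
      R.red (∑ i, MvPolynomial.eval₂ R.constHom (fun j => R.constHom (x j))
        (affineForm w₀ W i) * b i) = ∑ i, algebraMap k F' (π (w₀ i)) * R.red (b i) := by
    intro N b w₀ W
    simp [eval₂_affineForm, constHom_apply, red_const, hxπ]
  refine ⟨_, _, _, hbs ▸ hmem b (affineForm u₀ fun i j => U j i),
    hcs ▸ hmem c (affineForm f₀ fun i j => G j i), hcs' ▸ hmem c' (affineForm v₀ fun i j => V j i), (hred b u₀ _).trans hu₀,
    (hred c f₀ _).trans hf₀, (hred c' v₀ _).trans hv₀, ?_⟩
  exact congrArg Subtype.val h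

omit [IsAlgClosed K] [IsAlgClosed k] in
theorem mapDomain_divisor_of_red (hF : RRCurve K F g) (hk : RRCurve k F' g)
    {r : Place K F → Place k F'} (hr : R.IsPlaceMap r) {u : R.O} (hu : R.red u ≠ 0)
    (B : Divisor K F) :
    Finsupp.mapDomain r (hF.divisorOf (u : F) + B) =
      hk.divisorOf (R.red u) + Finsupp.mapDomain r B := by
  rw [Finsupp.mapDomain_add]
  congr 1
  exact Finsupp.ext fun Q => by
    rw [hr u hu _ (fun P => hF.divisorOf_apply _ P) Q, RRCurve.divisorOf_apply]

/-- **Torsion classes lift.** -/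
theorem exists_torsion_lift (hF : RRCurve K F g) (hk : RRCurve k F' g)
    {r : Place K F → Place k F'} (hr : R.IsPlaceMap r) {n : ℕ} (hn : (n : k) ≠ 0)
    {E : Divisor k F'} (hE : Divisor.degree E = 0) (hnE : Divisor.IsPrincipal (n • E)) :
    ∃ D : Divisor K F, Divisor.degree D = 0 ∧ Divisor.IsPrincipal (n • D) ∧
      Divisor.IsPrincipal (Finsupp.mapDomain r D - E) := by
  classical
  haveI : Infinite k := IsAlgClosed.instInfinite
  have hn1 : 1 ≤ n := Nat.pos_of_ne_zero fun h => hn (by rw [h, Nat.cast_zero])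
  obtain ⟨P⟩ := hF.nonempty
  set Q := r P with hQ
  set d := 2 * g with hd
  set e := 4 * g with he
  -- effective representatives
  obtain ⟨h₀, D₀, hh₀, hD₀, hD₀eq, hdeg₀, hav₀⟩ := hk.exists_effective_avoiding
    (B := E + Finsupp.single Q (d : ℤ)) (by rw [map_add, hE, hk.degree_single_eq]; omega) {Q}
  have hQ₀ : D₀ Q = 0 := hav₀ Q (Finset.mem_singleton_self Q)
  rw [map_add, hE, hk.degree_single_eq, zero_add] at hdeg₀
  obtain ⟨h₁, D₁, hh₁, hD₁, hD₁eq, hdeg₁, hav₁⟩ := hk.exists_effective_avoiding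
    (B := Finsupp.single Q (e : ℤ) - D₀)
    (by rw [map_sub, hk.degree_single_eq, hdeg₀]; omega) (insert Q D₀.support)
  have hQ₁ : D₁ Q = 0 := hav₁ Q (Finset.mem_insert_self _ _)
  rw [map_sub, hk.degree_single_eq, hdeg₀] at hdeg₁
  have hdisj : ∀ Q', D₀ Q' = 0 ∨ D₁ Q' = 0 := fun Q' =>
    (eq_or_ne (D₀ Q') 0).imp_right fun h =>
      hav₁ Q' (Finset.mem_insert_of_mem (Finsupp.mem_support_iff.mpr h))
  obtain ⟨y, hy, hyE⟩ := hnE
  have hyd : hk.divisorOf y = n • E := Finsupp.ext fun Q' => by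
    rw [RRCurve.divisorOf_apply]; exact (hyE Q').symm
  set f₀ := h₀ ^ n * y with hf₀def
  have hf₀ : f₀ ≠ 0 := mul_ne_zero (pow_ne_zero _ hh₀) hy
  have hfd : hk.divisorOf f₀ = n • D₀ - Finsupp.single Q ((n : ℤ) * d) := Finsupp.ext fun Q' => by
    rw [RRCurve.divisorOf_apply, hf₀def, Q'.ord_mul (pow_ne_zero _ hh₀) hy, FLTA.Curves.ord_pow,
      ← hk.divisorOf_apply y, hyd, hD₀eq, ← nsmul_eq_mul n (d : ℤ), ← Finsupp.smul_single]
    simp only [Finsupp.sub_apply, Finsupp.smul_apply, Finsupp.add_apply,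
      RRCurve.divisorOf_apply, nsmul_eq_mul]
    ring
  have hud : hk.divisorOf h₁ = D₀ + D₁ - Finsupp.single Q (e : ℤ) := by
    rw [hD₁eq]; abel
  set v₀ := h₁ ^ n * f₀⁻¹ with hv₀def
  have hv₀ : v₀ ≠ 0 := mul_ne_zero (pow_ne_zero _ hh₁) (inv_ne_zero hf₀)
  have hvd : hk.divisorOf v₀ = n • D₁ - Finsupp.single Q ((n : ℤ) * ((e : ℤ) - d)) :=
    Finsupp.ext fun Q' => by
      rw [RRCurve.divisorOf_apply, hv₀def,
        Q'.ord_mul (pow_ne_zero _ hh₁) (inv_ne_zero hf₀), FLTA.Curves.ord_pow, Q'.ord_inv,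
        ← hk.divisorOf_apply f₀, hfd, ← hk.divisorOf_apply h₁, hud, mul_sub, Finsupp.single_sub,
        ← nsmul_eq_mul n (e : ℤ), ← nsmul_eq_mul n (d : ℤ), ← Finsupp.smul_single,
        ← Finsupp.smul_single]
      simp only [Finsupp.sub_apply, Finsupp.smul_apply, Finsupp.add_apply, nsmul_eq_mul]
      ring
  have heq : h₁ ^ n = f₀ * v₀ := by rw [hv₀def]; field_simp
  -- membership
  have hmem : ∀ {y : F'} {D : Divisor k F'} (_ : y ≠ 0) (_ : 0 ≤ D) {m : ℤ},
      hk.divisorOf y = D - Finsupp.single Q m → y ∈ riemannRochSpace (Finsupp.single Q m) := by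
    intro y D hy hD m h
    refine (RRCurve.mem_iff hy).mpr fun Q' => ?_
    rw [← hk.divisorOf_apply y, h, Finsupp.sub_apply]
    have : 0 ≤ D Q' := Finsupp.le_def.mp hD Q'
    omega
  have c2 : ((n * d : ℕ) : ℤ) = (n : ℤ) * d := by push_cast; ring
  have c3 : ((n * (e - d) : ℕ) : ℤ) = (n : ℤ) * ((e : ℤ) - d) := by
    rw [Nat.cast_mul, Nat.cast_sub (by omega : d ≤ e)]
  have hnd : 2 * g ≤ n * d := by
    rw [← hd]; exact Nat.le_mul_of_pos_left d hn1
  have hned : 2 * g ≤ n * (e - d) := by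
    refine le_trans ?_ (Nat.le_mul_of_pos_left _ hn1); omega
  obtain ⟨U, G, V, hUm, hGm, hVm, hUr, hGr, hVr, hUGV⟩ :=
    R.exists_lift_pow_eq_mul hF hk hr P hn (e := e) (e₂ := n * d) (e₃ := n * (e - d))
      (u := h₁) (f := f₀) (v := v₀) (by omega) hnd hned
      (by rw [← Nat.mul_add, Nat.add_sub_cancel' (by omega : d ≤ e)])
      (hmem hh₁ (add_nonneg hD₀ hD₁) hud)
      (by rw [c2]; exact hmem hf₀ (nsmul_nonneg hD₀ n) hfd)
      (by rw [c3]; exact hmem hv₀ (nsmul_nonneg hD₁ n) hvd) heq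
      (fun x hx => by
        rw [Nat.cast_mul] at hx
        obtain ⟨t, ht, a, ha, b, hb, h⟩ := hk.exists_linearisation_eq hn1 hD₀ hD₁ hdisj hQ₀ hQ₁
          hdeg₀ hdeg₁ (le_refl _) (by omega) hf₀ hfd hv₀ hvd hh₁ hud heq hx
        exact ⟨t, ht, a, by rw [c3]; exact ha, b, by rw [c2]; exact hb, h⟩)
  -- the effective divisors upstairs
  have hU0 := R.coe_ne_zero (hUr.symm ▸ hh₁ : R.red U ≠ 0)
  have hG0 := R.coe_ne_zero (hGr.symm ▸ hf₀ : R.red G ≠ 0)
  have hV0 := R.coe_ne_zero (hVr.symm ▸ hv₀ : R.red V ≠ 0)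
  set Z := hF.divisorOf (G : F) + Finsupp.single P ((n * d : ℕ) : ℤ) with hZ
  set W := hF.divisorOf (V : F) + Finsupp.single P ((n * (e - d) : ℕ) : ℤ) with hW
  have hZ0 : ∀ P', 0 ≤ Z P' := fun P' => by
    have := (RRCurve.mem_iff hG0).mp hGm P'
    rw [hZ, Finsupp.add_apply, RRCurve.divisorOf_apply]; omega
  have hW0 : ∀ P', 0 ≤ W P' := fun P' => by
    have := (RRCurve.mem_iff hV0).mp hVm P'
    rw [hW, Finsupp.add_apply, RRCurve.divisorOf_apply]; omega
  have hZr : Finsupp.mapDomain r Z = n • D₀ := by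
    rw [hZ, R.mapDomain_divisor_of_red hF hk hr (hGr.symm ▸ hf₀), Finsupp.mapDomain_single, hGr,
      hfd, c2, sub_add_cancel]
  have hWr : Finsupp.mapDomain r W = n • D₁ := by
    rw [hW, R.mapDomain_divisor_of_red hF hk hr (hVr.symm ▸ hv₀), Finsupp.mapDomain_single, hVr,
      hvd, c3, sub_add_cancel]
  have hle : ∀ {D : Divisor K F}, (∀ P', 0 ≤ D P') → ∀ P',
      D P' ≤ Finsupp.mapDomain r D (r P') := by
    intro D hD P'
    have hs : Finsupp.single P' (D P') ≤ D := Finsupp.le_def.mpr fun P'' => by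
      rcases eq_or_ne P'' P' with rfl | hne
      · rw [Finsupp.single_eq_same]
      · rw [Finsupp.single_eq_of_ne hne]; exact hD P''
    have := Finsupp.le_def.mp (mapDomain_le_mapDomain r hs) (r P')
    rwa [Finsupp.mapDomain_single, Finsupp.single_eq_same] at this
  have hdivZ : ∀ P', (n : ℤ) ∣ Z P' := by
    intro P'
    rcases hdisj (r P') with h | h
    · have h1 := hle hZ0 P'
      rw [hZr, Finsupp.smul_apply, h, smul_zero] at h1
      rw [le_antisymm h1 (hZ0 P')]
      exact dvd_zero _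
    · have h1 := hle hW0 P'
      rw [hWr, Finsupp.smul_apply, h, smul_zero] at h1
      have hsum : Z P' + W P' = (n : ℤ) *
          (P'.ord (U : F) + Finsupp.single P (e : ℤ) P') := by
        rw [hZ, hW, Finsupp.add_apply, Finsupp.add_apply, RRCurve.divisorOf_apply,
          RRCurve.divisorOf_apply]
        have h2 := congrArg P'.ord hUGV
        rw [P'.ord_mul hG0 hV0, FLTA.Curves.ord_pow] at h2
        rcases eq_or_ne P' P with rfl | hne
        · simp only [Finsupp.single_eq_same, c2, c3]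
          linarith
        · simp only [Finsupp.single_eq_of_ne hne]
          linarith
      rw [le_antisymm h1 (hW0 P'), add_zero] at hsum
      exact ⟨_, hsum⟩
  set Dplus : Divisor K F := Z.mapRange (fun z => z / (n : ℤ)) (Int.zero_ediv _) with hDplus
  have hnDplus : n • Dplus = Z := Finsupp.ext fun P' => by
    rw [Finsupp.smul_apply, nsmul_eq_mul, hDplus, Finsupp.mapRange_apply,
      Int.mul_ediv_cancel' (hdivZ P')]
  have hnZ : (n : ℤ) ≠ 0 := by exact_mod_cast (by omega : n ≠ 0)
  refine ⟨Dplus - Finsupp.single P (d : ℤ), ?_, ⟨(G : F), hG0, fun P' => ?_⟩, ⟨h₀, hh₀, fun Q' => ?_⟩⟩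
  · have h1 := congrArg Divisor.degree hnDplus
    rw [map_nsmul, hZ, map_add, hF.degree_divisorOf, zero_add, hF.degree_single_eq, nsmul_eq_mul,
      c2] at h1
    rw [map_sub, hF.degree_single_eq, mul_left_cancel₀ hnZ h1, sub_self]
  · rw [smul_sub, hnDplus, Finsupp.smul_single, nsmul_eq_mul, hZ, c2, add_sub_cancel_right,
      RRCurve.divisorOf_apply]
  · have h1 : n • Finsupp.mapDomain r Dplus = n • D₀ := by
      rw [← hZr, ← hnDplus]
      exact (map_nsmul (Finsupp.mapDomain.addMonoidHom r) n Dplus).symm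
    have h2 : Finsupp.mapDomain r Dplus = D₀ := Finsupp.ext fun Q'' => by
      have := congrArg (fun D : Divisor k F' => D Q'') h1
      simp only [Finsupp.smul_apply, nsmul_eq_mul] at this
      exact mul_left_cancel₀ hnZ this
    rw [Finsupp.mapDomain_sub, h2, Finsupp.mapDomain_single, hD₀eq]
    simp only [Finsupp.sub_apply, Finsupp.add_apply, RRCurve.divisorOf_apply]
    rw [← hQ]
    ring

end ConstRed

end FLTA.PlaceRed

end
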