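import Fermat.Agent.PlaceRed.Interface
import Fermat.Agent.PlaceRed.TorsionLift

/-!
# Reduction of `J₀(N)` is onto on torsion prime to the residue characteristic
-/

set_option autoImplicit false
set_option synthInstance.maxHeartbeats 400000

noncomputable section

open AlgebraicCurve ModularCurve IsLocalRing

namespace FLTA.PlaceRed

local notation "Qb" => AlgebraicClosure ℚ

variable (N : ℕ) [NeZero N] {ℓ : ℕ} [Fact ℓ.Prime] (hℓN : ¬ ℓ ∣ N)
  {A : ValuationSubring (AlgebraicClosure ℚ)} (hA : A.LiesOverPrime ℓ)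

include hℓN hA in
/-- **Surjectivity of reduction on torsion**: a class of the reduced curve killed by an `n` prime
to `ℓ` is the reduction of a class killed by `n`. -/
theorem exists_torsion_lift_modL {n : ℕ} (hn : ¬ ℓ ∣ n)
    (D' : Divisor.degZero (K := ResidueField A) (F := modularFunctionFieldFullC (ResidueField A) N))
    (hD' : n • Pic0.mk D' = 0) :
    ∃ x : JZero N, n • x = 0 ∧ reductionModL A N x = Pic0.mk D' := by
  have hch := FLTA.Galois.charP_residueField (Fact.out : ℓ.Prime) hA
  have hac : IsAlgClosed (ResidueField A) := FLTA.Galois.isAlgClosed_residueField A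
  have hnk : (n : ResidueField A) ≠ 0 := by
    rwa [Ne, CharP.cast_eq_zero_iff (ResidueField A) ℓ]
  have hmk : n • Pic0.mk D' = Pic0.mk (n • D') := (map_nsmul (QuotientAddGroup.mk' _) n D').symm
  rw [hmk] at hD'
  have hp : Divisor.IsPrincipal (n • (D' : Divisor (ResidueField A) (modularFunctionFieldFullC (ResidueField A) N))) := by
    have h := (QuotientAddGroup.eq_zero_iff _).mp hD'
    exact h
  obtain ⟨D, hD, hnD, hred⟩ := (gaussRedModL N hℓN A hA).exists_torsion_lift (rrCurve_bar N)
    (rrCurve_fullC N hℓN A hA) (isPlaceMap_placeRed N hℓN A hA) hnk D'.2 hp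
  let D₀ : Divisor.degZero (K := Qb) (F := modularFunctionFieldBar N) := ⟨D, hD⟩
  refine ⟨Pic0.mk D₀, ?_, ?_⟩
  · refine (map_nsmul (QuotientAddGroup.mk' _) n D₀).symm.trans ?_
    exact (QuotientAddGroup.eq_zero_iff _).mpr hnD
  · rw [reductionModL_mk_placeRed hℓN hA D₀]
    refine (QuotientAddGroup.eq_iff_sub_mem).mpr ?_
    exact hred

end FLTA.PlaceRed

end
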