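import Fermat.Agent.PlaceRed.Interface
import Fermat.Agent.Congruence.GaloisCompat

/-!
# Galois equivariance of the Gauss reduction and of the reduction of places

For `σ` preserving `A` and `e` the induced automorphism of the residue field, the Gauss ring is
`σ`-stable, its residue map intertwines `σ` with the coefficientwise `e`, and the map of places
satisfies `r (σ P) = e (r P)`.
-/

set_option autoImplicit false

noncomputable section

open AlgebraicCurve ModularCurve

namespace FLTA.PlaceRed

local notation "Qb" => AlgebraicClosure ℚ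

set_option synthInstance.maxHeartbeats 400000
set_option maxHeartbeats 1000000

variable {N : ℕ} [NeZero N] {ℓ : ℕ} [Fact ℓ.Prime] (hℓN : ¬ ℓ ∣ N)
variable {A : ValuationSubring (AlgebraicClosure ℚ)} (hA : A.LiesOverPrime ℓ)

local notation "k" => IsLocalRing.ResidueField A
local notation "Fb" => modularFunctionFieldBar N
local notation "galAct" => arithmeticGalois (modularFunctionFieldFull N)

variable {σ : AlgebraicClosure ℚ ≃ₐ[ℚ] AlgebraicClosure ℚ} (hσ : ∀ a : A, σ a ∈ A)
  (e : IsLocalRing.ResidueField A ≃+* IsLocalRing.ResidueField A)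
  (he : ∀ a : A, e (IsLocalRing.residue A a) = IsLocalRing.residue A ⟨σ a, hσ a⟩)

/-- `σ` as an endomorphism of `A`. -/
def restrictToA : A →+* A :=
  (((σ : Qb →+* Qb)).comp A.subtype).codRestrict A.toSubring hσ

theorem coeffMap_subtype_restrictToA (y : LaurentSeries A) :
    coeffMap A.subtype (coeffMap (restrictToA hσ) y) =
      coeffMap (σ : Qb →+* Qb) (coeffMap A.subtype y) := by
  rw [coeffMap_coeffMap, coeffMap_coeffMap]
  rfl

include he in
theorem coeffMap_residue_restrictToA (y : LaurentSeries A) :
    coeffMap (IsLocalRing.residue A) (coeffMap (restrictToA hσ) y) =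
      coeffMap (e : k →+* k) (coeffMap (IsLocalRing.residue A) y) := by
  rw [coeffMap_coeffMap, coeffMap_coeffMap]
  exact coeffMap_congr (RingHom.ext fun a => (he a).symm) y

omit [NeZero N] in
include hσ he in
theorem gaussRep_smul {f : Fb} {y z : LaurentSeries A}
    (h : GaussRep A (IsLocalRing.residue A) Fb f y z) :
    GaussRep A (IsLocalRing.residue A) Fb (galAct σ • f)
      (coeffMap (restrictToA hσ) y) (coeffMap (restrictToA hσ) z) := by
  refine ⟨?_, ?_, ?_, ?_⟩
  · rw [coeffMap_subtype_restrictToA]
    exact coeffMap_mem_laurentBaseChange σ h.num_mem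
  · rw [coeffMap_subtype_restrictToA]
    exact coeffMap_mem_laurentBaseChange σ h.den_mem
  · rw [coeffMap_residue_restrictToA hσ e he]
    intro h0
    refine h.den_ne (HahnSeries.ext (funext fun n => ?_))
    have := congrArg (fun s => HahnSeries.coeff s n) h0
    simpa using this
  · rw [coe_arithmeticGalois_smul, coeffMap_subtype_restrictToA, coeffMap_subtype_restrictToA,
      ← map_mul, h.mul_eq]

include hσ he in
/-- The Gauss ring is stable under `σ`. -/
theorem smul_mem_gaussRedModL (f : (gaussRedModL N hℓN A hA).O) :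
    galAct σ • (f : Fb) ∈ (gaussRedModL N hℓN A hA).O := by
  obtain ⟨y, z, h⟩ := f.2
  exact ⟨_, _, gaussRep_smul hσ e he h⟩

/-- The residue map intertwines `σ` with the coefficientwise `e`. -/
theorem red_smul_gaussRedModL (f : (gaussRedModL N hℓN A hA).O) :
    (gaussRedModL N hℓN A hA).red
        ⟨galAct σ • (f : Fb), smul_mem_gaussRedModL hℓN hA hσ e he f⟩ =
      FLTA.Congruence.coeffSemilinear N e • (gaussRedModL N hℓN A hA).red f := by
  obtain ⟨y, z, h⟩ := f.2
  apply Subtype.ext
  rw [FLTA.Congruence.coe_coeffSemilinear_smul]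
  refine (coe_gaussRed_red_eq N IsLocalRing.residue_surjective
    (natCast_residue_ne_zero N hℓN A hA)
    ⟨galAct σ • (f : Fb), smul_mem_gaussRedModL hℓN hA hσ e he f⟩
    (gaussRep_smul hσ e he h)).trans ?_
  rw [coeffMap_residue_restrictToA hσ e he, coeffMap_residue_restrictToA hσ e he, ← map_div₀]
  exact congrArg _ (coe_gaussRed_red_eq N IsLocalRing.residue_surjective
    (natCast_residue_ne_zero N hℓN A hA) f h).symm

include hℓN hA hσ he in
/-- Any reduction of places is equivariant. -/
theorem map_galois_of_isPlaceReductionModL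
    {r : Place Qb Fb → Place k (modularFunctionFieldFullC k N)}
    (hr : IsPlaceReductionModL A N r) (P : Place Qb Fb) :
    r (galAct σ • P) = FLTA.Congruence.coeffSemilinear N e • r P := by
  set c := FLTA.Congruence.coeffSemilinear N e with hc
  set g := galAct σ with hg
  let r' : Place Qb Fb → Place k (modularFunctionFieldFullC k N) := fun P => c⁻¹ • r (g • P)
  have hmap : ∀ D : Divisor Qb Fb,
      Finsupp.mapDomain r' D = c⁻¹ • Finsupp.mapDomain r (g • D) := by
    intro D
    rw [SemilinearAut.divisor_smul_def, SemilinearAut.divisor_smul_def, ← Finsupp.mapDomain_comp,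
      ← Finsupp.mapDomain_comp]
    rfl
  have hr' : IsPlaceReductionModL A N r' := by
    refine ⟨fun P => ?_, fun y hy hyk hne D hD Q => ?_⟩
    · show (c⁻¹ • r (g • P)).deg = _
      rw [SemilinearAut.deg_smul, hr.1, SemilinearAut.deg_smul]
    · rw [hmap, FLTA.Congruence.mapDomain_galois_of_mem_integralPrincipalDivisors hr hσ e he
        ⟨y, hy, hyk, hne, hD⟩, inv_smul_smul]
      exact hr.2 y hy hyk hne D hD Q
  have h := congrFun ((eq_placeRed hℓN hA hr').trans (eq_placeRed hℓN hA hr).symm) P
  rw [← h]
  exact (smul_inv_smul c _).symm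

include hσ he in
/-- `r (σ P) = e (r P)` for Deuring's map of places. -/
theorem placeRed_galois (P : Place Qb Fb) :
    placeRed N hℓN A hA (galAct σ • P) =
      FLTA.Congruence.coeffSemilinear N e • placeRed N hℓN A hA P :=
  map_galois_of_isPlaceReductionModL hℓN hA hσ e he (isPlaceReductionModL_placeRed N hℓN A hA) P

include hσ he in
/-- `r_* (σ D) = e (r_* D)` for every divisor. -/
theorem mapDomain_placeRed_galois (D : Divisor Qb Fb) :
    Finsupp.mapDomain (placeRed N hℓN A hA) (galAct σ • D) =
      FLTA.Congruence.coeffSemilinear N e • Finsupp.mapDomain (placeRed N hℓN A hA) D := by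
  rw [SemilinearAut.divisor_smul_def, SemilinearAut.divisor_smul_def, ← Finsupp.mapDomain_comp,
    ← Finsupp.mapDomain_comp]
  exact Finsupp.mapDomain_congr fun P _ => placeRed_galois hℓN hA hσ e he P

omit hσ he e

section Inertia

variable (hI : σ ∈ A.inertiaSubgroupIn ℚ)
include hI

/-- An inertia element does not move the reduced places. -/
theorem placeRed_inertia (P : Place Qb Fb) :
    placeRed N hℓN A hA (galAct σ • P) = placeRed N hℓN A hA P := by
  obtain ⟨hd, hi⟩ := FLTA.Galois.mem_inertiaSubgroupIn_iff.mp hI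
  rw [placeRed_galois hℓN hA
    (fun a => FLTA.Galois.apply_mem_of_mem_decompositionSubgroup hd a.2) (RingEquiv.refl k)
    (fun a => ((FLTA.Galois.residue_eq_iff_sub_mem_nonunits _ _).mpr (hi a a.2)).symm),
    FLTA.Congruence.coeffSemilinear_refl, one_smul]

theorem smul_mem_gaussRedModL_inertia (f : (gaussRedModL N hℓN A hA).O) :
    galAct σ • (f : Fb) ∈ (gaussRedModL N hℓN A hA).O := by
  obtain ⟨hd, hi⟩ := FLTA.Galois.mem_inertiaSubgroupIn_iff.mp hI
  exact smul_mem_gaussRedModL hℓN hA
    (fun a => FLTA.Galois.apply_mem_of_mem_decompositionSubgroup hd a.2) (RingEquiv.refl k)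
    (fun a => ((FLTA.Galois.residue_eq_iff_sub_mem_nonunits _ _).mpr (hi a a.2)).symm) f

/-- An inertia element does not change residues. -/
theorem red_smul_gaussRedModL_inertia (f : (gaussRedModL N hℓN A hA).O) :
    (gaussRedModL N hℓN A hA).red
        ⟨galAct σ • (f : Fb), smul_mem_gaussRedModL_inertia hℓN hA hI f⟩ =
      (gaussRedModL N hℓN A hA).red f := by
  obtain ⟨hd, hi⟩ := FLTA.Galois.mem_inertiaSubgroupIn_iff.mp hI
  rw [red_smul_gaussRedModL hℓN hA
    (fun a => FLTA.Galois.apply_mem_of_mem_decompositionSubgroup hd a.2) (RingEquiv.refl k)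
    (fun a => ((FLTA.Galois.residue_eq_iff_sub_mem_nonunits _ _).mpr (hi a a.2)).symm),
    FLTA.Congruence.coeffSemilinear_refl, one_smul]

end Inertia

section Frobenius

variable [CharP (IsLocalRing.ResidueField A) ℓ] [PerfectRing (IsLocalRing.ResidueField A) ℓ]
  (hF : A.IsFrobeniusAt σ ℓ)
include hF

/-- A Frobenius element moves reduced places by the coefficientwise Frobenius. -/
theorem placeRed_frobenius (P : Place Qb Fb) :
    placeRed N hℓN A hA (galAct σ • P) =
      FLTA.Congruence.frobSemilinear k ℓ N • placeRed N hℓN A hA P := by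
  obtain ⟨hd, hf⟩ := FLTA.Galois.isFrobeniusAt_iff.mp hF
  refine placeRed_galois hℓN hA
    (fun a => FLTA.Galois.apply_mem_of_mem_decompositionSubgroup hd a.2) (frobeniusEquiv k ℓ)
    (fun a => ?_) P
  rw [frobeniusEquiv_def, ← map_pow]
  refine ((FLTA.Galois.residue_eq_iff_sub_mem_nonunits _ _).mpr ?_).symm
  rw [SubmonoidClass.coe_pow]
  exact hf a a.2

end Frobenius

end FLTA.PlaceRed

end
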