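import Mathlib
import Fermat.Prelude.Def_AlgebraicCurve_Repartitions

/-!
# Constant reductions of function fields (Deuring)

`ConstRed A π F F'` is a valuation ring `O` of `F` above the valuation ring `A` of the constant
field `K`, with surjective residue map `red : O → F'` above `π : A → k`, such that every finite
dimensional `K`-subspace of `F` has a basis in `O` whose reductions are linearly independent.
-/

set_option autoImplicit false

noncomputable section

open AlgebraicCurve

namespace FLTA.PlaceRed

variable {K : Type*} [Field K] (A : ValuationSubring K) {k : Type*} [Field k] (π : A →+* k)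

/-- A constant reduction of `F/K` to `F'/k`. -/
structure ConstRed (F : Type*) [Field F] [Algebra K F] (F' : Type*) [Field F'] [Algebra k F'] where
  /-- the valuation ring -/
  O : ValuationSubring F
  /-- the residue map -/
  red : O →+* F'
  π_surjective : Function.Surjective π
  algebraMap_mem : ∀ a : A, algebraMap K F (a : K) ∈ O
  red_algebraMap : ∀ a : A, red ⟨algebraMap K F (a : K), algebraMap_mem a⟩ = algebraMap k F' (π a)
  red_surjective : Function.Surjective red
  lattice : ∀ W : Submodule K F, FiniteDimensional K W →
    ∃ (n : ℕ) (b : Fin n → O),
      Submodule.span K (Set.range fun i => (b i : F)) = W ∧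
        LinearIndependent k fun i => red (b i)

/-- A function field satisfying Riemann-Roch with genus `g` in large degree. -/
structure RRCurve (K F : Type*) [Field K] [Field F] [Algebra K F] (g : ℕ) : Prop where
  nonempty : Nonempty (Place K F)
  deg_eq_one : ∀ P : Place K F, P.deg = 1
  principal : HasPrincipalDivisors K F
  finiteDimensional : ∀ D : Divisor K F, FiniteDimensional K (riemannRochSpace D)
  finrank_eq : ∀ D : Divisor K F, 2 * (g : ℤ) - 1 ≤ Divisor.degree D →
    (Module.finrank K (riemannRochSpace D) : ℤ) = Divisor.degree D + 1 - g

variable {A π} {F : Type*} [Field F] [Algebra K F] {F' : Type*} [Field F'] [Algebra k F']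

namespace ConstRed

variable (R : ConstRed A π F F')

/-- `L(D) ∩ O` reduces exactly onto `L(D')`, and the degrees agree. -/
structure Reduces (D : Divisor K F) (D' : Divisor k F') : Prop where
  degree_eq : Divisor.degree D' = Divisor.degree D
  map_mem : ∀ f : R.O, (f : F) ∈ riemannRochSpace D → R.red f ∈ riemannRochSpace D'
  surj : ∀ f' ∈ riemannRochSpace D', ∃ f : R.O, (f : F) ∈ riemannRochSpace D ∧ R.red f = f'

/-- `r` sends the divisor of every unit of the reduction to the divisor of its residue. -/
def IsPlaceMap (r : Place K F → Place k F') : Prop :=
  ∀ u : R.O, R.red u ≠ 0 → ∀ D : Divisor K F, (∀ P, D P = P.ord (u : F)) →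
    ∀ Q, Finsupp.mapDomain r D Q = Q.ord (R.red u)

end ConstRed

end FLTA.PlaceRed

end
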