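import Fermat.Agent.PlaceRed.DeuringPole

/-!
# The reduction of divisors of large degree
-/

set_option autoImplicit false

noncomputable section

open AlgebraicCurve

namespace FLTA.PlaceRed

variable {K : Type*} [Field K] {A : ValuationSubring K} {k : Type*} [Field k] {π : A →+* k}
  {F : Type*} [Field F] [Algebra K F] {F' : Type*} [Field F'] [Algebra k F'] {g : ℕ}

/-- The supremum of finitely many effective divisors, attained place by place. -/
theorem exists_sup_attained {α : Type*} {ι : Type*} [Fintype ι] (f : ι → α →₀ ℤ)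
    (hf : ∀ i, 0 ≤ f i) :
    ∃ D : α →₀ ℤ, 0 ≤ D ∧ (∀ i, f i ≤ D) ∧ ∀ a, D a ≠ 0 → ∃ i, D a = f i a := by
  classical
  suffices ∀ s : Finset ι, ∃ D : α →₀ ℤ, 0 ≤ D ∧ (∀ i ∈ s, f i ≤ D) ∧
      ∀ a, D a ≠ 0 → ∃ i, D a = f i a by
    obtain ⟨D, h0, h1, h2⟩ := this Finset.univ
    exact ⟨D, h0, fun i => h1 i (Finset.mem_univ i), h2⟩
  intro s
  induction s using Finset.induction with
  | empty => exact ⟨0, le_rfl, by simp, fun a h => absurd rfl h⟩
  | insert i t hit ih =>
    obtain ⟨D, h0, h1, h2⟩ := ih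
    refine ⟨D ⊔ f i, le_sup_of_le_left h0, ?_, fun a ha => ?_⟩
    · intro j hj
      rcases Finset.mem_insert.mp hj with rfl | hj
      · exact le_sup_right
      · exact le_sup_of_le_left (h1 j hj)
    · rw [Finsupp.sup_apply] at ha ⊢
      rcases le_total (f i a) (D a) with h | h
      · rw [max_eq_left h] at ha ⊢
        exact h2 a ha
      · exact ⟨i, max_eq_right h⟩

namespace ConstRed

variable (R : ConstRed A π F F')

theorem finrank_redSpace_eq (hF : RRCurve K F g) {D : Divisor K F}
    (hD : 2 * (g : ℤ) - 1 ≤ Divisor.degree D) :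
    (Module.finrank k (R.redSpace (riemannRochSpace D)) : ℤ) = Divisor.degree D + 1 - g := by
  haveI := hF.finiteDimensional D
  rw [R.finrank_redSpace, hF.finrank_eq D hD]

/-- The reduction of `L(D)` sits in `L(D')` with `deg D' = deg D`, whatever the genus of the
reduced curve. -/
theorem exists_redSpace_le [Infinite k] {g' : ℕ} (hF : RRCurve K F g) (hF' : RRCurve k F' g')
    {D : Divisor K F} (hD : 0 ≤ D) :
    ∃ D' E : Divisor k F', 0 ≤ D' ∧ 0 ≤ E ∧ Divisor.degree (D' + E) = Divisor.degree D ∧
      R.redSpace (riemannRochSpace D) ≤ riemannRochSpace D' := by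
  classical
  haveI := hF.finiteDimensional D
  set W := R.redSpace (riemannRochSpace D) with hW
  obtain ⟨n, b, hspan, hb⟩ := R.lattice (riemannRochSpace D) ‹_›
  have hWspan : W = Submodule.span k (Set.range fun i => R.red (b i)) :=
    R.redSpace_eq_span hspan hb
  set x : Fin n → F' := fun i => R.red (b i) with hx
  obtain ⟨D', hD'0, hle, hatt⟩ :=
    exists_sup_attained (fun i => hF'.poleDiv (x i)) fun i => hF'.poleDiv_nonneg _
  have hWle : W ≤ riemannRochSpace D' := by
    rw [hWspan, Submodule.span_le]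
    rintro _ ⟨i, rfl⟩
    exact RRCurve.space_mono (hle i) (hF'.mem_space_poleDiv _)
  have hdegle : Divisor.degree D' ≤ Divisor.degree D := by
    by_cases hD'z : D' = 0
    · rw [hD'z, map_zero]; exact hF.degree_nonneg hD
    let p : D'.support → Submodule k W := fun Q =>
      (riemannRochSpace (D' - Finsupp.single Q.1 1)).comap W.subtype
    have hp : ∀ Q, p Q ≠ ⊤ := by
      intro Q htop
      have hQ := Finsupp.mem_support_iff.mp Q.2
      obtain ⟨i, hi⟩ := hatt Q.1 hQ
      have hxi : x i ∈ W := hWspan ▸ Submodule.subset_span ⟨i, rfl⟩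
      have hmem : (⟨x i, hxi⟩ : W) ∈ p Q := htop ▸ Submodule.mem_top
      have h1 := (RRCurve.mem_iff (hb.ne_zero i)).mp hmem Q.1
      have h2 : 0 ≤ D' Q.1 := Finsupp.le_def.mp hD'0 Q.1
      simp only [Finsupp.sub_apply, Finsupp.single_eq_same] at h1
      rw [RRCurve.poleDiv_apply] at hi
      change _ ≤ Q.1.ord (x i) at h1
      omega
    obtain ⟨⟨w, hwW⟩, hw⟩ := Submodule.exists_forall_notMem_of_forall_ne_top p hp
    obtain ⟨Q₀, hQ₀⟩ : ∃ Q, Q ∈ D'.support := Finsupp.support_nonempty_iff.mpr hD'z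
    have hw0 : w ≠ 0 := by
      rintro rfl
      exact hw ⟨Q₀, hQ₀⟩ (by simp [p])
    have hge : D' ≤ hF'.poleDiv w := by
      refine Finsupp.le_def.mpr fun Q => ?_
      by_cases hQ : Q ∈ D'.support
      · rw [RRCurve.poleDiv_apply]
        by_contra hcon
        apply hw ⟨Q, hQ⟩
        show w ∈ riemannRochSpace (D' - Finsupp.single Q 1)
        refine (RRCurve.mem_iff hw0).mpr fun P => ?_
        have h1 := (RRCurve.mem_iff hw0).mp (hWle hwW) P
        rcases eq_or_ne P Q with rfl | hne
        · simp only [Finsupp.sub_apply, Finsupp.single_eq_same]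
          omega
        · simpa [Finsupp.single_eq_of_ne hne] using h1
      · rw [Finsupp.notMem_support_iff.mp hQ]
        exact Finsupp.le_def.mp (hF'.poleDiv_nonneg w) Q
    obtain ⟨u, hu, rfl⟩ := hwW
    exact (hF'.degree_mono hge).trans (R.degree_poleDiv_red_le hF hF' hD hu)
  obtain ⟨E, hE0, hEdeg⟩ :=
    hF'.exists_effective_degree (d := Divisor.degree D - Divisor.degree D') (by omega)
  exact ⟨D', E, hD'0, hE0, by rw [map_add, hEdeg]; omega, hWle⟩

include R in
/-- A constant reduction does not increase the genus. -/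
theorem genus_le [Infinite k] {g' : ℕ} (hF : RRCurve K F g) (hF' : RRCurve k F' g') : g' ≤ g := by
  obtain ⟨B, hB0, hBdeg⟩ :=
    hF.exists_effective_degree (d := 2 * (g : ℤ) + 2 * (g' : ℤ)) (by omega)
  obtain ⟨D', E, -, hE0, hdeg, hle⟩ := R.exists_redSpace_le hF hF' hB0
  haveI := hF'.finiteDimensional (D' + E)
  have h1 := Submodule.finrank_mono (hle.trans (RRCurve.space_mono (le_add_of_nonneg_right hE0)))
  have h2 := R.finrank_redSpace_eq hF (D := B) (by omega)
  have h3 := hF'.finrank_eq (D' + E) (by omega)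
  omega

/-- For effective `D` of large degree the reduction of `L(D)` is a Riemann-Roch space. -/
theorem exists_redSpace_eq [Infinite k] (hF : RRCurve K F g) (hF' : RRCurve k F' g)
    {D : Divisor K F} (hD : 0 ≤ D) (hdeg : 2 * (g : ℤ) ≤ Divisor.degree D) :
    ∃ D' : Divisor k F', 0 ≤ D' ∧ Divisor.degree D' = Divisor.degree D ∧
      R.redSpace (riemannRochSpace D) = riemannRochSpace D' := by
  obtain ⟨D', E, hD'0, hE0, hdeg'', hWle⟩ := R.exists_redSpace_le hF hF' hD
  have hWeq : R.redSpace (riemannRochSpace D) = riemannRochSpace (D' + E) := by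
    haveI := hF'.finiteDimensional (D' + E)
    refine Submodule.eq_of_le_of_finrank_eq
      (hWle.trans (RRCurve.space_mono (le_add_of_nonneg_right hE0))) ?_
    have h1 := R.finrank_redSpace_eq hF (D := D) (by omega)
    have h2 := hF'.finrank_eq (D' + E) (by omega)
    omega
  have hle : D' + E ≤ D' := hF'.le_of_space_le (by omega) (hWeq ▸ hWle)
  have : D' + E = D' := le_antisymm hle (le_add_of_nonneg_right hE0)
  exact ⟨D' + E, by rw [this]; exact hD'0, hdeg'', hWeq⟩

end ConstRed

end FLTA.PlaceRed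

end
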