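import Fermat.Agent.PlaceRed.Defs

/-!
# Linear algebra of a constant reduction
-/

set_option autoImplicit false

noncomputable section

namespace FLTA.PlaceRed

variable {K : Type*} [Field K] {A : ValuationSubring K} {k : Type*} [Field k] {π : A →+* k}
  {F : Type*} [Field F] [Algebra K F] {F' : Type*} [Field F'] [Algebra k F']

namespace ConstRed

variable (R : ConstRed A π F F')

include R in
theorem π_eq_zero {a : A} (ha : ¬ IsUnit a) : π a = 0 := by
  haveI := RingHom.ker_isMaximal_of_surjective π R.π_surjective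
  rw [← RingHom.mem_ker, IsLocalRing.eq_maximalIdeal (I := RingHom.ker π) ‹_›]
  exact ha

/-- The embedding of the constants. -/
def const (a : A) : R.O := ⟨algebraMap K F (a : K), R.algebraMap_mem a⟩

theorem coe_const (a : A) : (R.const a : F) = algebraMap K F (a : K) := rfl

theorem red_const (a : A) : R.red (R.const a) = algebraMap k F' (π a) := R.red_algebraMap a

theorem coe_sum_const_mul {ι : Type*} (s : Finset ι) (a : ι → A) (b : ι → R.O) :
    ((∑ i ∈ s, R.const (a i) * b i : R.O) : F) = ∑ i ∈ s, (a i : K) • (b i : F) := by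
  push_cast
  exact Finset.sum_congr rfl fun i _ => by rw [coe_const, Algebra.smul_def]

theorem red_sum_const_mul {ι : Type*} (s : Finset ι) (a : ι → A) (b : ι → R.O) :
    R.red (∑ i ∈ s, R.const (a i) * b i) = ∑ i ∈ s, π (a i) • R.red (b i) := by
  simp [map_sum, map_mul, red_const, Algebra.smul_def]

/-- A nonzero tuple of constants can be divided by its largest entry. -/
theorem exists_max_entry {ι : Type*} [Fintype ι] (a : ι → K) (ha : ∃ i, a i ≠ 0) :
    ∃ i₀, a i₀ ≠ 0 ∧ ∀ i, a i / a i₀ ∈ A := by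
  classical
  obtain ⟨j, hj⟩ := ha
  obtain ⟨i₀, -, hmax⟩ :=
    Finset.exists_max_image Finset.univ (fun i => A.valuation (a i)) ⟨j, Finset.mem_univ j⟩
  have hi₀ : A.valuation (a i₀) ≠ 0 := by
    intro h0
    have := hmax j (Finset.mem_univ j)
    rw [h0] at this
    exact hj (A.valuation.zero_iff.mp (le_antisymm this zero_le))
  refine ⟨i₀, A.valuation.ne_zero_iff.mp hi₀, fun i => ?_⟩
  rw [← A.valuation_le_one_iff, map_div₀]
  exact div_le_one_of_le₀ (hmax i (Finset.mem_univ i)) zero_le

/-- Lifts of independent residues are independent, and their integral combinations have integral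
coefficients. -/
theorem coeff_mem_of_linearIndependent {ι : Type*} [Fintype ι] {b : ι → R.O}
    (hb : LinearIndependent k fun i => R.red (b i)) (a : ι → K)
    (ha : ∑ i, a i • (b i : F) ∈ R.O) : ∀ i, a i ∈ A := by
  by_contra hcon
  push Not at hcon
  obtain ⟨j, hj⟩ := hcon
  obtain ⟨i₀, hi₀, hdiv⟩ := exists_max_entry (A := A) a ⟨j, fun h0 => hj (h0 ▸ A.zero_mem)⟩
  have hinv : (a i₀)⁻¹ ∈ A := by
    rcases A.mem_or_inv_mem (a i₀) with h | h
    · exfalso
      apply hj
      have := A.mul_mem _ _ (hdiv j) h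
      rwa [div_mul_cancel₀ _ hi₀] at this
    · exact h
  have hnu : ¬ IsUnit (⟨(a i₀)⁻¹, hinv⟩ : A) := by
    intro hu
    obtain ⟨c, hc⟩ := hu.exists_right_inv
    apply hj
    have hc' : (a i₀)⁻¹ * (c : K) = 1 := congrArg Subtype.val hc
    have hce : (c : K) = a i₀ := by
      field_simp at hc'
      exact hc'
    have := A.mul_mem _ _ (hdiv j) (hce ▸ c.2)
    rwa [div_mul_cancel₀ _ hi₀] at this
  have key : ∑ i, R.const ⟨a i / a i₀, hdiv i⟩ * b i
      = R.const ⟨(a i₀)⁻¹, hinv⟩ * ⟨_, ha⟩ := by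
    apply Subtype.ext
    rw [coe_sum_const_mul]
    push_cast
    rw [coe_const, ← Algebra.smul_def, Finset.smul_sum]
    refine Finset.sum_congr rfl fun i _ => ?_
    rw [smul_smul, div_eq_inv_mul]
  have h0 := congrArg R.red key
  rw [red_sum_const_mul, map_mul, red_const, R.π_eq_zero hnu, map_zero, zero_mul] at h0
  have h1 := Fintype.linearIndependent_iff.mp hb _ h0 i₀
  have e : (⟨a i₀ / a i₀, hdiv i₀⟩ : A) = 1 := Subtype.ext (div_self hi₀)
  rw [e, map_one] at h1
  exact one_ne_zero h1

theorem linearIndependent_lift {ι : Type*} [Fintype ι] {b : ι → R.O}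
    (hb : LinearIndependent k fun i => R.red (b i)) :
    LinearIndependent K fun i => (b i : F) := by
  rw [Fintype.linearIndependent_iff]
  intro a ha j
  by_contra hj
  obtain ⟨i₀, hi₀, hdiv⟩ := exists_max_entry (A := A) a ⟨j, hj⟩
  have key : ∑ i, R.const ⟨a i / a i₀, hdiv i⟩ * b i = 0 := by
    apply Subtype.ext
    rw [coe_sum_const_mul]
    have := congrArg ((a i₀)⁻¹ • ·) ha
    simpa [Finset.smul_sum, smul_smul, div_eq_inv_mul] using this
  have h0 := congrArg R.red key
  rw [red_sum_const_mul, map_zero] at h0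
  have h1 := Fintype.linearIndependent_iff.mp hb _ h0 i₀
  have e : (⟨a i₀ / a i₀, hdiv i₀⟩ : A) = 1 := Subtype.ext (div_self hi₀)
  rw [e, map_one] at h1
  exact one_ne_zero h1

theorem coe_ne_zero {u : R.O} (hu : R.red u ≠ 0) : (u : F) ≠ 0 := fun h =>
  hu (by rw [show u = 0 from Subtype.ext h, map_zero])

/-- The reduction of `W ∩ O`. -/
def redSpace (W : Submodule K F) : Submodule k F' where
  carrier := {x | ∃ f : R.O, (f : F) ∈ W ∧ R.red f = x}
  zero_mem' := ⟨0, by simp, map_zero _⟩
  add_mem' := by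
    rintro x y ⟨f, hf, rfl⟩ ⟨f', hf', rfl⟩
    exact ⟨f + f', by simpa using W.add_mem hf hf', map_add _ _ _⟩
  smul_mem' := by
    rintro c x ⟨f, hf, rfl⟩
    obtain ⟨a, rfl⟩ := R.π_surjective c
    refine ⟨R.const a * f, ?_, by rw [map_mul, red_const, Algebra.smul_def]⟩
    push_cast
    rw [coe_const, ← Algebra.smul_def]
    exact W.smul_mem _ hf

theorem mem_redSpace {W : Submodule K F} {x : F'} :
    x ∈ R.redSpace W ↔ ∃ f : R.O, (f : F) ∈ W ∧ R.red f = x := Iff.rfl

theorem redSpace_eq_span {W : Submodule K F} {n : ℕ} {b : Fin n → R.O}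
    (hspan : Submodule.span K (Set.range fun i => (b i : F)) = W)
    (hb : LinearIndependent k fun i => R.red (b i)) :
    R.redSpace W = Submodule.span k (Set.range fun i => R.red (b i)) := by
  apply le_antisymm
  · rintro x ⟨f, hf, rfl⟩
    rw [← hspan, Submodule.mem_span_range_iff_exists_fun] at hf
    obtain ⟨a, ha⟩ := hf
    have haA := R.coeff_mem_of_linearIndependent hb a (ha ▸ f.2)
    have : f = ∑ i, R.const ⟨a i, haA i⟩ * b i :=
      Subtype.ext (by rw [coe_sum_const_mul]; exact ha.symm)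
    rw [this, red_sum_const_mul]
    exact Submodule.sum_mem _ fun i _ =>
      Submodule.smul_mem _ _ (Submodule.subset_span ⟨i, rfl⟩)
  · rw [Submodule.span_le]
    rintro _ ⟨i, rfl⟩
    exact ⟨b i, hspan ▸ Submodule.subset_span ⟨i, rfl⟩, rfl⟩

theorem finrank_redSpace (W : Submodule K F) [FiniteDimensional K W] :
    Module.finrank k (R.redSpace W) = Module.finrank K W := by
  obtain ⟨n, b, hspan, hb⟩ := R.lattice W ‹_›
  rw [R.redSpace_eq_span hspan hb, finrank_span_eq_card hb, ← hspan,
    finrank_span_eq_card (R.linearIndependent_lift hb)]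

theorem finiteDimensional_redSpace (W : Submodule K F) [FiniteDimensional K W] :
    FiniteDimensional k (R.redSpace W) := by
  obtain ⟨n, b, hspan, hb⟩ := R.lattice W ‹_›
  rw [R.redSpace_eq_span hspan hb]
  exact FiniteDimensional.span_of_finite k (Set.finite_range _)

theorem exists_normalise {f : F} (hf : f ≠ 0) :
    ∃ (c : K) (u : R.O), c ≠ 0 ∧ (u : F) = c • f ∧ R.red u ≠ 0 := by
  obtain ⟨n, b, hspan, hb⟩ := R.lattice (K ∙ f) inferInstance
  have hn : n = 1 := by
    have := finrank_span_eq_card (R.linearIndependent_lift hb)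
    rw [hspan, finrank_span_singleton hf, Fintype.card_fin] at this
    exact this.symm
  subst hn
  have hmem : (b 0 : F) ∈ K ∙ f := hspan ▸ Submodule.subset_span ⟨0, rfl⟩
  obtain ⟨c, hc⟩ := Submodule.mem_span_singleton.mp hmem
  refine ⟨c, b 0, ?_, hc.symm, hb.ne_zero 0⟩
  rintro rfl
  rw [zero_smul] at hc
  exact R.coe_ne_zero (hb.ne_zero 0) hc.symm

end ConstRed

end FLTA.PlaceRed

end
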