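import Fermat.Agent.PlaceRed.DeuringRR
import Fermat.Agent.PlaceRed.DeuringLin

/-!
# The degree of the poles of a residue is at most the degree of the poles
-/

set_option autoImplicit false

noncomputable section

open AlgebraicCurve WithZero

namespace FLTA.PlaceRed

variable {K : Type*} [Field K] {A : ValuationSubring K} {k : Type*} [Field k] {π : A →+* k}
  {F : Type*} [Field F] [Algebra K F] {F' : Type*} [Field F'] [Algebra k F'] {g : ℕ}

theorem linearIndependent_adapted {x : F'} (hx : x ≠ 0) (E : Divisor k F')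
    (hpole : ∀ Q ∈ E.support, 0 < E Q ∧ Q.ord x = -E Q)
    (h : (Σ Q : E.support, Fin (E Q.1).toNat) → F') (hh0 : ∀ i, h i ≠ 0)
    (hh : ∀ i : (Σ Q : E.support, Fin (E Q.1).toNat), i.1.1.ord (h i) = ((i.2 : ℕ) : ℤ))
    (hh' : ∀ i : (Σ Q : E.support, Fin (E Q.1).toNat), ∀ Q ∈ E.support, Q ≠ i.1.1 → E Q ≤ Q.ord (h i)) :
    ∀ m : ℕ, LinearIndependent k
      fun p : Fin (m + 1) × (Σ Q : E.support, Fin (E Q.1).toNat) => x ^ (p.1 : ℕ) * h p.2 := by
  classical
  intro m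
  rw [Fintype.linearIndependent_iff]
  intro c hc p₀
  by_contra hp₀
  obtain ⟨⟨j, Q, s₁⟩, hp, hmax⟩ := Finset.exists_max_image
    (Finset.univ.filter fun p => c p ≠ 0) (fun p => (p.1 : ℕ)) ⟨p₀, by simpa using hp₀⟩
  simp only [Finset.mem_filter, Finset.mem_univ, true_and] at hp hmax
  obtain ⟨s, hs, hmin⟩ := Finset.exists_min_image
    (Finset.univ.filter fun s => c (j, ⟨Q, s⟩) ≠ 0) (fun s => (s : ℕ)) ⟨s₁, by simpa using hp⟩
  simp only [Finset.mem_filter, Finset.mem_univ, true_and] at hs hmin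
  obtain ⟨heQ, hordx⟩ := hpole Q.1 Q.2
  set v := Q.1.adicValuation with hv
  have hord : ∀ p : Fin (m + 1) × (Σ Q : E.support, Fin (E Q.1).toNat), c p ≠ 0 → c p • (x ^ (p.1 : ℕ) * h p.2) ≠ 0 ∧
      Q.1.ord (c p • (x ^ (p.1 : ℕ) * h p.2)) = -((p.1 : ℕ) : ℤ) * E Q.1 + Q.1.ord (h p.2) := by
    intro p hcp
    have h1 : algebraMap k F' (c p) ≠ 0 := by simpa using hcp
    have h2 : x ^ (p.1 : ℕ) ≠ 0 := pow_ne_zero _ hx
    rw [Algebra.smul_def]
    refine ⟨mul_ne_zero h1 (mul_ne_zero h2 (hh0 _)), ?_⟩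
    rw [Q.1.ord_mul h1 (mul_ne_zero h2 (hh0 _)), Q.1.ord_mul h2 (hh0 _),
      FLTA.Curves.ord_algebraMap, FLTA.Curves.ord_pow, hordx]
    ring
  set q : Fin (m + 1) × (Σ Q : E.support, Fin (E Q.1).toNat) := (j, ⟨Q, s⟩) with hq
  obtain ⟨hq0, hqord⟩ := hord q hs
  have hlt : ∀ p ∈ Finset.univ \ {q},
      v (c p • (x ^ (p.1 : ℕ) * h p.2)) < v (c q • (x ^ (q.1 : ℕ) * h q.2)) := by
    intro p hpq
    simp only [Finset.mem_sdiff, Finset.mem_univ, true_and, Finset.mem_singleton] at hpq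
    rw [hv, Q.1.adicValuation_eq_exp_neg_ord hq0]
    by_cases hcp : c p = 0
    · rw [hcp, zero_smul, map_zero]; exact WithZero.exp_pos
    obtain ⟨hp0, hpord⟩ := hord p hcp
    rw [Q.1.adicValuation_eq_exp_neg_ord hp0, exp_lt_exp, neg_lt_neg_iff, hpord, hqord]
    have hjle : (p.1 : ℕ) ≤ (j : ℕ) := hmax p hcp
    have hqs : Q.1.ord (h q.2) = ((s : ℕ) : ℤ) := hh q.2
    have hslt : ((s : ℕ) : ℤ) < E Q.1 := by have := s.2; omega
    rw [hqs]
    show -((j : ℕ) : ℤ) * E Q.1 + ((s : ℕ) : ℤ) < _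
    obtain ⟨j', Q', s'⟩ := p
    rcases eq_or_ne Q' Q with rfl | hQQ
    · have hps : Q'.1.ord (h ⟨Q', s'⟩) = ((s' : ℕ) : ℤ) := hh ⟨Q', s'⟩
      simp only at hjle ⊢
      rw [hps]
      rcases hjle.lt_or_eq with hlt | heq
      · have : ((j' : ℕ) : ℤ) + 1 ≤ ((j : ℕ) : ℤ) := by exact_mod_cast hlt
        nlinarith
      · have hjj : j' = j := Fin.ext heq
        subst hjj
        have hle := hmin s' hcp
        have hne : (s : ℕ) ≠ (s' : ℕ) := by
          intro e
          apply hpq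
          rw [hq, show s = s' from Fin.ext e]
        have : ((s : ℕ) : ℤ) < ((s' : ℕ) : ℤ) := by exact_mod_cast lt_of_le_of_ne hle hne
        omega
    · have hge := hh' ⟨Q', s'⟩ Q.1 Q.2 (fun e => hQQ (Subtype.ext e.symm))
      simp only at hjle ⊢
      have : ((j' : ℕ) : ℤ) ≤ ((j : ℕ) : ℤ) := by exact_mod_cast hjle
      nlinarith
  have hsum := v.map_sum_eq_of_lt (f := fun p => c p • (x ^ (p.1 : ℕ) * h p.2))
    (Finset.mem_univ q) hlt
  rw [hc, map_zero, hv] at hsum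
  exact Q.1.adicValuation_ne_zero hq0 hsum.symm

/-- Functions with prescribed small orders at the poles of `x`, times powers of `x`. -/
theorem exists_adapted_family (hF' : RRCurve k F' g) (x : F') :
    ∃ (n : ℕ) (h : Fin n → F'),
      (n : ℤ) = Divisor.degree (hF'.poleDiv x) ∧
        ∀ m : ℕ, LinearIndependent k fun p : Fin (m + 1) × Fin n => x ^ (p.1 : ℕ) * h p.2 := by
  classical
  set E := hF'.poleDiv x with hE
  by_cases hE0 : E = 0
  · refine ⟨0, fun _ => 0, by simp [hE0], fun m => ?_⟩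
    exact linearIndependent_empty_type
  obtain ⟨Q₁, hQ₁⟩ : ∃ Q, E Q ≠ 0 := by
    by_contra hc
    push Not at hc
    exact hE0 (Finsupp.ext hc)
  have hQ₁' : Q₁.ord x < 0 := by
    rw [hE, RRCurve.poleDiv_apply] at hQ₁
    omega
  obtain ⟨Q₀, hQ₀⟩ := hF'.exists_ord_pos hQ₁'
  have hx : x ≠ 0 := by rintro rfl; simp at hQ₁'
  have hpole : ∀ Q ∈ E.support, 0 < E Q ∧ Q.ord x = -E Q ∧ Q ≠ Q₀ := by
    intro Q hQ
    rw [Finsupp.mem_support_iff, hE, RRCurve.poleDiv_apply] at hQ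
    refine ⟨?_, ?_, ?_⟩
    · rw [hE, RRCurve.poleDiv_apply]; omega
    · rw [hE, RRCurve.poleDiv_apply]; omega
    · rintro rfl; omega
  have hex : ∀ i : (Σ Q : E.support, Fin (E Q.1).toNat), ∃ f : F', f ≠ 0 ∧
      i.1.1.ord f = ((i.2 : ℕ) : ℤ) ∧ ∀ Q ∈ E.support, Q ≠ i.1.1 → E Q ≤ Q.ord f := by
    intro i
    set T : Divisor k F' := E.erase i.1.1 + Finsupp.single i.1.1 ((i.2 : ℕ) : ℤ) with hT
    set B : Divisor k F' := Finsupp.single Q₀ (2 * (g : ℤ) + Divisor.degree T) - T with hB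
    have hdeg : 2 * (g : ℤ) ≤ Divisor.degree B := by
      rw [hB, map_sub, hF'.degree_single_eq]; omega
    obtain ⟨f, hf0, hfB, hford⟩ := hF'.exists_ord_eq_neg hdeg i.1.1
    have hne := (hpole _ i.1.2).2.2
    refine ⟨f, hf0, ?_, fun Q hQ hQi => ?_⟩
    · rw [hford, hB, hT]
      simp [Finsupp.single_eq_of_ne hne]
    · have h1 := (RRCurve.mem_iff hf0).mp hfB Q
      have hQ0 := (hpole Q hQ).2.2
      rw [hB, hT] at h1
      simpa [Finsupp.single_eq_of_ne hQ0, Finsupp.single_eq_of_ne hQi,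
        Finsupp.erase_ne hQi] using h1
  choose h hh0 hh hh' using hex
  have hmain := linearIndependent_adapted hx E (fun Q hQ => ⟨(hpole Q hQ).1, (hpole Q hQ).2.1⟩)
    h hh0 hh hh'
  set e := (Fintype.equivFin (Σ Q : E.support, Fin (E Q.1).toNat)).symm with he
  refine ⟨_, h ∘ e, ?_, fun m => ?_⟩
  · rw [Fintype.card_sigma, hF'.degree_eq_sum, Nat.cast_sum]
    simp only [Fintype.card_fin]
    rw [Finset.sum_coe_sort E.support fun Q => ((E Q).toNat : ℤ)]
    exact Finset.sum_congr rfl fun Q hQ => Int.toNat_of_nonneg (hpole Q hQ).1.le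
  · have := (hmain m).comp (fun p => (p.1, e p.2))
      fun p q hpq => Prod.ext (by simpa using (Prod.ext_iff.mp hpq).1)
        (e.injective (Prod.ext_iff.mp hpq).2)
    exact this

namespace ConstRed

variable (R : ConstRed A π F F')

theorem degree_poleDiv_red_le {g' : ℕ} (hF : RRCurve K F g) (hF' : RRCurve k F' g')
    {D : Divisor K F} (hD : 0 ≤ D) {u : R.O} (hu : (u : F) ∈ riemannRochSpace D) :
    Divisor.degree (hF'.poleDiv (R.red u)) ≤ Divisor.degree D := by
  classical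
  obtain ⟨n, h, hcard, hind⟩ := exists_adapted_family hF' (R.red u)
  choose hl hhl using fun i => R.red_surjective (h i)
  obtain ⟨B, hB0, hBdeg⟩ := hF.exists_effective_degree (d := 2 * (g : ℤ)) (by omega)
  set D₀ : Divisor K F := ∑ i, hF.poleDiv (hl i : F) + B with hD₀
  have hsum0 : (0 : Divisor K F) ≤ ∑ i, hF.poleDiv (hl i : F) :=
    Finset.sum_nonneg fun i _ => hF.poleDiv_nonneg _
  have hD₀deg : 2 * (g : ℤ) ≤ Divisor.degree D₀ := by
    rw [hD₀, map_add, hBdeg]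
    have := hF.degree_nonneg hsum0
    omega
  have hd0 := hF.degree_nonneg hD
  set m : ℕ := (Divisor.degree D₀).toNat + 1 with hm
  have hlin : LinearIndependent K
      fun p : Fin (m + 1) × Fin n => (((u ^ (p.1 : ℕ) * hl p.2 : R.O)) : F) :=
    R.linearIndependent_lift (by simpa [hhl] using hind m)
  have hmem : ∀ p : Fin (m + 1) × Fin n,
      (((u ^ (p.1 : ℕ) * hl p.2 : R.O)) : F) ∈ riemannRochSpace (m • D + D₀) := by
    intro p
    push_cast
    refine RRCurve.mul_mem_space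
      (RRCurve.space_mono (nsmul_le_nsmul_left hD (Nat.lt_succ_iff.mp p.1.2))
        (RRCurve.pow_mem_space hu _))
      (RRCurve.space_mono ?_ (hF.mem_space_poleDiv _))
    exact le_add_of_le_of_nonneg
      (Finset.single_le_sum (f := fun i => hF.poleDiv (hl i : F))
        (fun i _ => hF.poleDiv_nonneg _) (Finset.mem_univ p.2)) hB0
  haveI := hF.finiteDimensional (m • D + D₀)
  have hle := Submodule.finrank_mono (Submodule.span_le.mpr (Set.range_subset_iff.mpr hmem))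
  rw [finrank_span_eq_card hlin, Fintype.card_prod, Fintype.card_fin, Fintype.card_fin] at hle
  have hle' : (((m + 1) * n : ℕ) : ℤ)
      ≤ (Module.finrank K (riemannRochSpace (m • D + D₀)) : ℤ) := by exact_mod_cast hle
  rw [hF.finrank_eq (m • D + D₀) (by
    rw [map_add, map_nsmul, nsmul_eq_mul]; nlinarith), map_add, map_nsmul, nsmul_eq_mul,
    Nat.cast_mul, hcard] at hle'
  have hm' : (m : ℤ) = Divisor.degree D₀ + 1 := by rw [hm]; push_cast; omega
  push_cast at hle'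
  by_contra hcon
  push Not at hcon
  nlinarith

end ConstRed

end FLTA.PlaceRed

end
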