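import Fermat.Agent.PlaceRed.Defs
import Fermat.Agent.Curves.BasicOrd

/-!
# Elementary consequences of Riemann-Roch in large degree
-/

set_option autoImplicit false

noncomputable section

open AlgebraicCurve

namespace FLTA.PlaceRed

variable {K F : Type*} [Field K] [Field F] [Algebra K F] {g : ℕ}

namespace RRCurve

theorem degree_eq_sum (h : RRCurve K F g) (D : Divisor K F) :
    Divisor.degree D = D.sum fun _ n => n := by
  induction D using Finsupp.induction with
  | zero => simp
  | single_add P n D hP hn ih =>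
    rw [map_add, ih, Divisor.degree_single, h.deg_eq_one, Nat.cast_one, mul_one,
      Finsupp.sum_add_index' (fun _ => rfl) (fun _ _ _ => rfl), Finsupp.sum_single_index rfl]

theorem degree_single_eq (h : RRCurve K F g) (P : Place K F) (n : ℤ) :
    Divisor.degree (Finsupp.single P n) = n := by
  rw [Divisor.degree_single, h.deg_eq_one, Nat.cast_one, mul_one]

theorem degree_nonneg (h : RRCurve K F g) {D : Divisor K F} (hD : 0 ≤ D) :
    0 ≤ Divisor.degree D := by
  rw [h.degree_eq_sum]
  exact Finset.sum_nonneg fun P _ => Finsupp.le_def.mp hD P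

theorem degree_mono (h : RRCurve K F g) {D E : Divisor K F} (hDE : D ≤ E) :
    Divisor.degree D ≤ Divisor.degree E := by
  have := h.degree_nonneg (sub_nonneg.mpr hDE)
  rwa [map_sub, sub_nonneg] at this

theorem eq_of_le_of_degree_le (h : RRCurve K F g) {D E : Divisor K F} (hDE : D ≤ E)
    (hdeg : Divisor.degree E ≤ Divisor.degree D) : D = E := by
  have hz : Divisor.degree (E - D) = 0 :=
    le_antisymm (by rw [map_sub]; omega) (h.degree_nonneg (sub_nonneg.mpr hDE))
  rw [h.degree_eq_sum] at hz
  have hnn : ∀ P ∈ (E - D).support, 0 ≤ (E - D) P :=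
    fun P _ => Finsupp.le_def.mp (sub_nonneg.mpr hDE) P
  have hall := (Finset.sum_eq_zero_iff_of_nonneg hnn).mp hz
  ext P
  have hP : (E - D) P = 0 := by
    by_contra hne
    exact hne (hall P (Finsupp.mem_support_iff.mpr hne))
  rw [Finsupp.sub_apply, sub_eq_zero] at hP
  exact hP.symm

theorem exists_eq_single (h : RRCurve K F g) {D : Divisor K F} (hD : 0 ≤ D)
    (hdeg : Divisor.degree D = 1) : ∃ P, D = Finsupp.single P 1 := by
  classical
  obtain ⟨P, hP⟩ : ∃ P, D P ≠ 0 := by
    by_contra hcon
    push Not at hcon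
    rw [show D = 0 from Finsupp.ext hcon, map_zero] at hdeg
    exact zero_ne_one hdeg
  have hP0 : 0 ≤ D P := Finsupp.le_def.mp hD P
  refine ⟨P, (h.eq_of_le_of_degree_le (Finsupp.le_def.mpr fun Q => ?_) ?_).symm⟩
  · rcases eq_or_ne P Q with rfl | hne
    · rw [Finsupp.single_eq_same]; omega
    · rw [Finsupp.single_eq_of_ne (Ne.symm hne)]; exact Finsupp.le_def.mp hD Q
  · rw [h.degree_single_eq, hdeg]

theorem mem_iff {D : Divisor K F} {f : F} (hf : f ≠ 0) :
    f ∈ riemannRochSpace D ↔ ∀ P : Place K F, -D P ≤ P.ord f := by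
  simp [mem_riemannRochSpace_iff, hf]

theorem space_mono {D E : Divisor K F} (hDE : D ≤ E) :
    riemannRochSpace D ≤ riemannRochSpace E :=
  fun _ hf v => (hf v).trans (WithZero.exp_le_exp.mpr (Finsupp.le_def.mp hDE v))

theorem mul_mem_space {D E : Divisor K F} {f f' : F} (hf : f ∈ riemannRochSpace D)
    (hf' : f' ∈ riemannRochSpace E) : f * f' ∈ riemannRochSpace (D + E) := by
  intro v
  rw [map_mul, Finsupp.add_apply, WithZero.exp_add]
  exact mul_le_mul' (hf v) (hf' v)

theorem pow_mem_space {D : Divisor K F} {f : F} (hf : f ∈ riemannRochSpace D) (n : ℕ) :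
    f ^ n ∈ riemannRochSpace (n • D) := by
  induction n with
  | zero =>
    intro v
    simp
  | succ n ih =>
    rw [pow_succ, succ_nsmul]
    exact mul_mem_space ih hf

/-- Base point freeness. -/
theorem exists_ord_eq_neg (h : RRCurve K F g) {D : Divisor K F}
    (hD : 2 * (g : ℤ) ≤ Divisor.degree D) (P : Place K F) :
    ∃ f : F, f ≠ 0 ∧ f ∈ riemannRochSpace D ∧ P.ord f = -D P := by
  by_contra hcon
  push Not at hcon
  have hle : riemannRochSpace D ≤ riemannRochSpace (D - Finsupp.single P 1) := by
    intro f hf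
    rcases eq_or_ne f 0 with rfl | hf0
    · exact Submodule.zero_mem _
    have h1 := (mem_iff hf0).mp hf
    refine (mem_iff hf0).mpr fun Q => ?_
    rcases eq_or_ne P Q with rfl | hne
    · have := h1 P
      have := hcon f hf0 hf
      simp only [Finsupp.sub_apply, Finsupp.single_eq_same]
      omega
    · simpa [Finsupp.single_eq_of_ne (Ne.symm hne)] using h1 Q
  have e1 := h.finrank_eq D (by omega)
  have e2 := h.finrank_eq (D - Finsupp.single P 1) (by
    rw [map_sub, h.degree_single_eq]; omega)
  rw [map_sub, h.degree_single_eq] at e2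
  haveI := h.finiteDimensional (D - Finsupp.single P 1)
  have := Submodule.finrank_mono hle
  omega

/-- A base point free space determines its divisor. -/
theorem le_of_space_le (h : RRCurve K F g) {D E : Divisor K F}
    (hD : 2 * (g : ℤ) ≤ Divisor.degree D) (hle : riemannRochSpace D ≤ riemannRochSpace E) :
    D ≤ E := by
  refine Finsupp.le_def.mpr fun P => ?_
  obtain ⟨f, hf0, hfD, hord⟩ := h.exists_ord_eq_neg hD P
  have := (mem_iff hf0).mp (hle hfD) P
  omega

theorem eq_of_space_eq (h : RRCurve K F g) {D E : Divisor K F}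
    (hD : 2 * (g : ℤ) ≤ Divisor.degree D) (hE : 2 * (g : ℤ) ≤ Divisor.degree E)
    (heq : riemannRochSpace D = riemannRochSpace E) : D = E :=
  le_antisymm (h.le_of_space_le hD heq.le) (h.le_of_space_le hE heq.ge)

/-- The divisor of a function. -/
def divisorOf (h : RRCurve K F g) (f : F) : Divisor K F :=
  open Classical in
  if hf : f = 0 then 0 else (h.principal.exists_divisor f hf).choose

theorem divisorOf_apply (h : RRCurve K F g) (f : F) (P : Place K F) :
    h.divisorOf f P = P.ord f := by
  unfold divisorOf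
  split_ifs with hf
  · simp [hf]
  · exact (h.principal.exists_divisor f hf).choose_spec.1 P

theorem degree_divisorOf (h : RRCurve K F g) (f : F) : Divisor.degree (h.divisorOf f) = 0 := by
  unfold divisorOf
  split_ifs with hf
  · simp
  · exact (h.principal.exists_divisor f hf).choose_spec.2

/-- The divisor of poles of a function. -/
def poleDiv (h : RRCurve K F g) (f : F) : Divisor K F :=
  (h.divisorOf f).mapRange (fun n => max (-n) 0) (by simp)

theorem poleDiv_apply (h : RRCurve K F g) (f : F) (P : Place K F) :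
    h.poleDiv f P = max (-P.ord f) 0 := by
  simp [poleDiv, divisorOf_apply]

theorem poleDiv_nonneg (h : RRCurve K F g) (f : F) : 0 ≤ h.poleDiv f :=
  Finsupp.le_def.mpr fun P => by simp [poleDiv_apply]

theorem mem_space_poleDiv (h : RRCurve K F g) (f : F) :
    f ∈ riemannRochSpace (h.poleDiv f) :=
  mem_riemannRochSpace_iff.mpr fun P => Or.inr (by rw [poleDiv_apply]; omega)

theorem poleDiv_le (h : RRCurve K F g) {D : Divisor K F} (hD : 0 ≤ D) {f : F} (hf : f ≠ 0)
    (hfD : f ∈ riemannRochSpace D) : h.poleDiv f ≤ D :=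
  Finsupp.le_def.mpr fun P => by
    have h1 := (mem_iff hf).mp hfD P
    have h2 : 0 ≤ D P := Finsupp.le_def.mp hD P
    rw [poleDiv_apply]
    omega

/-- A nonconstant-like function: one with a pole has a zero. -/
theorem exists_ord_pos (h : RRCurve K F g) {f : F} {P : Place K F} (hP : P.ord f < 0) :
    ∃ Q : Place K F, 0 < Q.ord f := by
  by_contra hcon
  push Not at hcon
  have hle : h.divisorOf f ≤ 0 :=
    Finsupp.le_def.mpr fun Q => by simpa [divisorOf_apply] using hcon Q
  have := h.eq_of_le_of_degree_le hle (by rw [map_zero, h.degree_divisorOf])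
  have := congrArg (fun D : Divisor K F => D P) this
  simp [divisorOf_apply] at this
  omega

theorem exists_effective_degree (h : RRCurve K F g) {d : ℤ} (hd : 0 ≤ d) :
    ∃ B : Divisor K F, 0 ≤ B ∧ Divisor.degree B = d := by
  obtain ⟨P⟩ := h.nonempty
  exact ⟨Finsupp.single P d, Finsupp.single_nonneg.mpr hd, h.degree_single_eq P d⟩

end RRCurve

/-- Degree is unchanged by a map of places when all places have degree one. -/
theorem degree_mapDomain_eq {K' F' : Type*} [Field K'] [Field F'] [Algebra K' F']
    (hF : RRCurve K F g) (hF' : RRCurve K' F' g) (r : Place K F → Place K' F')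
    (D : Divisor K F) : Divisor.degree (Finsupp.mapDomain r D) = Divisor.degree D := by
  induction D using Finsupp.induction with
  | zero => simp
  | single_add P n D _ _ ih =>
    rw [Finsupp.mapDomain_add, map_add, map_add, ih, Finsupp.mapDomain_single,
      hF.degree_single_eq, hF'.degree_single_eq]

theorem mapDomain_nonneg {α β : Type*} (r : α → β) {D : α →₀ ℤ} (hD : 0 ≤ D) :
    0 ≤ Finsupp.mapDomain r D := by
  classical
  refine Finsupp.le_def.mpr fun b => ?_
  rw [Finsupp.mapDomain, Finsupp.sum_apply, Finsupp.zero_apply]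
  refine Finset.sum_nonneg fun a _ => ?_
  dsimp only
  rw [Finsupp.single_apply]
  split_ifs
  · exact Finsupp.le_def.mp hD a
  · rfl

theorem mapDomain_le_mapDomain {α β : Type*} (r : α → β) {D E : α →₀ ℤ} (h : D ≤ E) :
    Finsupp.mapDomain r D ≤ Finsupp.mapDomain r E := by
  have := mapDomain_nonneg r (sub_nonneg.mpr h)
  rwa [Finsupp.mapDomain_sub, sub_nonneg] at this

end FLTA.PlaceRed

end
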