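import Mathlib
import Fermat.Prelude.Def_ModularCurve_LaurentCoeff

/-!
# Gauss norm on Laurent series whose coefficients span a finitely generated group

Let `A` be a valuation ring of a field `L`. If every coefficient of each element of a finite
dimensional space `W` of Laurent series lies in some finitely generated subgroup of `L`, then `W`
has a basis of series with coefficients in `A` whose reductions are linearly independent.
-/

set_option autoImplicit false

noncomputable section

open ModularCurve

namespace FLTA.PlaceRed

section ZFinite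

variable {L : Type*} [Field L]

/-- All coefficients lie in a finitely generated subgroup. -/
def IsZFinite (x : LaurentSeries L) : Prop :=
  ∃ M : Submodule ℤ L, M.FG ∧ ∀ e, x.coeff e ∈ M

theorem coeff_smul_eq_mul (c : L) (x : LaurentSeries L) (e : ℤ) :
    (c • x).coeff e = c * x.coeff e := by
  simp

theorem algebraMap_mul_eq_smul (c : L) (x : LaurentSeries L) :
    algebraMap L (LaurentSeries L) c * x = c • x := by
  rw [algebraMap_laurentSeries_eq_single, HahnSeries.single_zero_mul_eq_smul]

theorem isZFinite_algebraMap (c : L) : IsZFinite (algebraMap L (LaurentSeries L) c) := by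
  classical
  refine ⟨Submodule.span ℤ {c}, Submodule.fg_span_singleton c, fun e => ?_⟩
  rw [algebraMap_laurentSeries_eq_single, HahnSeries.coeff_single]
  split_ifs with h
  · exact Submodule.mem_span_singleton_self c
  · exact zero_mem _

theorem IsZFinite.add {x y : LaurentSeries L} (hx : IsZFinite x) (hy : IsZFinite y) :
    IsZFinite (x + y) := by
  obtain ⟨M, hM, hx⟩ := hx
  obtain ⟨M', hM', hy⟩ := hy
  refine ⟨M ⊔ M', hM.sup hM', fun e => ?_⟩
  rw [HahnSeries.coeff_add]
  exact add_mem (Submodule.mem_sup_left (hx e)) (Submodule.mem_sup_right (hy e))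

theorem IsZFinite.mul {x y : LaurentSeries L} (hx : IsZFinite x) (hy : IsZFinite y) :
    IsZFinite (x * y) := by
  obtain ⟨M, hM, hx⟩ := hx
  obtain ⟨M', hM', hy⟩ := hy
  refine ⟨M * M', hM.mul hM', fun e => ?_⟩
  rw [HahnSeries.coeff_mul]
  exact sum_mem fun p _ => Submodule.mul_mem_mul (hx p.1) (hy p.2)

/-- Series with coefficients in a finitely generated group, as a subalgebra. -/
def zFiniteSubalgebra (L : Type*) [Field L] : Subalgebra L (LaurentSeries L) where
  carrier := {x | IsZFinite x}
  mul_mem' hx hy := hx.mul hy
  one_mem' := by simpa using isZFinite_algebraMap (1 : L)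
  add_mem' hx hy := hx.add hy
  zero_mem' := by simpa using isZFinite_algebraMap (0 : L)
  algebraMap_mem' := isZFinite_algebraMap

theorem mem_zFiniteSubalgebra {x : LaurentSeries L} :
    x ∈ zFiniteSubalgebra L ↔ IsZFinite x :=
  Iff.rfl

/-- Series with integer coefficients. -/
theorem isZFinite_coeffMap_intCast (x : LaurentSeries ℤ) :
    IsZFinite (coeffMap (Int.castRingHom L) x) := by
  refine ⟨Submodule.span ℤ {1}, Submodule.fg_span_singleton 1, fun e => ?_⟩
  rw [coeffMap_coeff]
  exact Submodule.mem_span_singleton.mpr ⟨x.coeff e, by simp⟩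

end ZFinite

section Basis

variable {L : Type*} [Field L] (A : ValuationSubring L)

/-- A finite subset of a vector space over the fraction field of a valuation ring spans a free
`A`-module with a linearly independent basis taken from the set. -/
theorem exists_linearIndependent_subset_span {V : Type*} [AddCommGroup V] [Module L V]
    [Module A V] [IsScalarTower A L V] [DecidableEq V] (s : Finset V) :
    ∃ t : Finset V, t ⊆ s ∧ (s : Set V) ⊆ Submodule.span A (t : Set V) ∧
      LinearIndependent L (Subtype.val : t → V) := by
  classical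
  have hex : ∃ m : ℕ, ∃ t : Finset V, t.card = m ∧ t ⊆ s ∧
      (s : Set V) ⊆ Submodule.span A (t : Set V) :=
    ⟨s.card, s, rfl, subset_rfl, Submodule.subset_span⟩
  obtain ⟨t, htc, hts, hspan⟩ := Nat.find_spec hex
  refine ⟨t, hts, hspan, ?_⟩
  by_contra hdep
  rw [Fintype.not_linearIndependent_iff] at hdep
  obtain ⟨g, hg, i₀, hi₀⟩ := hdep
  obtain ⟨i, hi, hmax⟩ := Finset.exists_max_image (Finset.univ.filter fun i : t => g i ≠ 0)
    (fun i => A.valuation (g i)) ⟨i₀, by simp [hi₀]⟩
  rw [Finset.mem_filter] at hi
  have hcoef : ∀ j : t, g j / g i ∈ A := by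
    intro j
    by_cases hj : g j = 0
    · simp [hj]
    · rw [← A.valuation_le_one_iff, map_div₀]
      refine div_le_one_of_le₀ (hmax j (by simp [hj])) zero_le
  have hiv : (i : V) ∈ Submodule.span A ((t.erase (i : V)) : Set V) := by
    have hsum : ∑ j, (g j / g i) • (j : V) = 0 := by
      have : ∑ j, (g i)⁻¹ • (g j • (j : V)) = 0 := by rw [← Finset.smul_sum, hg, smul_zero]
      simpa [smul_smul, div_eq_inv_mul] using this
    rw [← Finset.add_sum_erase _ _ (Finset.mem_univ i), div_self hi.2, one_smul,
      add_eq_zero_iff_eq_neg] at hsum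
    have hgoal : -∑ x ∈ Finset.univ.erase i, (g x / g i) • (x : V) ∈
        Submodule.span A ((t.erase (i : V)) : Set V) := by
      refine neg_mem (sum_mem fun j hj => ?_)
      have hj' : (j : V) ∈ ((t.erase (i : V)) : Set V) := by
        simp [Subtype.coe_injective.ne (Finset.ne_of_mem_erase hj)]
      have : (g j / g i) • (j : V) = (⟨g j / g i, hcoef j⟩ : A) • (j : V) := by
        conv_rhs => rw [← IsScalarTower.algebraMap_smul L]
        rfl
      rw [this]
      exact Submodule.smul_mem _ _ (Submodule.subset_span hj')
    rwa [← hsum] at hgoal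
  have hle : (t : Set V) ⊆ Submodule.span A ((t.erase (i : V)) : Set V) := by
    intro x hx
    by_cases hxi : x = i
    · exact hxi ▸ hiv
    · exact Submodule.subset_span (by simp [Finset.mem_coe.mp hx, hxi])
  have := Nat.find_min hex (m := (t.erase (i : V)).card)
    (htc ▸ Finset.card_lt_card (Finset.erase_ssubset i.2))
  exact this ⟨_, rfl, (Finset.erase_subset _ _).trans hts,
    hspan.trans (Submodule.span_le.mpr hle)⟩

/-- A Laurent series with coefficients in `A`, read in `A((q))`. -/
def liftSeries (x : LaurentSeries L) (hx : ∀ e, x.coeff e ∈ A) : LaurentSeries A where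
  coeff e := ⟨x.coeff e, hx e⟩
  isPWO_support' := x.isPWO_support.mono fun e he h =>
    he (Subtype.ext (by simpa [Function.mem_support] using h))

@[simp]
theorem coeffMap_liftSeries (x : LaurentSeries L) (hx : ∀ e, x.coeff e ∈ A) :
    coeffMap A.subtype (liftSeries A x hx) = x := by
  ext e
  rfl

theorem coeffMap_subtype_injective : Function.Injective (coeffMap A.subtype) := by
  intro x y h
  ext e
  exact congrArg (fun z => HahnSeries.coeff z e) h

variable {k : Type*} [Field k] (π : A →+* k)

/-- **Orthogonal bases for the Gauss norm.** -/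
theorem exists_integral_basis (hπ : Function.Surjective π) (W : Submodule L (LaurentSeries L))
    [FiniteDimensional L W] (hW : ∀ x ∈ W, IsZFinite x) :
    ∃ (n : ℕ) (y : Fin n → LaurentSeries A),
      Submodule.span L (Set.range fun i => coeffMap A.subtype (y i)) = W ∧
        LinearIndependent k fun i => coeffMap π (y i) := by
  classical
  let w := Module.finBasis L W
  set d := Module.finrank L W
  choose M hMfg hM using fun i => hW (w i : LaurentSeries L) (w i).2
  let v : ℤ → Fin d → L := fun e i => (w i : LaurentSeries L).coeff e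
  let Mp : Submodule ℤ (Fin d → L) := Submodule.pi Set.univ M
  have hMp : Mp.FG := Submodule.fg_pi hMfg
  have hnoeth : IsNoetherian ℤ Mp := isNoetherian_of_fg_of_noetherian _ hMp
  have hsp : Submodule.span ℤ (Set.range v) ≤ Mp :=
    Submodule.span_le.mpr (by rintro _ ⟨e, rfl⟩ i _; exact hM i e)
  have hfg : (Submodule.span ℤ (Set.range v)).FG := by
    have := isNoetherian_of_le hsp
    exact Module.Finite.iff_fg.mp inferInstance
  obtain ⟨s, hs, hsspan⟩ := (Submodule.fg_span_iff_fg_span_finset_subset _).mp hfg
  obtain ⟨t, hts, hst, hli⟩ := exists_linearIndependent_subset_span A s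
  have hvt : ∀ e, v e ∈ Submodule.span A (t : Set (Fin d → L)) := by
    intro e
    have h1 : v e ∈ Submodule.span ℤ (s : Set (Fin d → L)) :=
      hsspan ▸ Submodule.subset_span ⟨e, rfl⟩
    have h2 : v e ∈ Submodule.span A (s : Set (Fin d → L)) :=
      Submodule.span_le_restrictScalars ℤ A _ h1
    exact Submodule.span_le.mpr hst h2
  have htv : ∀ r ∈ t, r ∈ Set.range v := fun r hr => hs (hts hr)
  let β : Fin t.card → (Fin d → L) := fun r => (t.equivFin.symm r : Fin d → L)
  have hβ : LinearIndependent L β := hli.comp _ t.equivFin.symm.injective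
  -- dual functionals
  obtain ⟨P, hP⟩ := LinearMap.exists_leftInverse_of_injective
    (Fintype.linearCombination L β) (LinearMap.ker_eq_bot.mpr hβ.fintypeLinearCombination_injective)
  have hPβ : ∀ r, P (β r) = Pi.single r 1 := by
    intro r
    have := LinearMap.congr_fun hP (Pi.single r 1)
    simpa [Fintype.linearCombination_apply, Pi.single_apply] using this
  have hPA : ∀ x ∈ Submodule.span A (t : Set (Fin d → L)), ∀ r, P x r ∈ A := by
    intro x hx
    induction hx using Submodule.span_induction with
    | mem x hx =>
      intro r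
      obtain ⟨r', rfl⟩ : ∃ r', β r' = x :=
        ⟨t.equivFin ⟨x, hx⟩, by simp [β]⟩
      rw [hPβ, Pi.single_apply]
      split_ifs <;> simp [A.one_mem, A.zero_mem]
    | zero => intro r; simp [A.zero_mem]
    | add x y _ _ hx hy => intro r; rw [map_add]; exact A.add_mem _ _ (hx r) (hy r)
    | smul a x _ hx =>
      intro r
      rw [← IsScalarTower.algebraMap_smul L a x, map_smul]
      exact A.mul_mem _ _ a.2 (hx r)
  let z : Fin t.card → LaurentSeries L := fun r =>
    ∑ i, P (Pi.single i 1) r • (w i : LaurentSeries L)
  have hzcoeff : ∀ r e, (z r).coeff e = P (v e) r := by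
    intro r e
    have hv : v e = ∑ i, v e i • (Pi.single i 1 : Fin d → L) := by
      rw [← pi_eq_sum_univ' (v e)]
    rw [HahnSeries.coeff_sum, hv, map_sum, Finset.sum_apply]
    refine Finset.sum_congr rfl fun i _ => ?_
    rw [coeff_smul_eq_mul, map_smul, Pi.smul_apply, smul_eq_mul, mul_comm]
  let y : Fin t.card → LaurentSeries A := fun r =>
    liftSeries A (z r) fun e => hzcoeff r e ▸ hPA _ (hvt e) r
  have hyz : ∀ r, coeffMap A.subtype (y r) = z r := fun r => coeffMap_liftSeries A _ _
  refine ⟨t.card, y, le_antisymm ?_ ?_, ?_⟩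
  · rw [Submodule.span_le]
    rintro _ ⟨r, rfl⟩
    simp only [hyz]
    exact sum_mem fun i _ => W.smul_mem _ (w i).2
  · intro x hx
    have hwi : ∀ i, (w i : LaurentSeries L) ∈ Submodule.span L (Set.range z) := by
      intro i
      have : (w i : LaurentSeries L) = ∑ r, β r i • z r := by
        ext e
        rw [HahnSeries.coeff_sum]
        simp only [coeff_smul_eq_mul, hzcoeff]
        have hin : v e ∈ LinearMap.range (Fintype.linearCombination L β) := by
          rw [Fintype.range_linearCombination]
          refine Submodule.span_le_restrictScalars A L _ (Submodule.span_le.mpr ?_ (hvt e))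
          intro r hr
          exact Submodule.subset_span ⟨t.equivFin ⟨r, hr⟩, by simp [β]⟩
        obtain ⟨c, hc⟩ := hin
        have hPc : P (v e) = c := hc ▸ LinearMap.congr_fun hP c
        show v e i = _
        rw [hPc, ← hc, Fintype.linearCombination_apply, Finset.sum_apply]
        exact Finset.sum_congr rfl fun r _ => by rw [Pi.smul_apply, smul_eq_mul, mul_comm]
      rw [this]
      exact sum_mem fun r _ => Submodule.smul_mem _ _ (Submodule.subset_span ⟨r, rfl⟩)
    have hxw : x = ∑ i, w.repr ⟨x, hx⟩ i • (w i : LaurentSeries L) := by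
      have h := congrArg (Subtype.val : W → LaurentSeries L) (w.sum_repr ⟨x, hx⟩)
      rw [AddSubmonoidClass.coe_finsetSum] at h
      exact h.symm
    simp only [hyz]
    rw [hxw]
    exact sum_mem fun i _ => Submodule.smul_mem _ _ (hwi i)
  · rw [Fintype.linearIndependent_iff]
    intro cb hcb r₀
    choose c hc using fun r => hπ (cb r)
    -- an `A`-linear functional killing every coefficient vector mod `m`
    have key : ∀ x ∈ Submodule.span A (t : Set (Fin d → L)),
        ∀ h : ∑ r, (c r : L) * P x r ∈ A, π ⟨_, h⟩ = 0 := by
      have hgen : ∀ e, ∀ h : ∑ r, (c r : L) * P (v e) r ∈ A, π ⟨_, h⟩ = 0 := by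
        intro e h
        have h0 := congrArg (fun z => HahnSeries.coeff z e) hcb
        simp only [HahnSeries.coeff_sum, coeff_smul_eq_mul, coeffMap_coeff,
          HahnSeries.coeff_zero] at h0
        rw [← h0]
        have : (⟨_, h⟩ : A) = ∑ r, c r * (y r).coeff e := by
          apply Subtype.ext
          push_cast
          refine Finset.sum_congr rfl fun r _ => ?_
          rw [← hzcoeff]
          rfl
        rw [this, map_sum]
        simp [hc]
      intro x hx
      induction hx using Submodule.span_induction with
      | mem x hx =>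
        obtain ⟨e, rfl⟩ := htv x hx
        exact hgen e
      | zero => intro h; rw [← map_zero π]; congr 1; apply Subtype.ext; simp
      | add x y' hx hy' ihx ihy =>
        intro h
        have hA : ∀ x ∈ Submodule.span A (t : Set (Fin d → L)), ∑ r, (c r : L) * P x r ∈ A :=
          fun x hx => sum_mem fun r _ => A.mul_mem _ _ (c r).2 (hPA x hx r)
        rw [show (⟨_, h⟩ : A) = ⟨_, hA x hx⟩ + ⟨_, hA y' hy'⟩ from Subtype.ext (by
          push_cast
          simp [mul_add, Finset.sum_add_distrib]), map_add, ihx, ihy, add_zero]
      | smul a x hx ihx =>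
        intro h
        have hA : ∑ r, (c r : L) * P x r ∈ A :=
          sum_mem fun r _ => A.mul_mem _ _ (c r).2 (hPA x hx r)
        rw [show (⟨_, h⟩ : A) = a * ⟨_, hA⟩ from Subtype.ext (by
          push_cast
          rw [← IsScalarTower.algebraMap_smul L a x, map_smul, Finset.mul_sum]
          refine Finset.sum_congr rfl fun r _ => ?_
          simp [Pi.smul_apply]
          ring), map_mul, ihx, mul_zero]
    have hmem : β r₀ ∈ Submodule.span A (t : Set (Fin d → L)) :=
      Submodule.subset_span (by simp [β])
    have hval : ∑ r, (c r : L) * P (β r₀) r = c r₀ := by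
      rw [hPβ]; simp [Pi.single_apply]
    have h := key _ hmem (hval ▸ (c r₀).2)
    rw [← hc r₀, ← h]
    congr 1
    exact Subtype.ext hval.symm

/-- Normalisation: a nonzero series is a scalar times an integral series with nonzero reduction. -/
theorem exists_smul_eq_coeffMap (hπ : Function.Surjective π) {x : LaurentSeries L}
    (hx : IsZFinite x) (hx0 : x ≠ 0) :
    ∃ (c : L) (y : LaurentSeries A), c ≠ 0 ∧ coeffMap π y ≠ 0 ∧
      coeffMap A.subtype y = algebraMap L (LaurentSeries L) c * x := by
  have hspan : ∀ z ∈ Submodule.span L {x}, IsZFinite z := by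
    intro z hz
    obtain ⟨c, rfl⟩ := Submodule.mem_span_singleton.mp hz
    rw [← algebraMap_mul_eq_smul]
    exact (isZFinite_algebraMap c).mul hx
  obtain ⟨n, y, hspan', hli⟩ := exists_integral_basis A π hπ (Submodule.span L {x}) hspan
  rcases n with _ | n
  · simp only [Set.range_eq_empty, Submodule.span_empty] at hspan'
    exact absurd (Submodule.span_singleton_eq_bot.mp hspan'.symm) hx0
  · have hy : coeffMap A.subtype (y 0) ∈ Submodule.span L {x} :=
      hspan' ▸ Submodule.subset_span ⟨0, rfl⟩
    obtain ⟨c, hc⟩ := Submodule.mem_span_singleton.mp hy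
    refine ⟨c, y 0, ?_, hli.ne_zero 0, by rw [algebraMap_mul_eq_smul, hc]⟩
    rintro rfl
    rw [zero_smul] at hc
    have h0 : y 0 = 0 := coeffMap_subtype_injective A (by rw [← hc, map_zero])
    exact hli.ne_zero 0 (by rw [h0, map_zero])

end Basis

end FLTA.PlaceRed

end
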