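import Fermat.Agent.PlaceRed.Defs
import Fermat.Agent.PlaceRed.GaussSeries

/-!
# The Gauss valuation ring of a field of Laurent series

For a field `F` of Laurent series over `L` generated by series with coefficients in finitely
generated groups, `gaussRing` is the ring of `y / z` with `y z` integral and `z` of nonzero
reduction; `gaussConstRed` packages it as a constant reduction.
-/

set_option autoImplicit false
set_option synthInstance.maxHeartbeats 400000

noncomputable section

open ModularCurve AlgebraicCurve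

namespace FLTA.PlaceRed

variable {L : Type*} [Field L] (A : ValuationSubring L) {k : Type*} [Field k] (π : A →+* k)
variable (F : IntermediateField L (LaurentSeries L))

/-- Every element of `F` is a fraction of `ZFinite` series in `F`. -/
def HasZFiniteFractions : Prop :=
  ∀ f ∈ F, ∃ a b : LaurentSeries L, a ∈ F ∧ b ∈ F ∧ IsZFinite a ∧ IsZFinite b ∧ b ≠ 0 ∧ f * b = a

/-- `y / z` is a representation of `f` by integral series, `z` with nonzero reduction. -/
structure GaussRep (f : F) (y z : LaurentSeries A) : Prop where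
  num_mem : coeffMap A.subtype y ∈ F
  den_mem : coeffMap A.subtype z ∈ F
  den_ne : coeffMap π z ≠ 0
  mul_eq : (f : LaurentSeries L) * coeffMap A.subtype z = coeffMap A.subtype y

variable {A π F}

theorem HasZFiniteFractions.common_den (hfrac : HasZFiniteFractions F) {n : ℕ} (f : Fin n → F) :
    ∃ b : LaurentSeries L, b ∈ F ∧ IsZFinite b ∧ b ≠ 0 ∧
      ∀ i, IsZFinite ((f i : LaurentSeries L) * b) := by
  classical
  choose a b ha hb haZ hbZ hb0 hab using fun i => hfrac (f i : LaurentSeries L) (f i).2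
  refine ⟨∏ i, b i, F.prod_mem fun i _ => hb i, ?_, Finset.prod_ne_zero_iff.mpr fun i _ => hb0 i,
    fun i => ?_⟩
  · exact mem_zFiniteSubalgebra.mp (Subalgebra.prod_mem _ fun i _ => hbZ i)
  · rw [← Finset.mul_prod_erase _ _ (Finset.mem_univ i), ← mul_assoc, hab i]
    exact (haZ i).mul (mem_zFiniteSubalgebra.mp (Subalgebra.prod_mem _ fun j _ => hbZ j))

theorem coeffMap_subtype_C (a : A) :
    coeffMap A.subtype (HahnSeries.C a) = algebraMap L (LaurentSeries L) (a : L) := by
  rw [HahnSeries.C_apply, coeffMap_single, algebraMap_laurentSeries_eq_single]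
  rfl

theorem coeffMap_π_C (a : A) :
    coeffMap π (HahnSeries.C a) = algebraMap k (LaurentSeries k) (π a) := by
  rw [HahnSeries.C_apply, coeffMap_single, algebraMap_laurentSeries_eq_single]

theorem coeffMap_π_eq_zero {y : LaurentSeries A} (h : coeffMap A.subtype y = 0) :
    coeffMap π y = 0 := by
  rw [coeffMap_subtype_injective A (h.trans (map_zero (coeffMap A.subtype)).symm), map_zero]

theorem GaussRep.den_ne' {f : F} {y z : LaurentSeries A} (h : GaussRep A π F f y z) :
    coeffMap A.subtype z ≠ 0 := fun h0 =>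
  h.den_ne (coeffMap_π_eq_zero h0)

theorem GaussRep.cross {f : F} {y z y' z' : LaurentSeries A} (h : GaussRep A π F f y z)
    (h' : GaussRep A π F f y' z') : y * z' = y' * z := by
  apply coeffMap_subtype_injective A
  rw [map_mul, map_mul, ← h.mul_eq, ← h'.mul_eq]
  ring

theorem GaussRep.zero : GaussRep A π F 0 0 1 :=
  ⟨by simp, by simp, by simp, by simp⟩

theorem GaussRep.of_integral (f : F) (y : LaurentSeries A)
    (hy : coeffMap A.subtype y = (f : LaurentSeries L)) : GaussRep A π F f y 1 :=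
  ⟨hy ▸ f.2, by simp, by simp, by simp [hy]⟩

theorem GaussRep.add {f g : F} {y z y' z' : LaurentSeries A} (h : GaussRep A π F f y z)
    (h' : GaussRep A π F g y' z') : GaussRep A π F (f + g) (y * z' + y' * z) (z * z') := by
  refine ⟨?_, ?_, ?_, ?_⟩
  · simp only [map_add, map_mul]
    exact F.add_mem (F.mul_mem h.num_mem h'.den_mem) (F.mul_mem h'.num_mem h.den_mem)
  · rw [map_mul]; exact F.mul_mem h.den_mem h'.den_mem
  · rw [map_mul]; exact mul_ne_zero h.den_ne h'.den_ne
  · simp only [map_add, map_mul, IntermediateField.coe_add, ← h.mul_eq, ← h'.mul_eq]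
    ring

theorem GaussRep.mul {f g : F} {y z y' z' : LaurentSeries A} (h : GaussRep A π F f y z)
    (h' : GaussRep A π F g y' z') : GaussRep A π F (f * g) (y * y') (z * z') := by
  refine ⟨?_, ?_, ?_, ?_⟩
  · rw [map_mul]; exact F.mul_mem h.num_mem h'.num_mem
  · rw [map_mul]; exact F.mul_mem h.den_mem h'.den_mem
  · rw [map_mul]; exact mul_ne_zero h.den_ne h'.den_ne
  · simp only [map_mul, IntermediateField.coe_mul, ← h.mul_eq, ← h'.mul_eq]
    ring

theorem GaussRep.neg {f : F} {y z : LaurentSeries A} (h : GaussRep A π F f y z) :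
    GaussRep A π F (-f) (-y) z :=
  ⟨by rw [map_neg]; exact F.neg_mem h.num_mem, h.den_mem, h.den_ne,
    by simp [map_neg, ← h.mul_eq]⟩

theorem GaussRep.inv {f : F} {y z : LaurentSeries A} (h : GaussRep A π F f y z)
    (hy : coeffMap π y ≠ 0) : GaussRep A π F f⁻¹ z y := by
  have hyne : coeffMap A.subtype y ≠ 0 := fun h0 =>
    hy (coeffMap_π_eq_zero h0)
  have hf : (f : LaurentSeries L) ≠ 0 := fun h0 => hyne (by rw [← h.mul_eq, h0, zero_mul])
  refine ⟨h.den_mem, h.num_mem, hy, ?_⟩
  rw [← h.mul_eq]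
  push_cast
  rw [← mul_assoc, inv_mul_cancel₀ hf, one_mul]

variable (hfrac : HasZFiniteFractions F) (hπ : Function.Surjective π)
include hfrac hπ

/-- Every nonzero element is a constant times a quotient of integral series of nonzero reduction. -/
theorem exists_scalar_mul_gaussRep {f : F} (hf : f ≠ 0) :
    ∃ (c : L) (g : F) (y z : LaurentSeries A), c ≠ 0 ∧ GaussRep A π F g y z ∧
      coeffMap π y ≠ 0 ∧ f = algebraMap L F c * g := by
  obtain ⟨a, b, ha, hb, haZ, hbZ, hb0, hab⟩ := hfrac f f.2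
  have hfL : (f : LaurentSeries L) ≠ 0 := fun h => hf (Subtype.ext h)
  have ha0 : a ≠ 0 := hab ▸ mul_ne_zero hfL hb0
  obtain ⟨c, y, hc, hy0, hy⟩ := exists_smul_eq_coeffMap A π hπ haZ ha0
  obtain ⟨d, z, hd, hz0, hz⟩ := exists_smul_eq_coeffMap A π hπ hbZ hb0
  refine ⟨d / c, algebraMap L F (c / d) * f, y, z, div_ne_zero hd hc, ⟨?_, ?_, hz0, ?_⟩, hy0, ?_⟩
  · rw [hy]; exact F.mul_mem (F.algebraMap_mem c) ha
  · rw [hz]; exact F.mul_mem (F.algebraMap_mem d) hb
  · have hcd : algebraMap L (LaurentSeries L) (c / d) * algebraMap L (LaurentSeries L) d =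
        algebraMap L (LaurentSeries L) c := by rw [← map_mul, div_mul_cancel₀ c hd]
    show algebraMap L (LaurentSeries L) (c / d) * (f : LaurentSeries L) * coeffMap A.subtype z = _
    rw [hz, hy, ← hab, ← hcd]
    ring
  · have : d / c * (c / d) = 1 := by field_simp
    rw [← mul_assoc, ← map_mul, this, map_one, one_mul]

omit hfrac hπ in
theorem GaussRep.scalar_mul {f : F} {y z : LaurentSeries A} (h : GaussRep A π F f y z) {c : L}
    (hc : c ∈ A) : GaussRep A π F (algebraMap L F c * f) (HahnSeries.C ⟨c, hc⟩ * y) z := by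
  refine ⟨?_, h.den_mem, h.den_ne, ?_⟩
  · rw [map_mul, coeffMap_subtype_C]; exact F.mul_mem (F.algebraMap_mem c) h.num_mem
  · rw [map_mul, coeffMap_subtype_C, ← h.mul_eq]
    show algebraMap L (LaurentSeries L) c * (f : LaurentSeries L) * _ = _
    ring

variable (A π F) in
/-- The Gauss valuation ring. -/
def gaussRing : ValuationSubring F where
  carrier := {f | ∃ y z, GaussRep A π F f y z}
  mul_mem' := fun ⟨_, _, h⟩ ⟨_, _, h'⟩ => ⟨_, _, h.mul h'⟩
  one_mem' := ⟨1, 1, GaussRep.of_integral 1 1 (by simp)⟩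
  add_mem' := fun ⟨_, _, h⟩ ⟨_, _, h'⟩ => ⟨_, _, h.add h'⟩
  zero_mem' := ⟨0, 1, GaussRep.zero⟩
  neg_mem' := fun ⟨_, _, h⟩ => ⟨_, _, h.neg⟩
  mem_or_inv_mem' := fun f => by
    rcases eq_or_ne f 0 with rfl | hf
    · exact Or.inl ⟨0, 1, GaussRep.zero⟩
    obtain ⟨c, g, y, z, hc, hg, hy, hfg⟩ := exists_scalar_mul_gaussRep hfrac hπ hf
    rcases A.mem_or_inv_mem c with hcA | hcA
    · exact Or.inl ⟨_, _, hfg ▸ hg.scalar_mul hcA⟩
    · refine Or.inr ⟨HahnSeries.C ⟨c⁻¹, hcA⟩ * z, y, ?_⟩
      have h := (hg.inv hy).scalar_mul hcA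
      rwa [map_inv₀, ← mul_inv, ← hfg] at h

theorem mem_gaussRing_iff {f : F} :
    f ∈ gaussRing A π F hfrac hπ ↔ ∃ y z, GaussRep A π F f y z := Iff.rfl

variable (A π F) in
/-- The residue as a series. -/
def gaussRedFun (f : gaussRing A π F hfrac hπ) : LaurentSeries k :=
  coeffMap π f.2.choose / coeffMap π f.2.choose_spec.choose

theorem gaussRedFun_eq (f : gaussRing A π F hfrac hπ) {y z : LaurentSeries A}
    (h : GaussRep A π F (f : F) y z) :
    gaussRedFun A π F hfrac hπ f = coeffMap π y / coeffMap π z := by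
  have h0 : GaussRep A π F (f : F) f.2.choose f.2.choose_spec.choose :=
    f.2.choose_spec.choose_spec
  rw [gaussRedFun, div_eq_div_iff h0.den_ne h.den_ne, ← map_mul, ← map_mul, h0.cross h]

variable (A π F) in
/-- The residue map. -/
def gaussRedHom : gaussRing A π F hfrac hπ →+* LaurentSeries k where
  toFun := gaussRedFun A π F hfrac hπ
  map_one' := by
    rw [gaussRedFun_eq hfrac hπ 1 (GaussRep.of_integral (1 : F) 1 (by simp))]
    simp
  map_zero' := by
    rw [gaussRedFun_eq hfrac hπ 0 GaussRep.zero]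
    simp
  map_mul' f g := by
    obtain ⟨y, z, h⟩ := f.2
    obtain ⟨y', z', h'⟩ := g.2
    rw [gaussRedFun_eq hfrac hπ (f * g) (h.mul h'), gaussRedFun_eq hfrac hπ f h,
      gaussRedFun_eq hfrac hπ g h', map_mul, map_mul, div_mul_div_comm]
  map_add' f g := by
    obtain ⟨y, z, h⟩ := f.2
    obtain ⟨y', z', h'⟩ := g.2
    rw [gaussRedFun_eq hfrac hπ (f + g) (h.add h'), gaussRedFun_eq hfrac hπ f h,
      gaussRedFun_eq hfrac hπ g h', div_add_div _ _ h.den_ne h'.den_ne]
    simp only [map_add, map_mul]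
    ring

theorem gaussRedHom_eq (f : gaussRing A π F hfrac hπ) {y z : LaurentSeries A}
    (h : GaussRep A π F (f : F) y z) :
    gaussRedHom A π F hfrac hπ f = coeffMap π y / coeffMap π z :=
  gaussRedFun_eq hfrac hπ f h

theorem coeffMap_mem_gaussRing (y : LaurentSeries A) (hy : coeffMap A.subtype y ∈ F) :
    (⟨_, hy⟩ : F) ∈ gaussRing A π F hfrac hπ :=
  ⟨y, 1, GaussRep.of_integral _ y rfl⟩

theorem gaussRedHom_coeffMap (y : LaurentSeries A) (hy : coeffMap A.subtype y ∈ F) :
    gaussRedHom A π F hfrac hπ ⟨⟨_, hy⟩, coeffMap_mem_gaussRing hfrac hπ y hy⟩ = coeffMap π y := by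
  rw [gaussRedHom_eq hfrac hπ _ (GaussRep.of_integral _ y rfl), map_one, div_one]

theorem algebraMap_mem_gaussRing (a : A) : algebraMap L F (a : L) ∈ gaussRing A π F hfrac hπ :=
  ⟨HahnSeries.C a, 1, GaussRep.of_integral _ _ (coeffMap_subtype_C a)⟩

theorem gaussRedHom_algebraMap (a : A) :
    gaussRedHom A π F hfrac hπ ⟨_, algebraMap_mem_gaussRing hfrac hπ a⟩ =
      algebraMap k (LaurentSeries k) (π a) := by
  rw [gaussRedHom_eq hfrac hπ _ (GaussRep.of_integral _ (HahnSeries.C a) (coeffMap_subtype_C a)),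
    map_one, div_one, coeffMap_π_C]

variable (A π F) in
/-- The residue field of the Gauss valuation, inside `k((q))`. -/
def gaussResidue : IntermediateField k (LaurentSeries k) :=
  (⟨(gaussRedHom A π F hfrac hπ).range.toSubsemiring, fun r => by
      obtain ⟨a, rfl⟩ := hπ r
      exact ⟨_, gaussRedHom_algebraMap hfrac hπ a⟩⟩ : Subalgebra k (LaurentSeries k)).toIntermediateField
    (fun x hx => by
      obtain ⟨f, rfl⟩ := hx
      obtain ⟨y, z, h⟩ := f.2
      rw [gaussRedHom_eq hfrac hπ f h]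
      by_cases hy : coeffMap π y = 0
      · exact ⟨0, by simp [hy]⟩
      · exact ⟨⟨(f : F)⁻¹, z, y, h.inv hy⟩,
          by rw [gaussRedHom_eq hfrac hπ _ (h.inv hy), inv_div]⟩)

theorem mem_gaussResidue_iff {x : LaurentSeries k} :
    x ∈ gaussResidue A π F hfrac hπ ↔ ∃ f, gaussRedHom A π F hfrac hπ f = x := Iff.rfl

theorem coeffMap_mem_gaussResidue (y : LaurentSeries A) (hy : coeffMap A.subtype y ∈ F) :
    coeffMap π y ∈ gaussResidue A π F hfrac hπ :=
  ⟨_, gaussRedHom_coeffMap hfrac hπ y hy⟩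

set_option maxHeartbeats 1000000 in
/-- Every finite dimensional subspace has a basis in the ring with independent residues. -/
theorem gauss_lattice (W : Submodule L F) [FiniteDimensional L W] :
    ∃ (n : ℕ) (b : Fin n → gaussRing A π F hfrac hπ),
      Submodule.span L (Set.range fun i => (b i : F)) = W ∧
        LinearIndependent k fun i => gaussRedHom A π F hfrac hπ (b i) := by
  classical
  let w := Module.finBasis L W
  obtain ⟨b₀, hb₀F, hb₀Z, hb₀0, hwb⟩ := hfrac.common_den fun i => (w i : F)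
  obtain ⟨c, z, hc, hz0, hz⟩ := exists_smul_eq_coeffMap A π hπ hb₀Z hb₀0
  set Z : LaurentSeries L := coeffMap A.subtype z with hZ
  have hZF : Z ∈ F := by rw [hz]; exact F.mul_mem (F.algebraMap_mem c) hb₀F
  have hZ0 : Z ≠ 0 := by
    rw [hz]; exact mul_ne_zero (by simpa using hc) hb₀0
  let u : Fin (Module.finrank L W) → LaurentSeries L := fun i => ((w i : F) : LaurentSeries L) * Z
  set W₀ : Submodule L (LaurentSeries L) := Submodule.span L (Set.range u)
  have : FiniteDimensional L W₀ := FiniteDimensional.span_of_finite L (Set.finite_range u)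
  have huZ : ∀ i, IsZFinite (u i) := fun i => by
    show IsZFinite (((w i : F) : LaurentSeries L) * Z)
    rw [hz, ← mul_assoc, mul_comm _ (algebraMap L (LaurentSeries L) c), mul_assoc]
    exact (isZFinite_algebraMap c).mul (hwb i)
  have hcomb : ∀ x ∈ W₀, IsZFinite x ∧ ∃ f ∈ W, x = ((f : F) : LaurentSeries L) * Z := by
    intro x hx
    induction hx using Submodule.span_induction with
    | mem x hx =>
      obtain ⟨i, rfl⟩ := hx
      exact ⟨huZ i, _, (w i).2, rfl⟩
    | zero => exact ⟨by simpa using isZFinite_algebraMap (0 : L), 0, W.zero_mem, by simp⟩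
    | add x y _ _ hx hy =>
      obtain ⟨hx, f, hf, hfx⟩ := hx
      obtain ⟨hy, g, hg, hgy⟩ := hy
      exact ⟨hx.add hy, f + g, W.add_mem hf hg, by rw [hfx, hgy]; push_cast; ring⟩
    | smul r x _ hx =>
      obtain ⟨hx, f, hf, hfx⟩ := hx
      rw [← algebraMap_mul_eq_smul]
      refine ⟨(isZFinite_algebraMap r).mul hx, r • f, W.smul_mem r hf, ?_⟩
      rw [hfx, Algebra.smul_def, ← mul_assoc]
      rfl
  obtain ⟨n, y, hspan, hli⟩ := exists_integral_basis A π hπ W₀ fun x hx => (hcomb x hx).1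
  have hyW : ∀ i, ∃ f : F, f ∈ W ∧ GaussRep A π F f (y i) z := by
    intro i
    obtain ⟨-, f, hf, hfy⟩ := hcomb (coeffMap A.subtype (y i))
      (hspan ▸ Submodule.subset_span (Set.mem_range_self i))
    refine ⟨f, hf, ⟨?_, hZF, hz0, hfy.symm⟩⟩
    rw [hfy]
    exact F.mul_mem f.2 hZF
  choose f hfW hfrep using hyW
  refine ⟨n, fun i => (⟨f i, (mem_gaussRing_iff hfrac hπ).mpr ⟨y i, z, hfrep i⟩⟩ : gaussRing A π F hfrac hπ),
    le_antisymm ?_ ?_, ?_⟩
  · exact Submodule.span_le.mpr (by rintro _ ⟨i, rfl⟩; exact hfW i)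
  · have hWspan : W = Submodule.span L (Set.range fun i => (w i : F)) := by
      rw [Set.range_comp' (fun v : W => (v : F)) w, ← Submodule.coe_subtype, ← Submodule.map_span,
        w.span_eq, Submodule.map_top, Submodule.range_subtype]
    rw [hWspan, Submodule.span_le]
    rintro _ ⟨i, rfl⟩
    have hu : u i ∈ W₀ := Submodule.subset_span ⟨i, rfl⟩
    rw [← hspan, Submodule.mem_span_range_iff_exists_fun] at hu
    obtain ⟨r, hr⟩ := hu
    rw [SetLike.mem_coe, Submodule.mem_span_range_iff_exists_fun]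
    refine ⟨r, Subtype.ext (mul_right_cancel₀ hZ0 ?_)⟩
    show _ = u i
    rw [← hr, AddSubmonoidClass.coe_finsetSum, Finset.sum_mul]
    refine Finset.sum_congr rfl fun j _ => ?_
    rw [← algebraMap_mul_eq_smul, ← (hfrep j).mul_eq, ← mul_assoc, Algebra.smul_def,
      IntermediateField.coe_mul]
    rfl
  · rw [Fintype.linearIndependent_iff] at hli ⊢
    intro g hg i
    refine hli g ?_ i
    have hred : ∀ i, gaussRedHom A π F hfrac hπ
          (⟨f i, (mem_gaussRing_iff hfrac hπ).mpr ⟨y i, z, hfrep i⟩⟩ : gaussRing A π F hfrac hπ) * coeffMap π z =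
        coeffMap π (y i) := fun i => by
      rw [gaussRedHom_eq hfrac hπ _ (hfrep i), div_mul_cancel₀ _ hz0]
    have h := congrArg (fun s => s * coeffMap π z) hg
    simp only [Finset.sum_mul, zero_mul] at h
    rw [← h]
    refine Finset.sum_congr rfl fun j _ => ?_
    rw [← algebraMap_mul_eq_smul, ← hred j, ← mul_assoc, algebraMap_mul_eq_smul]

end FLTA.PlaceRed

end
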