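import Fermat.Prelude.Def_ModularCurve_X0ModL
import Mathlib.LinearAlgebra.Basis.VectorSpace
import Mathlib.Algebra.CharP.Algebra

/-! # Coefficient descent from a field to `𝔽_p` for spans of Laurent series -/

set_option autoImplicit false

noncomputable section

open ModularCurve HahnSeries

namespace FLTA.PlaceRed

variable {p : ℕ} [Fact p.Prime] {k : Type*} [Field k] [Algebra (ZMod p) k]

/-- Coefficientwise coordinate of a Laurent series with respect to a `𝔽_p`-linear functional. -/
def coordSeries (φ : k →ₗ[ZMod p] ZMod p) (x : LaurentSeries k) : LaurentSeries (ZMod p) where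
  coeff n := φ (x.coeff n)
  isPWO_support' := x.isPWO_support.mono fun n hn => by
    simp only [Function.mem_support, HahnSeries.mem_support] at hn ⊢
    intro h
    exact hn (by rw [h, map_zero])

@[simp]
theorem coordSeries_coeff (φ : k →ₗ[ZMod p] ZMod p) (x : LaurentSeries k) (n : ℤ) :
    (coordSeries φ x).coeff n = φ (x.coeff n) := rfl

theorem coordSeries_add (φ : k →ₗ[ZMod p] ZMod p) (x y : LaurentSeries k) :
    coordSeries φ (x + y) = coordSeries φ x + coordSeries φ y := by
  ext n; simp

theorem coordSeries_zero (φ : k →ₗ[ZMod p] ZMod p) : coordSeries φ 0 = 0 := by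
  ext n; simp

theorem coordSeries_smul_coeffMap (φ : k →ₗ[ZMod p] ZMod p) (c : k)
    (u : LaurentSeries (ZMod p)) :
    coordSeries φ (c • coeffMap (algebraMap (ZMod p) k) u) = φ c • u := by
  ext n
  simp only [coordSeries_coeff, HahnSeries.coeff_smul, coeffMap_coeff, smul_eq_mul]
  rw [mul_comm, ← Algebra.smul_def, map_smul, smul_eq_mul, mul_comm]

theorem coordSeries_mem_of_mem_span (φ : k →ₗ[ZMod p] ZMod p)
    (U : Submodule (ZMod p) (LaurentSeries (ZMod p))) {x : LaurentSeries k}
    (hx : x ∈ Submodule.span k (coeffMap (algebraMap (ZMod p) k) '' (U : Set _))) :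
    coordSeries φ x ∈ U := by
  obtain ⟨s, c, u, hu, rfl⟩ : ∃ (n : ℕ) (c : Fin n → k) (u : Fin n → LaurentSeries (ZMod p)),
      (∀ i, u i ∈ U) ∧ x = ∑ i, c i • coeffMap (algebraMap (ZMod p) k) (u i) := by
    obtain ⟨n, c, v, hv⟩ := Submodule.mem_span_set'.mp hx
    choose u hu huv using fun i => (v i).2
    exact ⟨n, c, u, hu, by simp only [← hv, huv]⟩
  induction' (Finset.univ : Finset (Fin s)) using Finset.induction_on with i t hit ih
  · simp [coordSeries_zero]
  · rw [Finset.sum_insert hit, coordSeries_add, coordSeries_smul_coeffMap]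
    exact add_mem (U.smul_mem _ (hu i)) ih

/-- Intersections of `k`-spans of spaces of `𝔽_p`-series come from `𝔽_p`. -/
theorem mem_span_image_inf (U V : Submodule (ZMod p) (LaurentSeries (ZMod p))) {x : LaurentSeries k}
    (hU : x ∈ Submodule.span k (coeffMap (algebraMap (ZMod p) k) '' (U : Set _)))
    (hV : x ∈ Submodule.span k (coeffMap (algebraMap (ZMod p) k) '' (V : Set _))) :
    x ∈ Submodule.span k (coeffMap (algebraMap (ZMod p) k) '' ((U ⊓ V : Submodule _ _) : Set _)) := by
  classical
  let b := Module.Basis.ofVectorSpace (ZMod p) k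
  obtain ⟨n, c, v, hv⟩ := Submodule.mem_span_set'.mp hU
  choose u hu huv using fun i => (v i).2
  let S := Finset.univ.biUnion fun i => (b.repr (c i)).support
  have key : x = ∑ a ∈ S, b a • coeffMap (algebraMap (ZMod p) k) (coordSeries (b.coord a) x) := by
    ext m
    rw [HahnSeries.coeff_sum]
    simp only [HahnSeries.coeff_smul, coeffMap_coeff, coordSeries_coeff, smul_eq_mul,
      Module.Basis.coord_apply]
    have hsupp : (b.repr (x.coeff m)).support ⊆ S := by
      intro a ha
      rw [Finsupp.mem_support_iff] at ha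
      by_contra haS
      apply ha
      rw [← hv, HahnSeries.coeff_sum, map_sum, Finsupp.finsetSum_apply]
      refine Finset.sum_eq_zero fun i _ => ?_
      have h0 : b.repr (c i) a = 0 := by
        by_contra h0
        exact haS (Finset.mem_biUnion.mpr ⟨i, Finset.mem_univ _, Finsupp.mem_support_iff.mpr h0⟩)
      rw [← huv i, HahnSeries.coeff_smul, coeffMap_coeff, smul_eq_mul, mul_comm,
        ← Algebra.smul_def, map_smul, Finsupp.smul_apply, h0, smul_zero]
    conv_lhs => rw [← b.linearCombination_repr (x.coeff m)]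
    rw [Finsupp.linearCombination_apply, Finsupp.sum_of_support_subset _ hsupp _ (by simp)]
    refine Finset.sum_congr rfl fun a _ => ?_
    rw [Algebra.smul_def, mul_comm]
  rw [key]
  refine Submodule.sum_mem _ fun a _ => Submodule.smul_mem _ _ (Submodule.subset_span
    ⟨_, ⟨coordSeries_mem_of_mem_span _ U hU, coordSeries_mem_of_mem_span _ V hV⟩, rfl⟩)

end FLTA.PlaceRed

end
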