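import Fermat.Agent.PlaceRed.GenusPoles

/-!
# The degree of the polar divisor is the degree over `K(x)`

No separability is needed: only Riemann-Roch in large degree.
-/

set_option autoImplicit false

noncomputable section

open AlgebraicCurve Polynomial

namespace FLTA.PlaceRed

variable {K F : Type*} [Field K] [Field F] [Algebra K F]

/-- The elements `e i` are independent over `K[x]`. -/
def PolyIndep (K : Type*) {F ι : Type*} [Field K] [Field F] [Algebra K F] (x : F) (e : ι → F) :
    Prop :=
  ∀ (s : Finset ι) (p : ι → K[X]), ∑ i ∈ s, aeval x (p i) * e i = 0 → ∀ i ∈ s, p i = 0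

theorem aeval_ne_zero_of_transcendental {x : F} (hx : Transcendental K x) {p : K[X]}
    (hp : p ≠ 0) : aeval x p ≠ 0 :=
  fun h => hp ((transcendental_iff.mp hx) p h)

theorem polyIndep_of_linearIndependent {ι : Type*} {x : F} (hx : Transcendental K x) {e : ι → F}
    (h : LinearIndependent (IntermediateField.adjoin K ({x} : Set F)) e) : PolyIndep K x e := by
  intro s p hp i hi
  rw [linearIndependent_iff'] at h
  have hmem : ∀ j, aeval x (p j) ∈ IntermediateField.adjoin K ({x} : Set F) := fun j =>
    IntermediateField.algebra_adjoin_le_adjoin K _ (aeval_mem_adjoin_singleton K x)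
  have h0 := h s (fun j => ⟨aeval x (p j), hmem j⟩) (by simpa [IntermediateField.smul_def]) i hi
  exact (transcendental_iff.mp hx) (p i) (congrArg Subtype.val h0)

theorem linearIndependent_of_polyIndep {ι : Type*} {x : F} {e : ι → F} (h : PolyIndep K x e) :
    LinearIndependent (IntermediateField.adjoin K ({x} : Set F)) e := by
  classical
  rw [linearIndependent_iff']
  intro s c hc i hi
  have hfrac : ∀ j, ∃ p q : K[X],
      (c j : F) = aeval x p / aeval x q ∧ aeval x q ≠ 0 := by
    intro j
    obtain ⟨p, q, hpq⟩ := (IntermediateField.mem_adjoin_simple_iff K (c j : F)).mp (c j).2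
    rcases eq_or_ne (aeval x q) 0 with hq | hq
    · exact ⟨0, 1, by rw [hpq, hq]; simp, by simp⟩
    · exact ⟨p, q, hpq, hq⟩
  choose p q hpq hq0 using hfrac
  have hrel := h s (fun j => p j * ∏ k ∈ s.erase j, q k) ?_ i hi
  · rcases mul_eq_zero.mp hrel with h1 | h1
    · exact Subtype.ext (by rw [hpq i, h1]; simp)
    · obtain ⟨k, hk, hk0⟩ := Finset.prod_eq_zero_iff.mp h1
      exact absurd (by rw [hk0, map_zero]) (hq0 k)
  · have e1 : ∀ j ∈ s, aeval x (p j * ∏ k ∈ s.erase j, q k) * e j =
        (∏ k ∈ s, aeval x (q k)) * ((c j : F) * e j) := by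
      intro j hj
      have := hq0 j
      rw [map_mul, map_prod, ← Finset.mul_prod_erase s (fun k => aeval x (q k)) hj, hpq j]
      field_simp
    rw [Finset.sum_congr rfl e1, ← Finset.mul_sum]
    have hc' : ∑ j ∈ s, (c j : F) * e j = 0 := by simpa [IntermediateField.smul_def] using hc
    rw [hc', mul_zero]

theorem pow_mul_mem_rr {x : F} {D : Divisor K F} (hD : IsPolar x D) {f : F} {m : ℕ}
    (hf : f ∈ riemannRochSpace (m • D)) (j : ℕ) :
    x ^ j * f ∈ riemannRochSpace ((m + j) • D) := by
  induction j with
  | zero => simpa using hf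
  | succ j ih =>
    have hxD : x ∈ riemannRochSpace D :=
      mem_rr_iff.mpr fun v => Or.inr (by rw [hD v]; omega)
    have := mul_mem_rr hxD ih
    rw [← succ_nsmul', ← mul_assoc, ← pow_succ', add_assoc] at this
    exact this

theorem linearIndependent_pow_mul {ι : Type*} [Fintype ι] {x : F} {e : ι → F}
    (h : PolyIndep K x e) (t : ℕ) :
    LinearIndependent K fun p : ι × Fin (t + 1) => x ^ (p.2 : ℕ) * e p.1 := by
  classical
  rw [Fintype.linearIndependent_iff]
  intro c hc ⟨i, j⟩
  have h0 := h Finset.univ (fun i => ∑ j : Fin (t + 1), C (c (i, j)) * X ^ (j : ℕ)) ?_ i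
    (Finset.mem_univ i)
  · have := congrArg (fun p => coeff p (j : ℕ)) h0
    simpa [finsetSum_coeff, coeff_C_mul, coeff_X_pow, Fin.val_inj] using this
  · simp only [map_sum, map_mul, map_pow, aeval_C, aeval_X, Finset.sum_mul]
    rw [← Fintype.sum_prod_type' (fun i j => algebraMap K F (c (i, j)) * x ^ ((j : Fin _) : ℕ) * e i)]
    simpa [Algebra.smul_def, mul_assoc] using hc

/-- Growth: at most `c` many independent elements when dimensions grow like `t * c`. -/
theorem card_le_of_forall_mul_le {n c d : ℕ} (h : ∀ t : ℕ, (t + 1) * n ≤ t * c + d) : n ≤ c := by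
  by_contra hlt
  have h1 := h d
  have h2 : c + 1 ≤ n := by omega
  have h3 : (d + 1) * (c + 1) ≤ (d + 1) * n := Nat.mul_le_mul_left _ h2
  nlinarith

theorem card_le_degree {g : ℕ} (hR : RRCurve K F g) {x : F} {D : Divisor K F} (hD : IsPolar x D)
    {ι : Type*} [Fintype ι] {e : ι → F} {m : ℕ} (he : ∀ i, e i ∈ riemannRochSpace (m • D))
    (h : PolyIndep K x e) : (Fintype.card ι : ℤ) ≤ Divisor.degree D := by
  classical
  rcases eq_or_ne D 0 with h0 | h0
  · subst h0
    have hb : ∀ t : ℕ, (t + 1) * Fintype.card ι ≤
        t * 0 + Module.finrank K (riemannRochSpace (0 : Divisor K F)) := by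
      intro t
      have := hR.finiteDimensional 0
      have hli := linearIndependent_pow_mul h t
      have hmem : ∀ p : ι × Fin (t + 1),
          x ^ (p.2 : ℕ) * e p.1 ∈ riemannRochSpace (0 : Divisor K F) := by
        intro p
        simpa using pow_mul_mem_rr hD (he p.1) (p.2 : ℕ)
      have := (LinearIndependent.of_comp (riemannRochSpace (0 : Divisor K F)).subtype
        (v := fun p => ⟨_, hmem p⟩) hli).fintype_card_le_finrank
      simpa [mul_comm] using this
    have := card_le_of_forall_mul_le hb
    simpa using this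
  · have hn : 0 ≤ Divisor.degree D := le_trans zero_le_one (one_le_degree hR hD.nonneg h0)
    obtain ⟨c, hc⟩ := Int.eq_ofNat_of_zero_le hn
    have hb : ∀ t : ℕ, (t + 1) * Fintype.card ι ≤ t * c + ((m + 2 * g) * c + 1) := by
      intro t
      have := hR.finiteDimensional ((m + 2 * g + t) • D)
      have hli := linearIndependent_pow_mul h t
      have hmem : ∀ p : ι × Fin (t + 1),
          x ^ (p.2 : ℕ) * e p.1 ∈ riemannRochSpace ((m + 2 * g + t) • D) := by
        intro p
        refine riemannRochSpace_mono' (nsmul_le_nsmul_left hD.nonneg ?_)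
          (pow_mul_mem_rr hD (he p.1) (p.2 : ℕ))
        have := p.2.isLt
        omega
      have h1 := (LinearIndependent.of_comp (riemannRochSpace ((m + 2 * g + t) • D)).subtype
        (v := fun p => ⟨_, hmem p⟩) hli).fintype_card_le_finrank
      rw [Fintype.card_prod, Fintype.card_fin] at h1
      have h2 := hR.finrank_eq _
        (two_mul_sub_one_le_degree hR hD.nonneg h0 (M := m + 2 * g + t) (by omega))
      rw [map_nsmul, nsmul_eq_mul, hc] at h2
      have h1' : (((t + 1) * Fintype.card ι : ℕ) : ℤ) ≤
          Module.finrank K (riemannRochSpace ((m + 2 * g + t) • D)) := by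
        rw [mul_comm]; exact_mod_cast h1
      have : (((t + 1) * Fintype.card ι : ℕ) : ℤ) ≤ ((t * c + ((m + 2 * g) * c + 1) : ℕ) : ℤ) := by
        push_cast at h2 h1' ⊢
        linarith [Int.natCast_nonneg g]
      exact_mod_cast this
    rw [hc]
    exact_mod_cast card_le_of_forall_mul_le hb

theorem exists_mem_rr_aeval_mul {g : ℕ} (hR : RRCurve K F g) {x : F} {D : Divisor K F}
    (hD : IsPolar x D) {e : F}
    (he : IsAlgebraic (Algebra.adjoin K ({x} : Set F)) e) :
    ∃ (p : K[X]) (m : ℕ), aeval x p ≠ 0 ∧ aeval x p * e ∈ riemannRochSpace (m • D) := by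
  obtain ⟨y, hy, hint⟩ := he.exists_integral_multiple
  obtain ⟨y, hy'⟩ := y
  obtain ⟨p, rfl⟩ := Algebra.adjoin_mem_exists_aeval K x hy'
  obtain ⟨m, hm⟩ := exists_mem_rr_nsmul hR hD (f := aeval x p * e)
    fun v hv => ord_nonneg_of_isIntegral_adjoin v hv (by simpa [Algebra.smul_def] using hint)
  exact ⟨p, m, fun h => hy (Subtype.ext h), hm⟩

/-- `deg (x)_∞ ≤ [F : K(x)]`. -/
theorem degree_le_finrank {g : ℕ} (hR : RRCurve K F g) {x : F} (hx : Transcendental K x)
    {D : Divisor K F} (hD : IsPolar x D)
    [FiniteDimensional (IntermediateField.adjoin K ({x} : Set F)) F] :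
    Divisor.degree D ≤ Module.finrank (IntermediateField.adjoin K ({x} : Set F)) F := by
  classical
  rcases eq_or_ne D 0 with h0 | h0
  · simp [h0]
  have hx0 : x ≠ 0 := fun h => hx (h ▸ isAlgebraic_zero)
  have hfd1 := hR.finiteDimensional ((2 * g + 1 + 1) • D)
  have hfd0 := hR.finiteDimensional ((2 * g + 1) • D)
  let X₁ := (riemannRochSpace ((2 * g + 1) • D)).map (LinearMap.mulLeft K x)
  have hX : X₁ ≤ riemannRochSpace ((2 * g + 1 + 1) • D) := by
    rintro _ ⟨f, hf, rfl⟩
    simpa [LinearMap.mulLeft_apply] using pow_mul_mem_rr hD hf 1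
  have hfdX : FiniteDimensional K X₁ := Submodule.finiteDimensional_of_le hX
  obtain ⟨V', hV'⟩ := Submodule.exists_isCompl X₁
  let V := V' ⊓ riemannRochSpace ((2 * g + 1 + 1) • D)
  have hfdV : FiniteDimensional K V := Submodule.finiteDimensional_of_le inf_le_right
  have hsup : X₁ ⊔ V = riemannRochSpace ((2 * g + 1 + 1) • D) := by
    show X₁ ⊔ V' ⊓ _ = _
    rw [← sup_inf_assoc_of_le V' hX, hV'.sup_eq_top, top_inf_eq]
  have hinf : X₁ ⊓ V = ⊥ := eq_bot_iff.mpr fun y hy => hV'.disjoint.le_bot ⟨hy.1, hy.2.1⟩
  have hinj : Function.Injective (LinearMap.mulLeft K x) := fun a b h => mul_left_cancel₀ hx0 h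
  have hdim := Submodule.finrank_sup_add_finrank_inf_eq X₁ V
  rw [hsup, hinf, finrank_bot, add_zero,
    show Module.finrank K X₁ = Module.finrank K (riemannRochSpace ((2 * g + 1) • D)) from
      (Submodule.equivMapOfInjective _ hinj _).finrank_eq.symm] at hdim
  have eW := hR.finrank_eq _
    (two_mul_sub_one_le_degree hR hD.nonneg h0 (M := 2 * g + 1 + 1) (by omega))
  have eU := hR.finrank_eq _
    (two_mul_sub_one_le_degree hR hD.nonneg h0 (M := 2 * g + 1) (by omega))
  have edeg : Divisor.degree ((2 * g + 1 + 1) • D) =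
      Divisor.degree ((2 * g + 1) • D) + Divisor.degree D := by rw [succ_nsmul, map_add]
  have hcard : (Module.finrank K V : ℤ) = Divisor.degree D := by omega
  let b := Module.finBasis K V
  let v : Fin (Module.finrank K V) → F := fun i => (b i : F)
  have hvW : ∀ i, v i ∈ riemannRochSpace ((2 * g + 1 + 1) • D) := fun i => (b i).2.2
  -- a polynomial relation with non-zero constant terms is impossible
  have hconst : ∀ p : Fin (Module.finrank K V) → K[X], ∑ i, aeval x (p i) * v i = 0 →
      ∀ i, (p i).coeff 0 = 0 := by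
    intro p hp
    let c : V := ∑ i, (p i).coeff 0 • b i
    let h := -∑ i, aeval x (p i).divX * v i
    have hc : (c : F) = x * h := by
      have e1 : ∀ i, aeval x (p i) * v i =
          x * (aeval x (p i).divX * v i) + (p i).coeff 0 • v i := fun i => by
        conv_lhs => rw [← X_mul_divX_add (p i)]
        rw [map_add, map_mul, aeval_X, aeval_C, Algebra.smul_def]
        ring
      rw [Finset.sum_congr rfl fun i _ => e1 i, Finset.sum_add_distrib, ← Finset.mul_sum] at hp
      show (c : F) = x * -_
      rw [mul_neg, eq_neg_iff_add_eq_zero, add_comm]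
      simpa [c, v] using hp
    have hmem : (c : F) ∈ X₁ := by
      refine ⟨h, mem_rr_iff.mpr fun w => ?_, hc.symm⟩
      rcases eq_or_ne h 0 with hh | hh
      · exact Or.inl hh
      refine Or.inr ?_
      rw [Finsupp.smul_apply, nsmul_eq_mul, hD w]
      have hcW := (mem_rr_iff.mp c.2.2 w).resolve_left
        (by rw [hc]; exact mul_ne_zero hx0 hh)
      rw [hc, w.ord_mul hx0 hh, Finsupp.smul_apply, nsmul_eq_mul, hD w] at hcW
      rcases le_or_gt 0 (w.ord x) with hw | hw
      · rw [max_eq_right (by omega), mul_zero, neg_zero]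
        have hxm : x ∈ w.toValuationSubring := mem_toValuationSubring_of_ord_nonneg w (Or.inr hw)
        have hvm : ∀ i, v i ∈ w.toValuationSubring := fun i => by
          refine mem_toValuationSubring_of_ord_nonneg w ?_
          rcases mem_rr_iff.mp (hvW i) w with h' | h'
          · exact Or.inl h'
          · rw [Finsupp.smul_apply, nsmul_eq_mul, hD w, max_eq_right (by omega), mul_zero,
              neg_zero] at h'
            exact Or.inr h'
        have hpm : ∀ q : K[X], aeval x q ∈ w.toValuationSubring := fun q => by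
          induction q using Polynomial.induction_on' with
          | add a b ha hb => rw [map_add]; exact add_mem ha hb
          | monomial i a =>
            rw [aeval_monomial]
            exact mul_mem (w.algebraMap_mem' a) (pow_mem hxm i)
        have hmem' : h ∈ w.toValuationSubring :=
          neg_mem (sum_mem fun i _ => mul_mem (hpm _) (hvm i))
        exact (eq_zero_or_ord_nonneg_of_mem w hmem').resolve_left hh
      · rw [max_eq_left (by omega)] at hcW ⊢
        push_cast at hcW ⊢
        linarith
    have hc0 : c = 0 := by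
      have hbot : (c : F) ∈ X₁ ⊓ V := ⟨hmem, c.2⟩
      rw [hinf, Submodule.mem_bot] at hbot
      exact Subtype.ext hbot
    exact Fintype.linearIndependent_iff.mp b.linearIndependent _ hc0
  have hv : PolyIndep K x v := by
    intro s p hp i hi
    let q : Fin (Module.finrank K V) → K[X] := fun i => if i ∈ s then p i else 0
    have hq : ∑ i, aeval x (q i) * v i = 0 := by
      rw [← hp, ← Finset.sum_subset (Finset.subset_univ s)]
      · exact Finset.sum_congr rfl fun i hi => by simp [q, hi]
      · intro i _ hi; simp [q, hi]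
    suffices h : ∀ n, ∀ q : Fin (Module.finrank K V) → K[X], ∑ i, aeval x (q i) * v i = 0 →
        ∀ i, (q i).coeff n = 0 by
      ext n
      simpa [q, hi] using h n q hq i
    intro n
    induction n with
    | zero => exact hconst
    | succ n ih =>
      intro q hq i
      have h0' := hconst q hq
      have h1 : ∀ i, q i = X * (q i).divX := fun i => by
        conv_lhs => rw [← X_mul_divX_add (q i), h0' i, map_zero, add_zero]
      have h2 : x * ∑ i, aeval x (q i).divX * v i = 0 := by
        rw [← hq, Finset.mul_sum]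
        exact Finset.sum_congr rfl fun i _ => by
          conv_rhs => rw [h1 i, map_mul, aeval_X, mul_assoc]
      have := ih _ ((mul_eq_zero.mp h2).resolve_left hx0) i
      rwa [coeff_divX] at this
  have := (linearIndependent_of_polyIndep hv).fintype_card_le_finrank
  rw [Fintype.card_fin] at this
  omega

/-- `deg (x)_∞ = [F : K(x)]`. -/
theorem degree_eq_finrank {g : ℕ} (hR : RRCurve K F g) {x : F} (hx : Transcendental K x)
    {D : Divisor K F} (hD : IsPolar x D)
    [FiniteDimensional (IntermediateField.adjoin K ({x} : Set F)) F] :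
    Divisor.degree D = Module.finrank (IntermediateField.adjoin K ({x} : Set F)) F := by
  classical
  refine le_antisymm (degree_le_finrank hR hx hD) ?_
  let b := Module.finBasis (IntermediateField.adjoin K ({x} : Set F)) F
  have hp := polyIndep_of_linearIndependent hx b.linearIndependent
  have hex : ∀ i, ∃ (p : K[X]) (m : ℕ), aeval x p ≠ 0 ∧
      aeval x p * b i ∈ riemannRochSpace (m • D) := fun i => by
    refine exists_mem_rr_aeval_mul hR hD ?_
    exact (IntermediateField.isAlgebraic_adjoin_iff (F := K)).mp
      (Algebra.IsAlgebraic.isAlgebraic _)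
  choose p m hp0 hm using hex
  have hi : PolyIndep K x (fun i => aeval x (p i) * b i) := by
    intro s q hq i hi
    have := hp s (fun i => q i * p i) (by rw [← hq]; simp [mul_assoc]) i hi
    exact (mul_eq_zero.mp this).resolve_right fun h => hp0 i (by rw [h]; simp)
  have := card_le_degree hR hD (m := ∑ i, m i) (fun i => riemannRochSpace_mono'
    (nsmul_le_nsmul_left hD.nonneg (Finset.single_le_sum (fun _ _ => Nat.zero_le _)
      (Finset.mem_univ i))) (hm i)) hi
  simpa using this

end FLTA.PlaceRed

end
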